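import Fermat.Agent.Hoheisel.InghamPrimes
import Fermat.Agent.Root.SummaryVinogradovKorobov

/-!
# The rate of the Vinogradov-Korobov region

`c / (L ^ (2/3) (log L) ^ (1/3))` exceeds every multiple of `log L / L`, so the hypothesis of
`FA.Hoheisel.mixed_of_rate` holds.
-/

set_option autoImplicit false

noncomputable section

namespace FA.Hoheisel

open Filter
open FA.RiemannMangoldt (xiFn xiFn_zero_strip xiFn_eq_zero_iff)
open FA.ExplicitFormula (zerosUpTo mem_zerosUpTo)

/-- **The zero-free region is wide enough.** -/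
theorem freeRate : FreeRate := by
  classical
  obtain ⟨c, hc, hvk⟩ := FA.Korobov.Summary.zero_free
  set S := insert (1 : ℝ) ((zerosUpTo 16).image fun ρ : ℂ => 1 - ρ.re) with hS
  set η := S.min' (Finset.insert_nonempty _ _) with hη
  have hη0 : 0 < η := by
    rw [hη, Finset.lt_min'_iff]
    intro y hy
    rw [hS, Finset.mem_insert, Finset.mem_image] at hy
    rcases hy with rfl | ⟨ρ, hρ, rfl⟩
    · exact one_pos
    · linarith [(xiFn_zero_strip (mem_zerosUpTo.1 hρ).1).2]
  intro A hA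
  have h2 : (fun x : ℝ => Real.log x) =o[atTop] fun x => x ^ ((1 : ℝ) / 6) :=
    isLittleO_log_rpow_atTop (by norm_num)
  have hlim : Tendsto (fun L : ℝ => A * (Real.log L / L)) atTop (nhds 0) := by
    simpa using ((Real.isLittleO_log_id_atTop.tendsto_div_nhds_zero).const_mul A)
  filter_upwards [eventually_ge_atTop (16 : ℝ),
    Real.tendsto_log_atTop.eventually (h2.def (show 0 < min 1 (c / A) by positivity)),
    Real.tendsto_log_atTop.eventually (hlim.eventually (eventually_le_nhds hη0)),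
    Real.tendsto_log_atTop.eventually_ge_atTop (Real.exp 1)]
    with T hT hsmall hlow hLe ρ hρ hi
  set L := Real.log T with hL
  set l := Real.log L with hl
  rcases lt_or_ge |ρ.im| 16 with h16 | h16
  · exact le_trans hlow (Finset.min'_le _ _ (Finset.mem_insert_of_mem (Finset.mem_image.2
      ⟨ρ, mem_zerosUpTo.2 ⟨hρ, h16.le⟩, rfl⟩)))
  obtain ⟨hX, hlX, -⟩ := FA.Korobov.Summary.e_le_log h16
  have hL0 : 0 < L := (Real.exp_pos 1).trans_le hLe
  have hl1 : 1 ≤ l := (Real.le_log_iff_exp_le hL0).2 hLe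
  obtain ⟨h0, h1⟩ := xiFn_zero_strip hρ
  have hρ1 : ρ ≠ 1 := fun h => by rw [h] at h1; simp at h1
  have hre := not_le.1 fun h => hvk ρ h16 h ((xiFn_eq_zero_iff h0 hρ1).1 hρ)
  have hXL : Real.log |ρ.im| ≤ L := Real.log_le_log (by linarith) hi
  have hden : Real.log |ρ.im| ^ (2 / 3 : ℝ) * Real.log (Real.log |ρ.im|) ^ (1 / 3 : ℝ) ≤
      L ^ (2 / 3 : ℝ) * l :=
    mul_le_mul (Real.rpow_le_rpow (by linarith) hXL (by norm_num))
      ((Real.rpow_le_self_of_one_le hlX (by norm_num)).trans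
        (Real.log_le_log (by linarith) hXL)) (Real.rpow_nonneg (by linarith) _) (by positivity)
  have hmain : A * (l / L) ≤ c / (L ^ (2 / 3 : ℝ) * l) := by
    rw [← mul_div_assoc, div_le_div_iff₀ hL0 (by positivity)]
    rw [Real.norm_of_nonneg (by linarith), Real.norm_of_nonneg (Real.rpow_nonneg hL0.le _)]
      at hsmall
    have hm1 : l ≤ L ^ ((1 : ℝ) / 6) := hsmall.trans
      (mul_le_of_le_one_left (Real.rpow_nonneg hL0.le _) (min_le_left _ _))
    have hm2 : l * A ≤ c * L ^ ((1 : ℝ) / 6) := by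
      have := hsmall.trans (mul_le_mul_of_nonneg_right (min_le_right _ _)
        (Real.rpow_nonneg hL0.le _))
      calc l * A ≤ c / A * L ^ ((1 : ℝ) / 6) * A := mul_le_mul_of_nonneg_right this hA.le
        _ = _ := by field_simp
    calc A * l * (L ^ (2 / 3 : ℝ) * l) = l * A * l * L ^ (2 / 3 : ℝ) := by ring
      _ ≤ c * L ^ ((1 : ℝ) / 6) * L ^ ((1 : ℝ) / 6) * L ^ (2 / 3 : ℝ) := by gcongr
      _ = c * L := by
          rw [mul_assoc, mul_assoc, ← Real.rpow_add hL0, ← Real.rpow_add hL0]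
          norm_num
  have hlast : c / (L ^ (2 / 3 : ℝ) * l) ≤
      c / (Real.log |ρ.im| ^ (2 / 3 : ℝ) * Real.log (Real.log |ρ.im|) ^ (1 / 3 : ℝ)) :=
    div_le_div_of_nonneg_left hc.le
      (mul_pos (Real.rpow_pos_of_pos (by linarith) _) (Real.rpow_pos_of_pos (by linarith) _)) hden
  linarith

end FA.Hoheisel

end
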