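import Fermat.Agent.Hoheisel.ShortIntervals
import Mathlib.NumberTheory.Bertrand
import Mathlib.Data.Nat.Nth

/-!
# Primes between consecutive powers, and Mills' theorem

From a prime in `(x, x + x ^ θ]` with `θ < 1`: for every large exponent `k` there is a prime
strictly between `n ^ k` and `(n + 1) ^ k` for all `n ≥ 1`, hence a real `A` such that
`⌊A ^ (k ^ m)⌋` is prime for every `m`.
-/

set_option autoImplicit false

noncomputable section

namespace FA.Hoheisel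

open Filter

/-- A prime in every interval `(x, x + x ^ θ]` with `x` large, from the count. -/
theorem prime_short_of_count {θ : ℝ} (hθ1 : θ ≤ 1)
    (h : ∀ ε : ℝ, 0 < ε → ∀ᶠ x in atTop, ∀ h : ℝ, x ^ θ ≤ h → h ≤ x →
      |Chebyshev.theta (x + h) - Chebyshev.theta x - h| ≤ ε * h ∧
        |((Nat.primeCounting ⌊x + h⌋₊ : ℝ) - Nat.primeCounting ⌊x⌋₊) * Real.log x - h| ≤
          ε * h) :
    ∃ x₀ : ℝ, 2 ≤ x₀ ∧ ∀ x : ℝ, x₀ ≤ x → ∃ p : ℕ, p.Prime ∧ x < p ∧ (p : ℝ) ≤ x + x ^ θ := by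
  obtain ⟨x₁, hx₁⟩ := eventually_atTop.1 (h (1 / 2) (by norm_num))
  refine ⟨max x₁ 2, le_max_right _ _, fun x hx => ?_⟩
  have hx2 : 2 ≤ x := (le_max_right _ _).trans hx
  have hpos : 0 < x ^ θ := Real.rpow_pos_of_pos (by linarith) _
  have hle : x ^ θ ≤ x := Real.rpow_le_self_of_one_le (by linarith) hθ1
  have h1 := (hx₁ x ((le_max_left _ _).trans hx) (x ^ θ) le_rfl hle).2
  have h2 : Nat.primeCounting ⌊x⌋₊ < Nat.primeCounting ⌊x + x ^ θ⌋₊ := by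
    by_contra hc
    have h3 : (Nat.primeCounting ⌊x + x ^ θ⌋₊ : ℝ) ≤ Nat.primeCounting ⌊x⌋₊ :=
      Nat.cast_le.2 (not_lt.1 hc)
    have h4 := mul_nonpos_of_nonpos_of_nonneg (sub_nonpos.2 h3)
      (Real.log_nonneg (show 1 ≤ x by linarith))
    linarith [(abs_le.1 h1).1]
  by_contra hno
  push Not at hno
  refine absurd h2 (not_lt.2 ?_)
  rw [Nat.primeCounting, Nat.primeCounting, ← Nat.primesBelow_card_eq_primeCounting',
    ← Nat.primesBelow_card_eq_primeCounting']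
  refine Finset.card_le_card fun p hp => ?_
  rw [Nat.mem_primesBelow] at hp ⊢
  refine ⟨Nat.lt_succ_of_le (Nat.le_floor ?_), hp.2⟩
  by_contra hc
  have h5 : (p : ℝ) ≤ x + x ^ θ :=
    (Nat.cast_le.2 (Nat.lt_succ_iff.1 hp.1)).trans (Nat.floor_le (by linarith))
  linarith [hno p hp.2 (not_le.1 hc)]

/-- A prime in every interval `(x, x + x ^ θ]` with `x` large. -/
theorem exists_prime_short : ∃ θ : ℝ, 1 / 2 < θ ∧ θ < 1 ∧ ∃ x₀ : ℝ, 2 ≤ x₀ ∧ ∀ x : ℝ, x₀ ≤ x →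
    ∃ p : ℕ, p.Prime ∧ x < p ∧ (p : ℝ) ≤ x + x ^ θ := by
  obtain ⟨θ, hθ, hθ1, h⟩ := exists_hoheisel
  exact ⟨θ, hθ, hθ1, prime_short_of_count hθ1.le h⟩

/-- The gap after the `n`-th prime, from a prime in short intervals. -/
theorem gap_of_prime_short {θ x₀ : ℝ}
    (h : ∀ x : ℝ, x₀ ≤ x → ∃ p : ℕ, p.Prime ∧ x < p ∧ (p : ℝ) ≤ x + x ^ θ) :
    ∀ᶠ n in atTop, (Nat.nth Nat.Prime (n + 1) : ℝ) - Nat.nth Nat.Prime n ≤
      (Nat.nth Nat.Prime n : ℝ) ^ θ := by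
  have hinf : {p : ℕ | p.Prime}.Infinite := Nat.infinite_setOfPred_prime
  filter_upwards [(tendsto_natCast_atTop_atTop.comp
    (Nat.nth_strictMono hinf).tendsto_atTop).eventually_ge_atTop x₀] with n hn
  obtain ⟨p, hp, hp1, hp2⟩ := h _ hn
  have hp1' : Nat.nth Nat.Prime n < p := by
    simp only [Function.comp_apply] at hp1
    exact_mod_cast hp1
  rw [← Nat.nth_count hp] at hp1'
  have h1 : Nat.nth Nat.Prime (n + 1) ≤ p := by
    rw [← Nat.nth_count hp]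
    exact (Nat.nth_strictMono hinf).monotone ((Nat.nth_strictMono hinf).lt_iff_lt.1 hp1')
  have h2 : (Nat.nth Nat.Prime (n + 1) : ℝ) ≤ p := Nat.cast_le.2 h1
  simp only [Function.comp_apply] at hp2
  linarith

/-- The gap after the `n`-th prime. -/
theorem exists_prime_gap : ∃ θ : ℝ, θ < 1 ∧ ∀ᶠ n in atTop,
    (Nat.nth Nat.Prime (n + 1) : ℝ) - Nat.nth Nat.Prime n ≤ (Nat.nth Nat.Prime n : ℝ) ^ θ := by
  obtain ⟨θ, -, hθ1, x₀, -, h⟩ := exists_prime_short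
  exact ⟨θ, hθ1, gap_of_prime_short h⟩

theorem pow_add_mul_le (n : ℕ) : ∀ k : ℕ, n ^ (k + 1) + (k + 1) * n ^ k ≤ (n + 1) ^ (k + 1) := by
  intro k
  induction k with
  | zero => simp
  | succ k ih =>
    calc n ^ (k + 1 + 1) + (k + 1 + 1) * n ^ (k + 1)
        ≤ (n ^ (k + 1) + (k + 1) * n ^ k) * (n + 1) := by ring_nf; omega
      _ ≤ _ := by rw [pow_succ (n + 1) (k + 1)]; gcongr

/-- **A prime between consecutive powers.** -/
theorem exists_prime_between_powers : ∃ K : ℕ, ∀ k, K ≤ k → ∀ n, 1 ≤ n →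
    ∃ p : ℕ, p.Prime ∧ n ^ k < p ∧ p < (n + 1) ^ k := by
  obtain ⟨θ, hθ, hθ1, x₀, hx₀, h⟩ := exists_prime_short
  refine ⟨max (⌈1 / (1 - θ)⌉₊ + 2) (⌈x₀⌉₊ + 2), fun k hk n hn => ?_⟩
  obtain ⟨j, rfl⟩ : ∃ j, k = j + 1 := ⟨k - 1, by omega⟩
  have hpow := pow_add_mul_le n j
  rcases lt_or_ge n ⌈x₀⌉₊ with hsmall | hbig
  · obtain ⟨p, hp, hp1, hp2⟩ := Nat.exists_prime_lt_and_le_two_mul (n ^ (j + 1))
      (pow_ne_zero _ (by omega))
    refine ⟨p, hp, hp1, lt_of_lt_of_le (lt_of_le_of_lt hp2 ?_) hpow⟩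
    have : n * n ^ j < (j + 1) * n ^ j :=
      (Nat.mul_lt_mul_right (pow_pos (by omega) j)).2 (by omega)
    rw [two_mul, pow_succ']
    omega
  · have hn1 : (1 : ℝ) ≤ n := Nat.one_le_cast.2 hn
    have hx : x₀ ≤ (n : ℝ) ^ (j + 1) := (Nat.ceil_le.1 hbig).trans (le_self_pow₀ hn1 (by omega))
    obtain ⟨p, hp, hp1, hp2⟩ := h _ hx
    have hexp : (((n : ℝ)) ^ (j + 1)) ^ θ ≤ (n : ℝ) ^ j := by
      rw [← Real.rpow_natCast (n : ℝ) (j + 1), ← Real.rpow_mul (by linarith),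
        ← Real.rpow_natCast (n : ℝ) j]
      refine Real.rpow_le_rpow_of_exponent_le hn1 ?_
      have hK : 1 / (1 - θ) + 2 ≤ ((j + 1 : ℕ) : ℝ) := by
        have : ((⌈1 / (1 - θ)⌉₊ + 2 : ℕ) : ℝ) ≤ ((j + 1 : ℕ) : ℝ) :=
          Nat.cast_le.2 ((le_max_left _ _).trans hk)
        push_cast at this ⊢
        linarith [Nat.le_ceil (1 / (1 - θ))]
      have h1 : 1 / (1 - θ) ≤ ((j + 1 : ℕ) : ℝ) := by linarith
      rw [div_le_iff₀ (by linarith)] at h1
      push_cast at h1 ⊢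
      linarith
    refine ⟨p, hp, by exact_mod_cast hp1, ?_⟩
    have h2 : p ≤ n ^ (j + 1) + n ^ j := by
      have : (p : ℝ) ≤ (n : ℝ) ^ (j + 1) + (n : ℝ) ^ j := by linarith
      exact_mod_cast this
    have : 1 * n ^ j < (j + 1) * n ^ j :=
      (Nat.mul_lt_mul_right (pow_pos (by omega) j)).2 (by omega)
    omega

/-- Mills' construction from primes between `k`-th powers of the numbers from `N₀` on. -/
theorem mills_of_between {k N₀ : ℕ} (hk2 : 2 ≤ k)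
    (hK : ∀ n, N₀ ≤ n → ∃ p : ℕ, p.Prime ∧ n ^ k < p ∧ p < (n + 1) ^ k) :
    ∃ A : ℝ, 1 < A ∧ ∀ m : ℕ, Nat.Prime ⌊A ^ (k ^ m)⌋₊ := by
  obtain ⟨q, hq, hqp⟩ := Nat.exists_infinite_primes (max N₀ 2)
  have step : ∀ P : ℕ, ∃ p : ℕ, max N₀ 2 ≤ P → p.Prime ∧ P ^ k < p ∧ p + 1 < (P + 1) ^ k := by
    intro P
    by_cases hP : max N₀ 2 ≤ P
    · obtain ⟨p, hp, hp1, hp2⟩ := hK P (le_trans (le_max_left _ _) hP)
      have hP2 : 2 ≤ P := le_trans (le_max_right _ _) hP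
      refine ⟨p, fun _ => ⟨hp, hp1, lt_of_le_of_ne hp2 fun he => ?_⟩⟩
      have hdvd : P ∣ p := by
        have h1 : P ∣ (P + 1) ^ k - 1 := by
          simpa using Nat.sub_dvd_pow_sub_pow (P + 1) 1 k
        rwa [← he, Nat.succ_sub_one] at h1
      rcases (Nat.dvd_prime hp).1 hdvd with h | h
      · omega
      · have := Nat.le_self_pow (show k ≠ 0 by omega) P
        omega
    · exact ⟨0, fun h => absurd h hP⟩
  choose f hf using step
  obtain ⟨P, hP0, hPs⟩ : ∃ P : ℕ → ℕ, P 0 = q ∧ ∀ m, P (m + 1) = f (P m) :=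
    ⟨fun m => Nat.rec q (fun _ r => f r) m, rfl, fun _ => rfl⟩
  have hbig : ∀ m, max N₀ 2 ≤ P m ∧ (P m).Prime := by
    intro m
    induction m with
    | zero => rw [hP0]; exact ⟨hq, hqp⟩
    | succ m ih =>
      obtain ⟨h1, h2, -⟩ := hf _ ih.1
      rw [hPs]
      exact ⟨ih.1.trans ((Nat.le_self_pow (by omega) _).trans h2.le), h1⟩
  have hprime : ∀ m, (P m).Prime := fun m => (hbig m).2
  set e : ℕ → ℝ := fun m => (((k ^ m : ℕ)) : ℝ)⁻¹ with he
  have hek : ∀ m, e m = (k : ℝ) * e (m + 1) := fun m => by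
    simp only [he]
    push_cast
    rw [pow_succ]
    field_simp
  have hpw : ∀ (m : ℕ) (x : ℝ), 0 ≤ x → x ^ e m = (x ^ k) ^ e (m + 1) := fun m x hx => by
    rw [hek, Real.rpow_mul hx, Real.rpow_natCast]
  have he0 : ∀ m, 0 < e m := fun m => inv_pos.2 (Nat.cast_pos.2 (pow_pos (by omega) m))
  set a : ℕ → ℝ := fun m => (P m : ℝ) ^ e m with ha
  set b : ℕ → ℝ := fun m => ((P m : ℝ) + 1) ^ e m with hb
  have haux : ∀ m, a m < a (m + 1) ∧ b (m + 1) < b m := by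
    intro m
    obtain ⟨-, h1, h2⟩ := hf _ (hbig m).1
    rw [← hPs] at h1 h2
    simp only [ha, hb]
    rw [hpw m _ (Nat.cast_nonneg _), hpw m _ (by positivity)]
    constructor
    · exact Real.rpow_lt_rpow (by positivity) (by exact_mod_cast h1) (he0 _)
    · exact Real.rpow_lt_rpow (by positivity) (by exact_mod_cast h2) (he0 _)
  have hmono : StrictMono a := strictMono_nat_of_lt_succ fun m => (haux m).1
  have hanti : StrictAnti b := strictAnti_nat_of_succ_lt fun m => (haux m).2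
  have hab : ∀ i j, a i ≤ b j := by
    intro i j
    refine (hmono.monotone (le_max_left i j)).trans (le_trans ?_
      (hanti.antitone (le_max_right i j)))
    exact Real.rpow_le_rpow (Nat.cast_nonneg _) (by linarith) (he0 _).le
  have hbdd : BddAbove (Set.range a) := ⟨b 0, fun x ⟨i, hi⟩ => hi ▸ hab i 0⟩
  set A := ⨆ m, a m with hA
  have hlo : ∀ m, a m ≤ A := fun m => le_ciSup hbdd m
  have hhi : ∀ m, A < b m := fun m =>
    lt_of_le_of_lt (ciSup_le fun i => hab i (m + 1)) (haux m).2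
  have hA2 : 2 ≤ A := by
    have := hlo 0
    have h2 : (2 : ℝ) ≤ (q : ℝ) := Nat.ofNat_le_cast.2 hqp.two_le
    refine h2.trans ?_
    simpa [ha, he, hP0] using this
  refine ⟨A, by linarith, fun m => ?_⟩
  have hne : k ^ m ≠ 0 := pow_ne_zero _ (by omega)
  rw [(Nat.floor_eq_iff (by positivity)).2 (?_ : ((P m : ℝ) ≤ A ^ (k ^ m)) ∧ _)]
  · exact hprime m
  refine ⟨?_, ?_⟩
  · rw [← Real.rpow_inv_natCast_pow (Nat.cast_nonneg (P m)) hne]
    exact pow_le_pow_left₀ (Real.rpow_nonneg (Nat.cast_nonneg _) _) (hlo m) _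
  · rw [← Real.rpow_inv_natCast_pow (show (0 : ℝ) ≤ (P m : ℝ) + 1 by positivity) hne]
    exact pow_lt_pow_left₀ (hhi m) (by linarith) hne

/-- **Mills' theorem.** -/
theorem exists_mills : ∃ A : ℝ, 1 < A ∧ ∃ k : ℕ, 2 ≤ k ∧ ∀ m : ℕ,
    Nat.Prime ⌊A ^ (k ^ m)⌋₊ := by
  obtain ⟨K, hK⟩ := exists_prime_between_powers
  obtain ⟨A, hA, h⟩ := mills_of_between (k := max K 2) (N₀ := 1) (le_max_right _ _)
    (hK _ (le_max_left _ _))
  exact ⟨A, hA, max K 2, le_max_right _ _, h⟩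

end FA.Hoheisel

end
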