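import Fermat.Agent.Hoheisel.InghamIntervals
import Fermat.Agent.Hoheisel.Mills

/-!
# Prime gaps, primes between consecutive cubes, Mills' original theorem

Consequences of Ingham's exponent `θ = 5/8 + ε`: as `3 θ < 2` for small `ε`, every large interval
`(n ^ 3, (n + 1) ^ 3)` has a prime, hence a real `A` with `⌊A ^ (3 ^ m)⌋` prime for every `m`.
-/

set_option autoImplicit false

noncomputable section

namespace FA.Hoheisel

open Filter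

/-- A prime in `(x, x + x ^ θ]` for `x` large, `5/8 < θ ≤ 1`. -/
theorem ingham_prime_short (H : FreeRate) {θ : ℝ} (hθ : 5 / 8 < θ) (hθ1 : θ ≤ 1) :
    ∃ x₀ : ℝ, 2 ≤ x₀ ∧ ∀ x : ℝ, x₀ ≤ x → ∃ p : ℕ, p.Prime ∧ x < p ∧ (p : ℝ) ≤ x + x ^ θ :=
  prime_short_of_count hθ1 (ingham_short_of_rate H hθ)

/-- `p_{n+1} - p_n ≤ p_n ^ θ` for large `n`. -/
theorem ingham_gap (H : FreeRate) {θ : ℝ} (hθ : 5 / 8 < θ) :
    ∀ᶠ n in atTop, (Nat.nth Nat.Prime (n + 1) : ℝ) - Nat.nth Nat.Prime n ≤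
      (Nat.nth Nat.Prime n : ℝ) ^ θ := by
  obtain ⟨x₀, -, h⟩ := ingham_prime_short H (θ := min θ 1) (lt_min hθ (by norm_num))
    (min_le_right _ _)
  filter_upwards [gap_of_prime_short h] with n hn
  refine hn.trans (Real.rpow_le_rpow_of_exponent_le ?_ (min_le_left _ _))
  exact Nat.one_le_cast.2 (Nat.prime_nth_prime n).one_le

/-- A prime between consecutive cubes. -/
theorem ingham_cubes (H : FreeRate) :
    ∃ N₀ : ℕ, ∀ n, N₀ ≤ n → ∃ p : ℕ, p.Prime ∧ n ^ 3 < p ∧ p < (n + 1) ^ 3 := by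
  obtain ⟨x₀, -, h⟩ := ingham_prime_short H (θ := 31 / 48) (by norm_num) (by norm_num)
  refine ⟨⌈x₀⌉₊ + 1, fun n hn => ?_⟩
  have hn1 : (1 : ℝ) ≤ n := Nat.one_le_cast.2 (by omega)
  have hx : x₀ ≤ (n : ℝ) ^ 3 :=
    (Nat.ceil_le.1 (show ⌈x₀⌉₊ ≤ n by omega)).trans (le_self_pow₀ hn1 (by norm_num))
  obtain ⟨p, hp, hp1, hp2⟩ := h _ hx
  have hexp : ((n : ℝ) ^ 3) ^ (31 / 48 : ℝ) ≤ (n : ℝ) ^ 2 := by
    rw [← Real.rpow_natCast (n : ℝ) 3, ← Real.rpow_mul (by linarith),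
      ← Real.rpow_natCast (n : ℝ) 2]
    exact Real.rpow_le_rpow_of_exponent_le hn1 (by norm_num)
  refine ⟨p, hp, by exact_mod_cast hp1, ?_⟩
  have h2 : p ≤ n ^ 3 + n ^ 2 := by
    have : (p : ℝ) ≤ (n : ℝ) ^ 3 + (n : ℝ) ^ 2 := by linarith
    exact_mod_cast this
  have h3 : n ^ 3 + 3 * n ^ 2 ≤ (n + 1) ^ 3 := pow_add_mul_le n 2
  have h4 : 0 < n ^ 2 := pow_pos (by omega) 2
  omega

/-- Mills' theorem with exponent `3`. -/
theorem ingham_mills (H : FreeRate) :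
    ∃ A : ℝ, 1 < A ∧ ∀ m : ℕ, Nat.Prime ⌊A ^ (3 ^ m)⌋₊ := by
  obtain ⟨N₀, h⟩ := ingham_cubes H
  exact mills_of_between (by norm_num) h

end FA.Hoheisel

end
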