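import Fermat.Agent.Hoheisel.Derivative
import Fermat.Agent.Subconvexity.ZetaLine
import Fermat.Agent.DelaValleePoussin.Region
import Fermat.Agent.ExplicitFormula.Zeros
import Mathlib.NumberTheory.Harmonic.Bounds
import Mathlib.NumberTheory.Harmonic.ZetaAsymp
import Mathlib.Analysis.SpecialFunctions.Log.Monotone

/-!
# Littlewood's zero-free region

With `L = log t` and `ℓ = log L`: `ζ (s) = O (L ^ 6)` for `re s ≥ 1 - ℓ ^ 2 / L`, by the
derivative tests of all orders up to `ℓ`, hence `ζ` has no zero with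
`re s ≥ 1 - c ℓ / L` by Landau's lemma and the `3-4-1` inequality.
-/

set_option autoImplicit false

noncomputable section

namespace FA.Hoheisel

open Finset Complex Metric Filter
open FA.Subconvexity (expI phase)
open FA.RiemannMangoldt (xiFn xiFn_zero_strip xiFn_eq_zero_iff)
open scoped ArithmeticFunction.vonMangoldt

theorem one_div_cpow_eq {s : ℂ} {n : ℕ} (hn : 1 ≤ n) :
    1 / (n : ℂ) ^ s = (((n : ℝ) ^ (-s.re) : ℝ) : ℂ) * expI (-(s.im * Real.log n)) := by
  have hn0 : (0 : ℝ) < n := Nat.cast_pos.2 hn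
  rw [Real.rpow_def_of_pos hn0, ofReal_exp, Subconvexity.expI, ← Complex.exp_add,
    cpow_def_of_ne_zero (Nat.cast_ne_zero.2 (by omega)), one_div, ← Complex.exp_neg,
    ← natCast_log]
  congr 1
  apply Complex.ext <;> simp <;> ring

/-- The facts about `L = log t` and `ℓ = log L` that are used. -/
structure LogSize (L l : ℝ) : Prop where
  hl : l = Real.log L
  big : 20 ≤ l
  four : l ^ 4 ≤ L / 4096

theorem eventually_logSize (K : ℝ) :
    ∀ᶠ L in atTop, LogSize L (Real.log L) ∧ K ≤ Real.log L := by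
  have h : (fun x : ℝ => Real.log x ^ 4) =o[atTop] id := Real.isLittleO_pow_log_id_atTop
  filter_upwards [h.def (show (0 : ℝ) < 1 / 4096 by norm_num), eventually_gt_atTop (0 : ℝ),
    Real.tendsto_log_atTop.eventually_ge_atTop (max 20 K)] with L h1 h0 h2
  refine ⟨⟨rfl, (le_max_left _ _).trans h2, ?_⟩, (le_max_right _ _).trans h2⟩
  simp only [id, Real.norm_eq_abs, abs_of_pos h0] at h1
  linarith [le_abs_self (Real.log L ^ 4)]

theorem LogSize.pos {L l : ℝ} (h : LogSize L l) : 100 ≤ L := by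
  have := pow_le_pow_left₀ (by norm_num) h.big 4
  linarith [h.four]

theorem LogSize.le {L l : ℝ} (h : LogSize L l) : l ≤ L := by
  have := le_self_pow₀ (show 1 ≤ l by linarith [h.big]) (show (4 : ℕ) ≠ 0 by norm_num)
  linarith [h.four, h.pos]

theorem LogSize.sq_le {L l : ℝ} (h : LogSize L l) : 2 * l ^ 2 ≤ L := by
  have h1 : 1 ≤ l := by linarith [h.big]
  have h2 := pow_le_pow_right₀ h1 (show 2 ≤ 4 by norm_num)
  linarith [h.four, h.pos]

/-- **The sum of the series up to `t²`, close to `re s = 1`.** -/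
theorem norm_sum_near_one_le {s : ℂ} {L l : ℝ} (ht : 2 ≤ s.im) (hL : L = Real.log s.im)
    (hsz : LogSize L l) (hσ : 1 - l ^ 2 / L ≤ s.re) :
    ∀ X : ℕ, (X : ℝ) ≤ s.im ^ 2 + 1 →
      ‖∑ n ∈ Icc 1 X, 1 / (n : ℂ) ^ s‖ ≤ 6 * L ^ 5 + ((Nat.log 2 X : ℝ) + 1) * 464 := by
  set t := s.im with ht'
  set η := l ^ 2 / L with hη
  have hL100 := hsz.pos
  have hL0 : 0 < L := by linarith
  have hl20 := hsz.big
  have hl0 : 0 < l := by linarith
  have hη0 : 0 ≤ η := by positivity
  have hη1 : η ≤ 1 / 2 := by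
    rw [hη, div_le_iff₀ hL0]
    linarith [hsz.sq_le]
  have hσ0 : 0 ≤ s.re := by linarith
  have hlL : l ≤ L := hsz.le
  intro X
  induction X using Nat.strong_induction_on with
  | h X ih =>
    intro hX
    set h := X / 2 with hh
    by_cases hbase : ((h + 1 : ℕ) : ℝ) < Real.exp (4 * L / l)
    · -- few terms
      refine le_trans ?_ (le_add_of_nonneg_right (by positivity))
      rcases Nat.eq_zero_or_pos X with rfl | hX1
      · simp
        positivity
      have hX0 : (0 : ℝ) < X := Nat.cast_pos.2 hX1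
      have hXle : (X : ℝ) ≤ 2 * Real.exp (4 * L / l) := by
        have : (X : ℝ) ≤ 2 * ((h + 1 : ℕ) : ℝ) := by
          exact_mod_cast (show X ≤ 2 * (h + 1) by omega)
        linarith
      have hterm : ∀ n ∈ Icc 1 X, ‖1 / (n : ℂ) ^ s‖ ≤ (X : ℝ) ^ η * ((n : ℝ))⁻¹ := by
        intro n hn
        obtain ⟨h1, h2⟩ := mem_Icc.1 hn
        have hn0 : (0 : ℝ) < n := Nat.cast_pos.2 h1
        rw [norm_div, norm_one, Complex.norm_natCast_cpow_of_pos h1, one_div,
          ← Real.rpow_neg hn0.le]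
        calc (n : ℝ) ^ (-s.re) ≤ (n : ℝ) ^ (η - 1) :=
              Real.rpow_le_rpow_of_exponent_le (Nat.one_le_cast.2 h1) (by linarith)
          _ = (n : ℝ) ^ η * ((n : ℝ))⁻¹ := by rw [Real.rpow_sub_one hn0.ne', div_eq_mul_inv]
          _ ≤ _ := by gcongr
      refine (norm_sum_le _ _).trans ((Finset.sum_le_sum hterm).trans ?_)
      rw [← Finset.mul_sum]
      have hharm : ∑ n ∈ Icc 1 X, ((n : ℝ))⁻¹ ≤ 1 + Real.log X := by
        have := harmonic_le_one_add_log X
        rw [harmonic_eq_sum_Icc] at this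
        push_cast at this
        exact this
      have hlogX : Real.log X ≤ 1 + 4 * L / l := by
        have := Real.log_le_log hX0 hXle
        rw [Real.log_mul (by norm_num) (Real.exp_pos _).ne', Real.log_exp] at this
        linarith [Real.log_le_sub_one_of_pos (show (0 : ℝ) < 2 by norm_num)]
      have h4 : 4 * L / l ≤ L := by
        rw [div_le_iff₀ hl0]
        nlinarith
      have hXη : (X : ℝ) ^ η ≤ 2 * L ^ 4 := by
        refine (Real.rpow_le_rpow hX0.le hXle hη0).trans ?_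
        rw [Real.mul_rpow two_pos.le (Real.exp_pos _).le, ← Real.exp_mul]
        refine mul_le_mul (Real.rpow_le_self_of_one_le one_le_two (by linarith)) (le_of_eq ?_)
          (Real.exp_pos _).le two_pos.le
        rw [hη, show 4 * L / l * (l ^ 2 / L) = ((4 : ℕ) : ℝ) * l by push_cast; field_simp,
          Real.exp_nat_mul, hsz.hl, Real.exp_log hL0]
      calc (X : ℝ) ^ η * ∑ n ∈ Icc 1 X, ((n : ℝ))⁻¹ ≤ 2 * L ^ 4 * (1 + (1 + 4 * L / l)) :=
            mul_le_mul hXη (hharm.trans (by linarith))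
              (Finset.sum_nonneg fun _ _ => by positivity) (by positivity)
        _ ≤ 2 * L ^ 4 * (3 * L) := by gcongr; linarith
        _ = 6 * L ^ 5 := by ring
    push Not at hbase
    have hN0 : (0 : ℝ) < ((h + 1 : ℕ) : ℝ) := Nat.cast_pos.2 h.succ_pos
    have hlogN : 4 * L / l ≤ Real.log ((h + 1 : ℕ) : ℝ) := by
      rw [Real.le_log_iff_exp_le hN0]
      exact hbase
    have hX2 : 2 ≤ X := by
      by_contra hc
      have hh0 : h = 0 := by omega
      rw [hh0] at hlogN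
      simp at hlogN
      have : 0 < 4 * L / l := by positivity
      linarith
    have hNt : ((h + 1 : ℕ) : ℝ) ≤ t ^ 2 := by
      have : 2 * ((h + 1 : ℕ) : ℝ) ≤ X + 2 := by
        exact_mod_cast (show 2 * (h + 1) ≤ X + 2 by omega)
      nlinarith
    set x := L / Real.log ((h + 1 : ℕ) : ℝ) with hx
    have hlN0 : 0 < Real.log ((h + 1 : ℕ) : ℝ) := lt_of_lt_of_le (by positivity) hlogN
    have hxlo : 1 / 2 ≤ x := by
      rw [hx, le_div_iff₀ hlN0]
      have := Real.log_le_log hN0 hNt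
      rw [Real.log_pow, ← hL, Nat.cast_ofNat] at this
      linarith
    have hxhi : x ≤ l / 4 := by
      rw [hx, div_le_iff₀ hlN0]
      have : 4 * L ≤ l * Real.log ((h + 1 : ℕ) : ℝ) := by
        rw [div_le_iff₀ hl0] at hlogN
        linarith
      linarith
    set j := ⌊x - 1 / 2⌋₊ with hj
    have hj1 : (j : ℝ) ≤ x - 1 / 2 := Nat.floor_le (by linarith)
    have hj2 : x - 1 / 2 < j + 1 := Nat.lt_floor_add_one _
    have htpow : ((h + 1 : ℕ) : ℝ) ^ x = t := by
      rw [Real.rpow_def_of_pos hN0, hx, mul_div_cancel₀ _ hlN0.ne', hL,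
        Real.exp_log (by linarith)]
    have hN1 : (1 : ℝ) ≤ ((h + 1 : ℕ) : ℝ) := Nat.one_le_cast.2 h.succ_pos
    have ht1 : ((h + 1 : ℕ) : ℝ) ^ ((j : ℝ) + 1 / 2) ≤ t :=
      htpow ▸ Real.rpow_le_rpow_of_exponent_le hN1 (by linarith)
    have ht2 : t ≤ ((h + 1 : ℕ) : ℝ) ^ ((j : ℝ) + 3 / 2) :=
      htpow ▸ Real.rpow_le_rpow_of_exponent_le hN1 (by linarith)
    have hk : (3 * ((j : ℝ) + 2)) ^ (j + 2) ≤ ((h + 1 : ℕ) : ℝ) ^ ((1 : ℝ) / 16) := by
      rw [← Real.log_le_log_iff (by positivity) (by positivity), Real.log_pow,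
        Real.log_rpow hN0]
      push_cast
      have h1 : Real.log (3 * ((j : ℝ) + 2)) ≤ 3 * ((j : ℝ) + 2) :=
        Real.log_le_self (by positivity)
      have h2 : ((j : ℝ) + 2) * Real.log (3 * ((j : ℝ) + 2)) ≤ 3 * l ^ 2 := by
        calc _ ≤ ((j : ℝ) + 2) * (3 * ((j : ℝ) + 2)) :=
              mul_le_mul_of_nonneg_left h1 (by positivity)
          _ ≤ l * (3 * l) := by gcongr <;> linarith
          _ = _ := by ring
      have h3 : 3 * l ^ 2 ≤ 1 / 16 * (4 * L / l) := by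
        rw [mul_div_assoc', le_div_iff₀ hl0]
        have : l ^ 3 ≤ l ^ 4 := pow_le_pow_right₀ (by linarith) (by norm_num)
        linarith [hsz.four]
      push_cast at hlogN
      linarith
    have hθ : η ≤ 1 / (4 * (4 : ℝ) ^ (j + 2)) := by
      rw [hη, div_le_div_iff₀ hL0 (by positivity), one_mul]
      have h4 : (4 : ℝ) ^ j ≤ Real.exp (l / 2) := by
        rw [← Real.rpow_natCast, Real.rpow_def_of_pos (by norm_num)]
        refine Real.exp_le_exp.2 ?_
        have h22 : Real.log 4 ≤ 2 := by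
          rw [show (4 : ℝ) = 2 * 2 by norm_num, Real.log_mul two_ne_zero two_ne_zero]
          linarith [Real.log_le_sub_one_of_pos (show (0 : ℝ) < 2 by norm_num)]
        nlinarith [(Nat.cast_nonneg j : (0 : ℝ) ≤ j)]
      have hE : Real.exp (l / 2) ^ 2 = L := by
        rw [← Real.exp_nat_mul, hsz.hl]
        push_cast
        rw [mul_div_cancel₀ _ two_ne_zero, Real.exp_log hL0]
      have h5 : 64 * l ^ 2 ≤ Real.exp (l / 2) := by
        refine le_of_pow_le_pow_left₀ two_ne_zero (Real.exp_pos _).le ?_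
        rw [hE, show (64 * l ^ 2) ^ 2 = 4096 * l ^ 4 by ring]
        linarith [hsz.four]
      calc l ^ 2 * (4 * (4 : ℝ) ^ (j + 2)) = 64 * l ^ 2 * (4 : ℝ) ^ j := by ring
        _ ≤ Real.exp (l / 2) * Real.exp (l / 2) := by gcongr
        _ = L := by rw [← sq, hE]
    rw [show Icc 1 X = Icc 1 h ∪ Ico (h + 1) (X + 1) by
      ext i; simp only [mem_union, mem_Icc, mem_Ico]; omega,
      Finset.sum_union (Finset.disjoint_left.2 fun i ha hb => by
        simp only [mem_Icc, mem_Ico] at ha hb; omega)]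
    refine (norm_add_le _ _).trans ?_
    have hhX : (h : ℝ) ≤ t ^ 2 + 1 := le_trans (Nat.cast_le.2 (Nat.div_le_self X 2)) hX
    have hrec := ih h (by omega) hhX
    have hlog : Nat.log 2 h + 1 = Nat.log 2 X := by
      rw [hh, Nat.log_div_base]
      have : 1 ≤ Nat.log 2 X := Nat.le_log_of_pow_le one_lt_two (by simpa using hX2)
      omega
    rw [← hlog]
    push_cast
    rw [add_one_mul ((Nat.log 2 h : ℝ) + 1) 464, ← add_assoc]
    refine add_le_add hrec ?_
    rw [Finset.sum_congr rfl fun n hn =>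
      one_div_cpow_eq (s := s) (show 1 ≤ n by simp at hn; omega)]
    refine (Subconvexity.norm_sum_weight_le (w := fun n => (n : ℝ) ^ (-s.re))
      (B := 464 * (((h + 1 : ℕ) : ℝ) * ((h + 1 : ℕ) : ℝ) ^ (-(1 / (4 * (4 : ℝ) ^ (j + 2))))))
      (by omega) (fun m _ _ => by positivity) (fun m hm _ => ?_) fun m hm hm' => ?_).trans ?_
    · exact Real.rpow_le_rpow_of_nonpos (Nat.cast_pos.2 (by omega))
        (Nat.cast_le.2 m.le_succ) (by linarith)
    · exact norm_sum_block_pow_le (Nat.succ_pos h) le_rfl (by omega) ht1 ht2 hk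
    · set N : ℝ := ((h + 1 : ℕ) : ℝ)
      set θ : ℝ := 1 / (4 * (4 : ℝ) ^ (j + 2))
      calc N ^ (-s.re) * (464 * (N * N ^ (-θ))) = 464 * N ^ (-s.re + 1 + -θ) := by
            rw [Real.rpow_add hN0, Real.rpow_add hN0, Real.rpow_one]; ring
        _ ≤ 464 * 1 := by
            gcongr
            exact Real.rpow_le_one_of_one_le_of_nonpos hN1 (by linarith)
        _ = 464 := mul_one _

/-- **Growth of `ζ` close to `re s = 1`.** -/
theorem exists_growth : ∃ t₀ : ℝ, 16 ≤ t₀ ∧ ∀ s : ℂ, t₀ ≤ s.im →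
    1 - Real.log (Real.log s.im) ^ 2 / Real.log s.im ≤ s.re → s.re ≤ 2 →
      ‖riemannZeta s‖ ≤ Real.log s.im ^ 6 := by
  obtain ⟨t₁, ht₁⟩ := eventually_atTop.1
    (Real.tendsto_log_atTop.eventually (eventually_logSize 0))
  refine ⟨max t₁ 16, le_max_right _ _, fun s hs hσ hσ2 => ?_⟩
  obtain ⟨hsz, -⟩ := ht₁ s.im ((le_max_left _ _).trans hs)
  set t := s.im with ht
  have ht16 : 16 ≤ t := (le_max_right _ _).trans hs
  have ht0 : 0 < t := by linarith
  set L := Real.log t with hL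
  set l := Real.log L
  have hL100 := hsz.pos
  have hσh : 1 / 2 ≤ s.re := by
    have : l ^ 2 / L ≤ 1 / 2 := by
      rw [div_le_iff₀ (by linarith)]
      linarith [hsz.sq_le]
    linarith
  have hs1 : s ≠ 1 := fun h => by
    rw [h, Complex.one_im] at ht
    linarith
  set N := ⌈t ^ 2⌉₊
  have hNlo : t ^ 2 ≤ (N : ℝ) := Nat.le_ceil _
  have hNhi : (N : ℝ) ≤ t ^ 2 + 1 := (Nat.ceil_lt_add_one (sq_nonneg t)).le
  have hN1 : 1 ≤ N := by
    have : (1 : ℝ) ≤ N := by nlinarith
    exact_mod_cast this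
  have hN0 : (0 : ℝ) < N := Nat.cast_pos.2 hN1
  have hsN : t ≤ √(N : ℝ) := Real.le_sqrt_of_sq_le hNlo
  have hsN2 : √(N : ℝ) ≤ 2 * t := by
    rw [Real.sqrt_le_iff]; constructor <;> nlinarith
  rw [FA.ZeroFree.riemannZeta_truncated (by linarith) hs1 hN1]
  have t1 := norm_sum_near_one_le (by linarith) hL hsz hσ N hNhi
  have t2 : ‖(N : ℂ) ^ (1 - s) / (s - 1)‖ ≤ 2 := by
    rw [norm_div, Complex.norm_natCast_cpow_of_pos hN1, Complex.sub_re, Complex.one_re]
    have h1 : t ≤ ‖s - 1‖ := by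
      have := Complex.abs_im_le_norm (s - 1)
      rw [Complex.sub_im, Complex.one_im, sub_zero, ← ht, abs_of_pos ht0] at this
      exact this
    rw [div_le_iff₀ (lt_of_lt_of_le ht0 h1)]
    have h2 : (N : ℝ) ^ (1 - s.re) ≤ √(N : ℝ) := by
      rw [Real.sqrt_eq_rpow]
      exact Real.rpow_le_rpow_of_exponent_le (Nat.one_le_cast.2 hN1) (by linarith)
    linarith
  have t3 : ‖s * ∫ u in Set.Ioi (N : ℝ),
      ((u - (⌊u⌋₊ : ℝ) : ℝ) : ℂ) * (u : ℂ) ^ (-(s + 1))‖ ≤ 4 := by
    have hi : ‖∫ u in Set.Ioi (N : ℝ), ((u - (⌊u⌋₊ : ℝ) : ℝ) : ℂ) * (u : ℂ) ^ (-(s + 1))‖ ≤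
        (N : ℝ) ^ (-s.re) / s.re := by
      refine (MeasureTheory.norm_integral_le_of_norm_le
        (integrableOn_Ioi_rpow_of_lt (a := -(s.re + 1)) (by linarith) hN0) ?_).trans
        (le_of_eq ?_)
      · filter_upwards [MeasureTheory.ae_restrict_mem measurableSet_Ioi] with u hu
        exact CycloGrowth.norm_fracIntegrand_le
          (lt_of_le_of_lt (Nat.one_le_cast.2 hN1) hu)
      · rw [integral_Ioi_rpow_of_lt (by linarith) hN0,
          show -(s.re + 1) + 1 = -s.re by ring, neg_div_neg_eq]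
    rw [norm_mul]
    have hn : ‖s‖ ≤ 2 * t := by
      have := Complex.norm_le_abs_re_add_abs_im s
      rw [← ht, abs_of_pos ht0, abs_of_nonneg (by linarith : 0 ≤ s.re)] at this
      linarith
    refine (mul_le_mul hn hi (norm_nonneg _) (by linarith)).trans ?_
    have h2 : (N : ℝ) ^ (-s.re) ≤ (√(N : ℝ))⁻¹ := by
      rw [Real.sqrt_eq_rpow, ← Real.rpow_neg hN0.le]
      exact Real.rpow_le_rpow_of_exponent_le (Nat.one_le_cast.2 hN1) (by linarith)
    have h3 : (N : ℝ) ^ (-s.re) / s.re ≤ 2 * (√(N : ℝ))⁻¹ := by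
      rw [div_le_iff₀ (by linarith)]
      nlinarith [inv_nonneg.2 (Real.sqrt_nonneg (N : ℝ))]
    have : t * (√(N : ℝ))⁻¹ ≤ 1 := by
      rw [mul_inv_le_iff₀ (Real.sqrt_pos.2 hN0)]; linarith
    calc 2 * t * ((N : ℝ) ^ (-s.re) / s.re) ≤ 2 * t * (2 * (√(N : ℝ))⁻¹) := by gcongr
      _ ≤ 4 := by linarith
  have hlogN : (Nat.log 2 N : ℝ) + 1 ≤ 5 * L := by
    have hpow : ((2 ^ Nat.log 2 N : ℕ) : ℝ) ≤ N := Nat.cast_le.2 (Nat.pow_log_le_self 2 (by omega))
    push_cast at hpow
    have h1 := Real.log_le_log (by positivity) (hpow.trans (hNhi.trans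
      (show t ^ 2 + 1 ≤ 2 * t ^ 2 by nlinarith)))
    rw [Real.log_pow, Real.log_mul (by norm_num) (by positivity), Real.log_pow, ← hL] at h1
    have h2 := Real.log_two_gt_d9
    have h3 := Real.log_le_sub_one_of_pos (show (0 : ℝ) < 2 by norm_num)
    have hk : (0 : ℝ) ≤ (Nat.log 2 N : ℝ) := Nat.cast_nonneg _
    norm_num at h1 h2 h3
    nlinarith
  refine (norm_sub_le _ _).trans
    ((add_le_add ((norm_add_le _ _).trans (add_le_add t1 t2)) t3).trans ?_)
  have hp : L ≤ L ^ 5 := le_self_pow₀ (by linarith) (by norm_num)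
  have h6 : 2350 * L + 6 * L ^ 5 ≤ L ^ 6 := by
    have h100 : 100 * L ^ 5 ≤ L ^ 6 := by
      rw [pow_succ L 5, mul_comm (100 : ℝ)]
      gcongr
    have : (100000000 : ℝ) ≤ L ^ 4 :=
      le_trans (by norm_num) (pow_le_pow_left₀ (by norm_num) hL100 4)
    have : 100000000 * L ≤ L ^ 5 := by
      rw [pow_succ L 4]; gcongr
    linarith
  nlinarith

/-- Landau's lemma for `ζ` at `1 + δ + it`, on a disc of radius `r`. -/
theorem landau_zeta_disc {δ r t B : ℝ} (hδ : 0 < δ) (hδr : δ ≤ r) (hr : r ≤ 1 / 2)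
    (ht : 2 ≤ |t|) (hB0 : 0 ≤ B)
    (hB : ∀ z : ℂ, ‖z‖ = r →
      ‖riemannZeta (((1 + δ : ℝ) : ℂ) + t * I + z)‖ ≤ B * (δ / 4)) :
    (LSeries (fun n => ((Λ n : ℝ) : ℂ)) (((1 + δ : ℝ) : ℂ) + t * I)).re ≤ 6 * Real.log B / r ∧
      ∀ β : ℝ, riemannZeta ((β : ℂ) + t * I) = 0 → 1 + δ - β ≤ r / 3 →
        (LSeries (fun n => ((Λ n : ℝ) : ℂ)) (((1 + δ : ℝ) : ℂ) + t * I)).re ≤
          6 * Real.log B / r - 1 / (1 + δ - β) := by
  obtain ⟨s₀, hs₀⟩ : ∃ s₀ : ℂ, s₀ = ((1 + δ : ℝ) : ℂ) + t * I := ⟨_, rfl⟩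
  have hre : s₀.re = 1 + δ := by simp [hs₀]
  have him : s₀.im = t := by simp [hs₀]
  rw [← hs₀] at hB
  obtain ⟨f, hf⟩ : ∃ f : ℂ → ℂ, f = fun z => riemannZeta (s₀ + z) := ⟨_, rfl⟩
  have hU : DifferentiableOn ℂ f (ball 0 1) := fun z hz => by
    rw [mem_ball_zero_iff] at hz
    have hne : s₀ + z ≠ 1 := fun h => by
      have h1 := congrArg Complex.im h
      simp only [add_im, him, one_im] at h1
      have h2 := abs_im_le_norm z
      rw [show z.im = -t by linarith, abs_neg] at h2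
      linarith
    rw [hf]
    exact ((differentiableAt_riemannZeta hne).comp z
      (differentiableAt_id.const_add s₀)).differentiableWithinAt
  have hsub : closedBall (0 : ℂ) r ⊆ ball 0 1 := closedBall_subset_ball (by linarith)
  have hlow : δ / 4 ≤ ‖f 0‖ := by
    simpa [hf, hs₀] using DLVP.zeta_lower hδ (by linarith) t
  have h0 : f 0 ≠ 0 := norm_pos_iff.1 (lt_of_lt_of_le (by positivity) hlow)
  have hb : ∀ z ∈ sphere (0 : ℂ) r, ‖f z‖ ≤ B * ‖f 0‖ := by
    intro z hz
    rw [mem_sphere_zero_iff_norm] at hz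
    rw [hf]
    exact (hB z hz).trans (mul_le_mul_of_nonneg_left (by simpa [hf] using hlow) hB0)
  have hz : ∀ z ∈ closedBall (0 : ℂ) (r / 3), f z = 0 → z.re < 0 := by
    intro z _ h
    rw [hf] at h
    by_contra hc
    exact riemannZeta_ne_zero_of_one_le_re (by rw [add_re, hre]; linarith) h
  have hP : -(deriv f 0 / f 0).re =
      (LSeries (fun n => ((Λ n : ℝ) : ℂ)) (((1 + δ : ℝ) : ℂ) + t * I)).re := by
    rw [← hs₀, DLVP.vonMangoldt_series (by rw [hre]; linarith), neg_re, hf,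
      deriv_comp_const_add]
    simp only [add_zero]
  refine ⟨?_, fun β hβ hβ1 => ?_⟩
  · have := DLVP.landau isOpen_ball hsub (by linarith) hU h0 hb hz
    rwa [hP] at this
  · have hβ' : β < 1 := by
      by_contra hc
      exact riemannZeta_ne_zero_of_one_le_re (by simpa using not_lt.1 hc) hβ
    obtain ⟨ρ, hρ⟩ : ∃ ρ : ℂ, ρ = ((-(1 + δ - β) : ℝ) : ℂ) := ⟨_, rfl⟩
    have hρm : ρ ∈ closedBall (0 : ℂ) (r / 3) := by
      rw [mem_closedBall_zero_iff, hρ, Complex.norm_real, Real.norm_eq_abs, abs_neg,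
        abs_of_pos (by linarith : 0 < 1 + δ - β)]
      linarith
    have hρ0 : f ρ = 0 := by
      simp only [hf, hs₀, hρ]
      rw [← hβ]
      congr 1
      push_cast
      ring
    have := DLVP.landau_zero isOpen_ball hsub (by linarith) hU h0 hb hz hρm hρ0
    rw [hP, hρ, ← ofReal_one, ← ofReal_div, ofReal_re, div_neg] at this
    linarith

/-- The bound on the circles used in Landau's lemma. -/
theorem circle_bound {t₀ t u δ : ℝ} {z : ℂ}
    (hg : ∀ s : ℂ, t₀ ≤ s.im → 1 - Real.log (Real.log s.im) ^ 2 / Real.log s.im ≤ s.re →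
      s.re ≤ 2 → ‖riemannZeta s‖ ≤ Real.log s.im ^ 6)
    (hsz : LogSize (Real.log t) (Real.log (Real.log t)))
    (hδ : δ = Real.log (Real.log t) / (4000 * Real.log t))
    (ht : t₀ + 1 ≤ t) (ht4 : 4 ≤ t) (hu1 : t ≤ u) (hu2 : u ≤ 2 * t)
    (hz : ‖z‖ = Real.log (Real.log t) ^ 2 / (8 * Real.log t)) :
    ‖riemannZeta (((1 + δ : ℝ) : ℂ) + u * I + z)‖ ≤
      1024000 * Real.log t ^ 7 * (δ / 4) := by
  set L := Real.log t with hL
  set l := Real.log L with hl
  have hL100 := hsz.pos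
  have hl20 := hsz.big
  have hr : l ^ 2 / (8 * L) ≤ 1 / 16 := by
    rw [div_le_iff₀ (by positivity)]
    linarith [hsz.sq_le]
  have hδ1 : δ ≤ 1 / 16 := by
    rw [hδ, div_le_iff₀ (by positivity)]
    linarith [hsz.le]
  have hδ0 : 0 ≤ δ := hδ ▸ by positivity
  set s := ((1 + δ : ℝ) : ℂ) + u * I + z with hs
  have hre : s.re = 1 + δ + z.re := by simp [hs]
  have him : s.im = u + z.im := by simp [hs]
  have hzre := abs_le.1 ((abs_re_le_norm z).trans hz.le)
  have hzim := abs_le.1 ((abs_im_le_norm z).trans hz.le)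
  set L' := Real.log s.im with hL'
  set l' := Real.log L' with hl'
  have h2 : Real.log 2 ≤ 1 := by
    linarith [Real.log_le_sub_one_of_pos (show (0 : ℝ) < 2 by norm_num)]
  have hlo : L - 1 ≤ L' := by
    have h1 := Real.log_le_log (show 0 < t / 2 by linarith) (show t / 2 ≤ s.im by linarith)
    rw [Real.log_div (by linarith) two_ne_zero, ← hL] at h1
    linarith
  have hhi : L' ≤ 2 * L := by
    have h1 := Real.log_le_log (show 0 < s.im by linarith) (show s.im ≤ t ^ 2 by nlinarith)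
    rw [Real.log_pow, ← hL, Nat.cast_ofNat] at h1
    linarith
  have hl2 : l / 2 ≤ l' := by
    have h1 := Real.log_le_log (show 0 < L / 2 by linarith) (show L / 2 ≤ L' by linarith)
    rw [Real.log_div (by linarith) two_ne_zero, ← hl] at h1
    linarith
  have hη : l ^ 2 / (8 * L) ≤ l' ^ 2 / L' := by
    calc l ^ 2 / (8 * L) = (l / 2) ^ 2 / (2 * L) := by ring
      _ ≤ _ := div_le_div₀ (sq_nonneg _) (pow_le_pow_left₀ (by linarith) hl2 2) (by linarith) hhi
  refine (hg s (by linarith) (by linarith) (by linarith)).trans ?_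
  calc L' ^ 6 ≤ (2 * L) ^ 6 := pow_le_pow_left₀ (by linarith) hhi 6
    _ = 64 * L ^ 6 := by ring
    _ ≤ 64 * L ^ 6 * l := le_mul_of_one_le_right (by positivity) (by linarith)
    _ = _ := by rw [hδ]; field_simp; ring

/-- **Littlewood's zero-free region** at large heights. -/
theorem exists_littlewood_high : ∃ c : ℝ, 0 < c ∧ ∃ t₁ : ℝ, 16 ≤ t₁ ∧ ∀ β t : ℝ, t₁ ≤ t →
    riemannZeta ((β : ℂ) + t * I) = 0 →
      β ≤ 1 - c * Real.log (Real.log t) / Real.log t := by
  obtain ⟨t₀, ht₀, hg⟩ := exists_growth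
  obtain ⟨C, hC, hreal⟩ := DLVP.exists_real_bound
  obtain ⟨t₂, ht₂⟩ := eventually_atTop.1
    (Real.tendsto_log_atTop.eventually (eventually_logSize C))
  refine ⟨1 / 28000, by norm_num, max (t₀ + 1) t₂, le_trans (by linarith) (le_max_left _ _),
    fun β t ht hz => ?_⟩
  have htt : t₀ + 1 ≤ t := (le_max_left _ _).trans ht
  obtain ⟨hsz, hCl⟩ := ht₂ t ((le_max_right _ _).trans ht)
  set L := Real.log t with hL
  set l := Real.log L with hl
  have hL100 := hsz.pos
  have hl20 := hsz.big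
  have hl0 : 0 < l := by linarith
  have hL0 : 0 < L := by linarith
  obtain ⟨δ, hδ⟩ : ∃ δ, δ = l / (4000 * L) := ⟨_, rfl⟩
  obtain ⟨r, hr⟩ : ∃ r, r = l ^ 2 / (8 * L) := ⟨_, rfl⟩
  have hδ0 : 0 < δ := by rw [hδ]; positivity
  have hr0 : 0 < r := by rw [hr]; positivity
  have hr12 : r ≤ 1 / 2 := by
    rw [hr, div_le_iff₀ (by positivity)]
    linarith [hsz.sq_le]
  have hfin : 1 / 28000 * l / L = δ / 7 := by rw [hδ]; field_simp; ring
  rw [hfin]
  have hδr : 8 * δ ≤ r / 3 := by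
    rw [hδ, hr, div_div, mul_div_assoc', div_le_div_iff₀ (by positivity) (by positivity)]
    have h1 := mul_le_mul_of_nonneg_left hl20 (show 0 ≤ l * L by positivity)
    linarith [show 0 ≤ l * L by positivity]
  rcases lt_or_ge (r / 3) (1 + δ - β) with h | h
  · linarith
  have hβ : β < 1 := by
    by_contra hb
    exact riemannZeta_ne_zero_of_one_le_re (by simpa using not_lt.1 hb) hz
  have hd : 0 < 1 + δ - β := by linarith
  have hB : ∀ u, t ≤ u → u ≤ 2 * t → ∀ z : ℂ, ‖z‖ = r →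
      ‖riemannZeta (((1 + δ : ℝ) : ℂ) + u * I + z)‖ ≤ 1024000 * L ^ 7 * (δ / 4) :=
    fun u h1 h2 z hz => circle_bound hg hsz hδ htt (by linarith) h1 h2 (hz.trans hr)
  have hδ1 : δ ≤ 1 := by linarith
  have h341 := DLVP.three_four_one_logDeriv (σ := 1 + δ) (by linarith) t
  have h0 := hreal δ hδ0 hδ1
  have h1 := (landau_zeta_disc hδ0 (by linarith) hr12 (by rw [abs_of_pos] <;> linarith)
    (by positivity) (hB t le_rfl (by linarith))).2 β hz h
  have h2 := (landau_zeta_disc hδ0 (by linarith) hr12 (t := 2 * t)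
    (by rw [abs_of_pos] <;> linarith) (by positivity) (hB (2 * t) (by linarith) le_rfl)).1
  set B := 1024000 * L ^ 7 with hBdef
  set X := L / l with hX
  have hlogB : 6 * Real.log B / r ≤ 384 * X := by
    have h20 : Real.log 1024000 ≤ 20 := by
      have := Real.log_le_log (by norm_num) (show (1024000 : ℝ) ≤ 2 ^ 20 by norm_num)
      rw [Real.log_pow, Nat.cast_ofNat] at this
      linarith [Real.log_le_sub_one_of_pos (show (0 : ℝ) < 2 by norm_num)]
    have h8 : Real.log B ≤ 8 * l := by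
      rw [hBdef, Real.log_mul (by norm_num) (by positivity), Real.log_pow, ← hl]
      push_cast
      linarith
    rw [div_le_iff₀ hr0, show 384 * X * r = 48 * l by rw [hX, hr]; field_simp; ring]
    linarith
  have hδX : 1 / δ = 4000 * X := by rw [hδ, hX, one_div_div, mul_div_assoc]
  have hlX : l ≤ X := by
    rw [hX, le_div_iff₀ hl0, ← sq]
    linarith [hsz.sq_le, sq_nonneg l]
  have hmain : 4 * (1 / (1 + δ - β)) ≤ 14000 * X := by linarith
  rw [mul_one_div, div_le_iff₀ hd] at hmain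
  have h7 : δ * X = 1 / 4000 := by rw [hδ, hX]; field_simp
  have hX0 : 0 < X := by rw [hX]; positivity
  by_contra hc
  nlinarith [mul_lt_mul_of_pos_left (show 1 + δ - β < 8 * δ / 7 by linarith) hX0]

/-- `log x / x` at `x = log u` decreases. -/
theorem loglog_div_log_anti {u v : ℝ} (hu : 16 ≤ u) (huv : u ≤ v) :
    Real.log (Real.log v) / Real.log v ≤ Real.log (Real.log u) / Real.log u := by
  have h16 : Real.exp 1 ≤ Real.log u := by
    refine le_trans ?_ (Real.log_le_log (by norm_num) hu)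
    rw [show (16 : ℝ) = 2 ^ 4 by norm_num, Real.log_pow]
    push_cast
    linarith [Real.log_two_gt_d9, Real.exp_one_lt_d9]
  have hv : Real.log u ≤ Real.log v := Real.log_le_log (by linarith) huv
  exact Real.log_div_self_antitoneOn h16 (h16.trans hv) hv

/-- **Littlewood's zero-free region.** -/
theorem exists_littlewood_xi : ∃ c : ℝ, 0 < c ∧ ∀ ρ : ℂ, xiFn ρ = 0 →
    ρ.re ≤ 1 - c * Real.log (Real.log (|ρ.im| + 16)) / Real.log (|ρ.im| + 16) := by
  classical
  obtain ⟨c, hc, t₁, ht₁, h⟩ := exists_littlewood_high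
  set S := insert (1 : ℝ) ((ExplicitFormula.zerosUpTo t₁).image fun ρ : ℂ => 1 - ρ.re) with hS
  set η := S.min' (Finset.insert_nonempty _ _) with hη
  have hη0 : 0 < η := by
    rw [hη, Finset.lt_min'_iff]
    intro y hy
    rw [hS, Finset.mem_insert, Finset.mem_image] at hy
    rcases hy with rfl | ⟨ρ, hρ, rfl⟩
    · exact one_pos
    · linarith [(xiFn_zero_strip (ExplicitFormula.mem_zerosUpTo.1 hρ).1).2]
  refine ⟨min c η, lt_min hc hη0, fun ρ hρ => ?_⟩
  set u := |ρ.im| + 16 with hu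
  have hu16 : 16 ≤ u := by linarith [abs_nonneg ρ.im]
  have hg0 : 0 ≤ Real.log (Real.log u) / Real.log u := by
    have h1 : 1 ≤ Real.log u := by
      rw [Real.le_log_iff_exp_le (by linarith)]
      linarith [Real.exp_one_lt_d9]
    exact div_nonneg (Real.log_nonneg h1) (by linarith)
  have hg1 : Real.log (Real.log u) / Real.log u ≤ 1 := by
    have h1 : 0 < Real.log u := Real.log_pos (by linarith)
    rw [div_le_one h1]
    exact Real.log_le_self h1.le
  rw [mul_div_assoc]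
  rcases le_or_gt |ρ.im| t₁ with hlow | hhigh
  · have h1 : η ≤ 1 - ρ.re :=
      Finset.min'_le _ _ (Finset.mem_insert_of_mem (Finset.mem_image.2
        ⟨ρ, ExplicitFormula.mem_zerosUpTo.2 ⟨hρ, hlow⟩, rfl⟩))
    have h2 : min c η * (Real.log (Real.log u) / Real.log u) ≤ η :=
      (mul_le_mul (min_le_right _ _) hg1 hg0 hη0.le).trans (mul_one _).le
    linarith
  · obtain ⟨h0, -⟩ := xiFn_zero_strip hρ
    have hρ1 : ρ ≠ 1 := fun he => by
      rw [he, Complex.one_im, abs_zero] at hhigh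
      linarith
    have hz := (xiFn_eq_zero_iff h0 hρ1).1 hρ
    have hz' : riemannZeta ((ρ.re : ℂ) + (|ρ.im| : ℝ) * I) = 0 := by
      rcases le_or_gt 0 ρ.im with h' | h'
      · rwa [abs_of_nonneg h', re_add_im]
      · rw [abs_of_neg h', show ((ρ.re : ℂ) + ((-ρ.im : ℝ) : ℂ) * I) = starRingEnd ℂ ρ by
          apply Complex.ext <;> simp, riemannZeta_conj, hz, map_zero]
    have h1 := h ρ.re |ρ.im| hhigh.le hz'
    have h2 := loglog_div_log_anti (show 16 ≤ |ρ.im| by linarith)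
      (show |ρ.im| ≤ u by linarith)
    have h3 : min c η * (Real.log (Real.log u) / Real.log u) ≤
        c * (Real.log (Real.log |ρ.im|) / Real.log |ρ.im|) :=
      mul_le_mul (min_le_left _ _) h2 hg0 hc.le
    rw [mul_div_assoc] at h1
    linarith

end FA.Hoheisel

end
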