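import Fermat.Agent.Hoheisel.ZeroDensity
import Fermat.Agent.Hoheisel.Littlewood
import Fermat.Agent.ExplicitFormula.Psi

/-!
# Hoheisel's theorem

A mixed second difference of `ψ₁` with steps `p, q ≥ y ^ θ` is `p q (1 + o(1))`: in the explicit
formula the zeros up to height `y ^ κ` contribute `o (p q)` by the zero-density theorem and
Littlewood's zero-free region, the others by their number. Hence
`π (x + h) - π x ∼ h / log x` uniformly for `x ^ θ ≤ h ≤ x`.
-/

set_option autoImplicit false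

noncomputable section

namespace FA.Hoheisel

open Finset Complex Filter
open FA.RiemannMangoldt (xiFn xiFn_zero_strip)
open FA.ExplicitFormula (zeroTerm zeroWeight zerosUpTo mem_zerosUpTo)
open FA.ZeroFree (psiOne psiOne_sub_bounds ell)
open Chebyshev (psi)

/-- The bound by derivatives for a mixed difference of `t ^ (ρ + 1) / (ρ (ρ + 1))`. -/
theorem norm_mixed_le_of_re_le_one {ρ : ℂ} (hρ0 : ρ ≠ 0) (hρ1 : ρ + 1 ≠ 0) (h1 : ρ.re ≤ 1)
    {y p q : ℝ} (hy : 0 < y)
    (hp : 0 ≤ p) (hq : 0 ≤ q) :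
    ‖(((y + q + p : ℝ) : ℂ) ^ (ρ + 1) - ((y + q : ℝ) : ℂ) ^ (ρ + 1) -
        (((y + p : ℝ) : ℂ) ^ (ρ + 1) - (y : ℂ) ^ (ρ + 1))) / (ρ * (ρ + 1))‖ ≤
      p * q * y ^ (ρ.re - 1) := by
  set M := y ^ (ρ.re - 1) with hM
  -- the first difference
  have hfirst : ∀ t, y ≤ t →
      ‖(((t + p : ℝ) : ℂ)) ^ ρ - (t : ℂ) ^ ρ‖ ≤ ‖ρ‖ * M * p := by
    intro t ht
    have h := (convex_Icc t (t + p)).norm_image_sub_le_of_norm_hasDerivWithin_le
      (f := fun u : ℝ => (u : ℂ) ^ ρ) (f' := fun u : ℝ => ρ * (u : ℂ) ^ (ρ - 1))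
      (C := ‖ρ‖ * M) (fun u hu => (hasDerivAt_ofReal_cpow_const
        (by linarith [hu.1]) hρ0).hasDerivWithinAt)
      (fun u hu => ?_) (Set.left_mem_Icc.2 (by linarith)) (Set.right_mem_Icc.2 (by linarith))
    · refine h.trans (le_of_eq ?_)
      rw [Real.norm_eq_abs, add_sub_cancel_left, abs_of_nonneg hp]
    · rw [norm_mul, norm_cpow_eq_rpow_re_of_pos (by linarith [hu.1]), sub_re, one_re]
      exact mul_le_mul_of_nonneg_left
        (Real.rpow_le_rpow_of_nonpos hy (ht.trans hu.1) (by linarith)) (norm_nonneg _)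
  have h := (convex_Icc y (y + q)).norm_image_sub_le_of_norm_hasDerivWithin_le
    (f := fun t : ℝ => (((t + p : ℝ) : ℂ) ^ (ρ + 1) - (t : ℂ) ^ (ρ + 1)) / (ρ * (ρ + 1)))
    (f' := fun t : ℝ => (((t + p : ℝ) : ℂ) ^ ρ - (t : ℂ) ^ ρ) / ρ)
    (C := p * M) (fun t ht => ?_) (fun t ht => ?_) (Set.left_mem_Icc.2 (by linarith))
    (Set.right_mem_Icc.2 (by linarith))
  · refine le_trans (le_of_eq ?_) (h.trans (le_of_eq ?_))
    · rw [← sub_div]
    · rw [Real.norm_eq_abs, add_sub_cancel_left, abs_of_nonneg hq]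
      ring
  · have d1 := (hasDerivAt_ofReal_cpow_const (r := ρ + 1)
      (show t + p ≠ 0 by linarith [ht.1]) hρ1).comp_add_const t p
    have d2 := hasDerivAt_ofReal_cpow_const (r := ρ + 1) (show t ≠ 0 by linarith [ht.1]) hρ1
    refine (((d1.sub d2).div_const (ρ * (ρ + 1))).congr_deriv ?_).hasDerivWithinAt
    rw [add_sub_cancel_right, ← mul_sub, mul_comm ρ, mul_div_mul_left _ _ hρ1]
  · rw [norm_div, div_le_iff₀ (norm_pos_iff.2 hρ0)]
    exact (hfirst t ht.1).trans (le_of_eq (by ring))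

/-- The bound by derivatives at a point of the critical strip. -/
theorem norm_mixed_le {ρ : ℂ} (h0 : 0 < ρ.re) (h1 : ρ.re < 1) {y p q : ℝ} (hy : 0 < y)
    (hp : 0 ≤ p) (hq : 0 ≤ q) :
    ‖(((y + q + p : ℝ) : ℂ) ^ (ρ + 1) - ((y + q : ℝ) : ℂ) ^ (ρ + 1) -
        (((y + p : ℝ) : ℂ) ^ (ρ + 1) - (y : ℂ) ^ (ρ + 1))) / (ρ * (ρ + 1))‖ ≤
      p * q * y ^ (ρ.re - 1) := by
  refine norm_mixed_le_of_re_le_one (fun h => by simp [h] at h0) (fun h => ?_) h1.le hy hp hq
  have := congrArg Complex.re h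
  simp at this
  linarith

/-- The zeros up to height `y ^ κ` are harmless. -/
theorem exists_head_small : ∃ κ : ℝ, 0 < κ ∧ κ ≤ 1 / 12 ∧ ∀ ε : ℝ, 0 < ε →
    ∀ᶠ y in atTop, ∀ S : Finset ℂ, (∀ ρ ∈ S, xiFn ρ = 0 ∧ |ρ.im| ≤ y ^ κ) →
      ∑ ρ ∈ S, (zeroWeight ρ : ℝ) * y ^ (ρ.re - 1) ≤ ε := by
  classical
  obtain ⟨c, hc, hfree⟩ := exists_littlewood_xi
  obtain ⟨C, hC, hdens⟩ := exists_zero_density
  refine ⟨min (1 / 12) (c / 52), lt_min (by norm_num) (by positivity), min_le_left _ _,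
    fun ε hε => ?_⟩
  set κ := min (1 / 12) (c / 52) with hκ
  have hκ0 : 0 < κ := lt_min (by norm_num) (by positivity)
  have hκ12 : κ ≤ 1 / 12 := min_le_left _ _
  have hκc : κ ≤ c / 52 := min_le_right _ _
  filter_upwards [(tendsto_rpow_atTop hκ0).eventually_ge_atTop 16,
    (Real.tendsto_log_atTop.comp (tendsto_rpow_atTop hκ0)).eventually_ge_atTop
      (max 1 (2 * C * Real.exp 6 / ε)), eventually_gt_atTop (1 : ℝ)] with y hT hL hy S hS
  simp only [Function.comp_apply] at hL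
  set T := y ^ κ with hTdef
  set L := Real.log T with hLdef
  have hL1 : 1 ≤ L := (le_max_left _ _).trans hL
  have hy0 : 0 < y := by linarith
  have hlogy : Real.log y = L / κ := by
    rw [hLdef, hTdef, Real.log_rpow hy0, mul_div_cancel_left₀ _ hκ0.ne']
  -- the zero-free strip at this height
  set η := c * (Real.log (Real.log (T + 16)) / Real.log (T + 16)) with hη
  have hfree' : ∀ ρ ∈ S, η ≤ 1 - ρ.re := by
    intro ρ hρ
    obtain ⟨hz, hi⟩ := hS ρ hρ
    have h1 := hfree ρ hz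
    rw [mul_div_assoc] at h1
    have h2 := mul_le_mul_of_nonneg_left (loglog_div_log_anti
      (show 16 ≤ |ρ.im| + 16 by linarith [abs_nonneg ρ.im])
      (show |ρ.im| + 16 ≤ T + 16 by linarith)) hc.le
    linarith
  have hηL : c / 2 * Real.log L ≤ η * L := by
    have hT16 : Real.log (T + 16) ≤ 2 * L := by
      have := Real.log_le_log (show 0 < T + 16 by linarith) (show T + 16 ≤ T ^ 2 by nlinarith)
      rwa [Real.log_pow, Nat.cast_ofNat] at this
    have hLT : L ≤ Real.log (T + 16) := Real.log_le_log (by linarith) (by linarith)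
    have hll : Real.log L ≤ Real.log (Real.log (T + 16)) := Real.log_le_log (by linarith) hLT
    have hll0 : 0 ≤ Real.log L := Real.log_nonneg hL1
    calc c / 2 * Real.log L = c * (Real.log L / (2 * L)) * L := by field_simp
      _ ≤ _ := by
        have hpos : 0 < Real.log (T + 16) := by linarith
        have hll1 : 0 ≤ Real.log (Real.log (T + 16)) := hll0.trans hll
        rw [hη]
        gcongr
  have hterm : ∀ ρ ∈ S, y ^ (ρ.re - 1) ≤
      1 / L ^ 13 * Real.exp (-(6 * (⌊(1 - ρ.re) * L⌋₊ : ℝ))) := by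
    intro ρ hρ
    set v := 1 - ρ.re with hv
    obtain ⟨-, hv1⟩ := xiFn_zero_strip (hS ρ hρ).1
    have hfl : (⌊v * L⌋₊ : ℝ) ≤ v * L :=
      Nat.floor_le (mul_nonneg (by linarith) (by linarith))
    have hLpow : 1 / L ^ 13 = Real.exp (-(13 * Real.log L)) := by
      rw [Real.exp_neg, show (13 : ℝ) * Real.log L = ((13 : ℕ) : ℝ) * Real.log L by norm_num,
        Real.exp_nat_mul, Real.exp_log (by linarith), one_div]
    rw [Real.rpow_def_of_pos hy0, hlogy, hLpow, ← Real.exp_add, Real.exp_le_exp]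
    have h1 : c / 2 * Real.log L ≤ v * L :=
      hηL.trans (mul_le_mul_of_nonneg_right (hfree' ρ hρ) (by linarith))
    have h2 : 26 * κ * Real.log L ≤ v * L :=
      le_trans (mul_le_mul_of_nonneg_right (by linarith) (Real.log_nonneg hL1)) h1
    have h3 : 12 * κ * (⌊v * L⌋₊ : ℝ) ≤ v * L :=
      le_trans (mul_le_of_le_one_left (Nat.cast_nonneg _) (by linarith)) hfl
    rw [show ρ.re - 1 = -v by rw [hv]; ring, div_mul_eq_mul_div, div_le_iff₀ hκ0]
    nlinarith
  -- group by the distance to the line `re s = 1`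
  rw [← Finset.sum_fiberwise_of_maps_to (t := range (⌊L⌋₊ + 1))
    (g := fun ρ : ℂ => ⌊(1 - ρ.re) * L⌋₊) fun ρ hρ => mem_range.2 (Nat.lt_succ_of_le
      (Nat.floor_mono (mul_le_of_le_one_left (by linarith)
        (by linarith [(xiFn_zero_strip (hS ρ hρ).1).1]))))]
  have hfib : ∀ m ∈ range (⌊L⌋₊ + 1),
      ∑ ρ ∈ S with ⌊(1 - ρ.re) * L⌋₊ = m, (zeroWeight ρ : ℝ) * y ^ (ρ.re - 1) ≤
        C * Real.exp 6 / L ^ 2 := by
    intro m _
    refine (Finset.sum_le_sum fun ρ hρ => mul_le_mul_of_nonneg_left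
      (hterm ρ (Finset.mem_filter.1 hρ).1) (Nat.cast_nonneg _)).trans ?_
    rw [Finset.sum_congr rfl fun ρ hρ => by rw [(Finset.mem_filter.1 hρ).2], ← Finset.sum_mul]
    have hsub : ∑ ρ ∈ S with ⌊(1 - ρ.re) * L⌋₊ = m, (zeroWeight ρ : ℝ) ≤
        C * Real.exp (6 * ((m : ℝ) + 1)) * L ^ 11 := by
      have h1 := hdens (1 - ((m : ℝ) + 1) / L) T (by linarith)
      rw [sub_sub_cancel, Real.rpow_def_of_pos (by linarith), ← hLdef,
        show L * (6 * (((m : ℝ) + 1) / L)) = 6 * ((m : ℝ) + 1) by field_simp] at h1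
      refine le_trans ?_ h1
      rw [countGe, Nat.cast_sum]
      refine Finset.sum_le_sum_of_subset_of_nonneg (fun ρ hρ => ?_)
        fun ρ _ _ => Nat.cast_nonneg _
      simp only [Finset.mem_filter, mem_zerosUpTo] at hρ ⊢
      refine ⟨hS ρ hρ.1, ?_⟩
      have h2 := Nat.lt_floor_add_one ((1 - ρ.re) * L)
      rw [hρ.2, ← lt_div_iff₀ (by linarith : 0 < L)] at h2
      linarith
    refine (mul_le_mul_of_nonneg_right hsub (by positivity)).trans (le_of_eq ?_)
    rw [mul_add, mul_one, Real.exp_add, Real.exp_neg]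
    field_simp
  refine (Finset.sum_le_card_nsmul _ _ _ hfib).trans ?_
  rw [card_range, nsmul_eq_mul, Nat.cast_succ]
  have hfl : (⌊L⌋₊ : ℝ) ≤ L := Nat.floor_le (by linarith)
  have hbig := (le_max_right _ _).trans hL
  rw [div_le_iff₀ hε] at hbig
  calc ((⌊L⌋₊ : ℝ) + 1) * (C * Real.exp 6 / L ^ 2)
      ≤ 2 * L * (C * Real.exp 6 / L ^ 2) := by gcongr; linarith
    _ = 2 * C * Real.exp 6 / L := by field_simp
    _ ≤ ε := by rw [div_le_iff₀ (by linarith)]; linarith

/-- **The mixed difference of `ψ₁`.** -/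
theorem exists_mixed : ∃ θ : ℝ, 1 / 2 < θ ∧ θ < 1 ∧ ∀ ε : ℝ, 0 < ε → ∀ᶠ y in atTop,
    ∀ p q : ℝ, y ^ θ ≤ p → y ^ θ ≤ q → p ≤ 2 * y → q ≤ 2 * y →
      |psiOne (y + q + p) - psiOne (y + q) - (psiOne (y + p) - psiOne y) - p * q| ≤
        ε * (p * q) := by
  classical
  obtain ⟨κ, hκ0, hκ12, hhead⟩ := exists_head_small
  obtain ⟨c₁, hc₁, hinv⟩ := ExplicitFormula.exists_inv_im_le
  obtain ⟨C₂, hC₂, htail⟩ := ExplicitFormula.exists_sum_tail
  obtain ⟨C, hC, hex⟩ := ExplicitFormula.exists_explicit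
  obtain ⟨d, hd⟩ : ∃ d, d = deriv riemannZeta 0 / riemannZeta 0 := ⟨_, rfl⟩
  simp only [← hd] at hex
  refine ⟨1 - κ / 3, by linarith, by linarith, fun ε hε => ?_⟩
  set θ := 1 - κ / 3 with hθ
  have hε3 : 0 < ε / 3 := by positivity
  set K := 100 * c₁ ^ 2 * C₂ with hK
  have hK0 : 0 ≤ K := by positivity
  filter_upwards [hhead (ε / 3) hε3,
    (isLittleO_log_rpow_atTop (show 0 < κ / 3 by positivity)).def
      (show 0 < ε / (3 * (K + 1)) by positivity),
    (tendsto_rpow_atTop hκ0).eventually_ge_atTop 2,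
    eventually_ge_atTop (max 2 (36 * C / ε))] with y hhd hlog hT hy p q hp hq hp2 hq2
  have hy2 : 2 ≤ y := (le_max_left _ _).trans hy
  have hy0 : 0 < y := by linarith
  have hyθ : 0 < y ^ θ := Real.rpow_pos_of_pos hy0 _
  have hp0 : 0 < p := hyθ.trans_le hp
  have hq0 : 0 < q := hyθ.trans_le hq
  set T := y ^ κ with hTdef
  have hpq : y ^ (2 * θ) ≤ p * q := by
    rw [two_mul, Real.rpow_add hy0]
    exact mul_le_mul hp hq hyθ.le hp0.le
  -- the sum over the zeros
  have s1 := (ExplicitFormula.summable_norm_zeroTerm (show 0 < y + q + p by linarith)).of_norm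
  have s2 := (ExplicitFormula.summable_norm_zeroTerm (show 0 < y + q by linarith)).of_norm
  have s3 := (ExplicitFormula.summable_norm_zeroTerm (show 0 < y + p by linarith)).of_norm
  have s4 := (ExplicitFormula.summable_norm_zeroTerm hy0).of_norm
  obtain ⟨Z, hZ⟩ : ∃ Z : ℂ → ℂ, Z = fun ρ => zeroTerm (y + q + p) ρ - zeroTerm (y + q) ρ -
      (zeroTerm (y + p) ρ - zeroTerm y ρ) := ⟨_, rfl⟩
  have hZs : Summable Z := hZ ▸ (s1.sub s2).sub (s3.sub s4)
  have hsum : ‖∑' ρ, Z ρ‖ ≤ 2 * (ε / 3) * (p * q) := by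
    refine (norm_tsum_le_tsum_norm hZs.norm).trans
      (Real.tsum_le_of_sum_le (fun ρ => norm_nonneg _) fun S => ?_)
    rw [← Finset.sum_filter_of_ne (p := fun ρ => xiFn ρ = 0) fun ρ _ hne => ?_,
      ← Finset.sum_filter_add_sum_filter_not (S.filter fun ρ => xiFn ρ = 0) fun ρ => |ρ.im| ≤ T,
      two_mul, add_mul]
    swap
    · by_contra h
      exact hne (by simp [hZ, ExplicitFormula.zeroTerm_eq_zero _ h])
    have hZeq : ∀ ρ, ‖Z ρ‖ = zeroWeight ρ *
        ‖(((y + q + p : ℝ) : ℂ) ^ (ρ + 1) - ((y + q : ℝ) : ℂ) ^ (ρ + 1) -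
          (((y + p : ℝ) : ℂ) ^ (ρ + 1) - (y : ℂ) ^ (ρ + 1))) / (ρ * (ρ + 1))‖ := fun ρ => by
      simp only [hZ, zeroTerm]
      rw [← Complex.norm_natCast, ← norm_mul]
      congr 1
      ring
    refine add_le_add ((Finset.sum_le_sum (g := fun ρ =>
      p * q * ((zeroWeight ρ : ℝ) * y ^ (ρ.re - 1))) fun ρ hρ => ?_).trans ?_)
      ((Finset.sum_le_sum (g := fun ρ =>
        100 * y ^ 2 * c₁ ^ 2 * (zeroWeight ρ * (1 / (1 + |ρ.im|) ^ 2))) fun ρ hρ => ?_).trans ?_)
    · simp only [Finset.mem_filter] at hρ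
      obtain ⟨h0, h1⟩ := xiFn_zero_strip hρ.1.2
      rw [hZeq]
      exact (mul_le_mul_of_nonneg_left (norm_mixed_le h0 h1 hy0 hp0.le hq0.le)
        (Nat.cast_nonneg _)).trans (le_of_eq (by ring))
    · rw [← Finset.mul_sum, mul_comm (ε / 3)]
      refine mul_le_mul_of_nonneg_left (hhd _ fun ρ hρ => ?_) (by positivity)
      simp only [Finset.mem_filter] at hρ
      exact ⟨hρ.1.2, hρ.2⟩
    · simp only [Finset.mem_filter, not_le] at hρ
      have hρ0 := hρ.1.2
      obtain ⟨h0, h1⟩ := xiFn_zero_strip hρ0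
      have e : ∀ t : ℝ, 0 < t → t ≤ 5 * y → ‖(t : ℂ) ^ (ρ + 1)‖ ≤ 25 * y ^ 2 := by
        intro t ht ht2
        rw [norm_cpow_eq_rpow_re_of_pos ht, add_re, one_re]
        refine (Real.rpow_le_rpow ht.le ht2 (by linarith)).trans ?_
        refine (Real.rpow_le_rpow_of_exponent_le (by linarith)
          (show ρ.re + 1 ≤ ((2 : ℕ) : ℝ) by push_cast; linarith)).trans (le_of_eq ?_)
        rw [Real.rpow_natCast]
        ring
      have hden : 1 / ‖ρ * (ρ + 1)‖ ≤ c₁ ^ 2 * (1 / (1 + |ρ.im|) ^ 2) := by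
        refine (one_div_le_one_div_of_le ?_ (ExplicitFormula.norm_mul_add_one_ge hρ0)).trans ?_
        · exact sq_pos_of_ne_zero (ExplicitFormula.im_ne_zero_of_zero hρ0)
        · rw [← sq_abs, ← one_div_pow, ← one_div_pow, ← mul_pow]
          exact pow_le_pow_left₀ (by positivity) (hinv ρ hρ0) 2
      rw [hZeq, norm_div, div_eq_mul_one_div]
      calc (zeroWeight ρ : ℝ) *
            (‖((y + q + p : ℝ) : ℂ) ^ (ρ + 1) - ((y + q : ℝ) : ℂ) ^ (ρ + 1) -
              (((y + p : ℝ) : ℂ) ^ (ρ + 1) - (y : ℂ) ^ (ρ + 1))‖ * (1 / ‖ρ * (ρ + 1)‖))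
          ≤ zeroWeight ρ * (100 * y ^ 2 * (c₁ ^ 2 * (1 / (1 + |ρ.im|) ^ 2))) := by
            gcongr
            refine (norm_sub_le _ _).trans ?_
            linarith [norm_sub_le (((y + q + p : ℝ) : ℂ) ^ (ρ + 1)) (((y + q : ℝ) : ℂ) ^ (ρ + 1)),
              norm_sub_le (((y + p : ℝ) : ℂ) ^ (ρ + 1)) ((y : ℂ) ^ (ρ + 1)),
              e (y + q + p) (by linarith) (by linarith), e (y + q) (by linarith) (by linarith),
              e (y + p) (by linarith) (by linarith), e y hy0 (by linarith)]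
        _ = _ := by ring
    · rw [← Finset.mul_sum]
      refine (mul_le_mul_of_nonneg_left (htail T _ (by linarith) fun ρ hρ => ?_)
        (by positivity)).trans ?_
      · simp only [Finset.mem_filter, not_le] at hρ
        exact ⟨hρ.1.2, hρ.2⟩
      have hell : ell T ≤ Real.log y := by
        refine (ExplicitFormula.ell_le_log hT).trans ?_
        rw [hTdef, Real.log_rpow hy0]
        nlinarith [Real.log_nonneg (show 1 ≤ y by linarith)]
      rw [Real.norm_of_nonneg (Real.log_nonneg (by linarith)),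
        Real.norm_of_nonneg (Real.rpow_nonneg hy0.le _)] at hlog
      have hKlog : K * Real.log y ≤ ε / 3 * y ^ (κ / 3) := by
        calc K * Real.log y ≤ (K + 1) * (ε / (3 * (K + 1)) * y ^ (κ / 3)) :=
              mul_le_mul (by linarith) hlog (Real.log_nonneg (by linarith)) (by linarith)
          _ = _ := by field_simp
      calc 100 * y ^ 2 * c₁ ^ 2 * (C₂ * (ell T / T))
          = K * ell T * (y ^ 2 / T) := by rw [hK]; ring
        _ ≤ K * Real.log y * (y ^ 2 / T) := by gcongr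
        _ ≤ ε / 3 * y ^ (κ / 3) * (y ^ 2 / T) := by gcongr
        _ = ε / 3 * y ^ (2 * θ) := by
            rw [mul_assoc, hTdef, ← Real.rpow_natCast y 2, ← Real.rpow_sub hy0,
              ← Real.rpow_add hy0, hθ]
            push_cast
            ring_nf
        _ ≤ ε / 3 * (p * q) := by gcongr
  -- the error of the explicit formula
  have herr : ∀ t, 0 < t → t ≤ 5 * y → C * √t ≤ 3 * C * √y := fun t ht ht2 => by
    rw [mul_comm (3 : ℝ), mul_assoc]
    refine mul_le_mul_of_nonneg_left ?_ hC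
    rw [Real.sqrt_le_left (by positivity), mul_pow, Real.sq_sqrt hy0.le]
    linarith
  have hsqrt : 12 * C * √y ≤ ε / 3 * (p * q) := by
    refine le_trans ?_ (mul_le_mul_of_nonneg_left hpq hε3.le)
    have h1 : √y * y ≤ y ^ (2 * θ) := by
      rw [Real.sqrt_eq_rpow, ← Real.rpow_add_one hy0.ne']
      exact Real.rpow_le_rpow_of_exponent_le (by linarith) (by linarith)
    have h2 := (le_max_right _ _).trans hy
    rw [div_le_iff₀ hε] at h2
    calc 12 * C * √y ≤ y * ε / 3 * √y := by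
          refine mul_le_mul_of_nonneg_right ?_ (Real.sqrt_nonneg y)
          linarith
      _ = ε / 3 * (√y * y) := by ring
      _ ≤ _ := mul_le_mul_of_nonneg_left h1 hε3.le
  obtain ⟨E, hE⟩ : ∃ E : ℝ → ℂ, E = fun t : ℝ => (psiOne t : ℂ) - ((t : ℂ) ^ 2 / 2 -
      ∑' ρ, zeroTerm t ρ - (t : ℂ) * d) := ⟨_, rfl⟩
  have hEb : ∀ t, 0 < t → t ≤ 5 * y → ‖E t‖ ≤ 3 * C * √y := fun t ht ht2 => by
    rw [hE]
    exact (hex t ht).trans (herr t ht ht2)
  have e : ((psiOne (y + q + p) - psiOne (y + q) - (psiOne (y + p) - psiOne y) - p * q : ℝ) : ℂ) =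
      E (y + q + p) - E (y + q) - (E (y + p) - E y) - ∑' ρ, Z ρ := by
    rw [hZ, Summable.tsum_sub (s1.sub s2) (s3.sub s4), Summable.tsum_sub s1 s2,
      Summable.tsum_sub s3 s4, hE]
    push_cast
    ring
  rw [← Real.norm_eq_abs, ← Complex.norm_real, e]
  refine (norm_sub_le _ _).trans ((add_le_add ((norm_sub_le _ _).trans
    (add_le_add (norm_sub_le _ _) (norm_sub_le _ _))) hsum).trans ?_)
  linarith [hEb (y + q + p) (by linarith) (by linarith), hEb (y + q) (by linarith) (by linarith),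
    hEb (y + p) (by linarith) (by linarith), hEb y hy0 (by linarith)]

/-- From the mixed difference to `ψ` in short intervals, for any larger exponent. -/
theorem psi_short_of_mixed {θ θ' : ℝ} (hθ : 0 ≤ θ) (hθθ' : θ < θ')
    (hmix : ∀ ε : ℝ, 0 < ε → ∀ᶠ y in atTop, ∀ p q : ℝ, y ^ θ ≤ p → y ^ θ ≤ q → p ≤ 2 * y →
      q ≤ 2 * y → |psiOne (y + q + p) - psiOne (y + q) - (psiOne (y + p) - psiOne y) - p * q| ≤
        ε * (p * q)) :
    ∀ ε : ℝ, 0 < ε → ∀ᶠ x in atTop, ∀ h : ℝ, x ^ θ' ≤ h → h ≤ x →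
      |psi (x + h) - psi x - h| ≤ ε * h := by
  intro ε hε
  obtain ⟨δ, hδdef⟩ : ∃ δ, δ = min ε 1 / 4 := ⟨_, rfl⟩
  have hδ0 : 0 < δ := by rw [hδdef]; positivity
  have hδ4 : δ ≤ 1 / 4 := by rw [hδdef]; linarith [min_le_right ε 1]
  have hδε : 4 * δ ≤ ε := by rw [hδdef]; linarith [min_le_left ε 1]
  obtain ⟨Y, hY⟩ := eventually_atTop.1 (hmix δ hδ0)
  filter_upwards [eventually_ge_atTop (max 1 (2 * Y)),
    (tendsto_rpow_atTop (show 0 < θ' - θ by linarith)).eventually_ge_atTop (2 / δ)]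
    with x hx hbig h hh hhx
  have hx1 : 1 ≤ x := (le_max_left _ _).trans hx
  have hx0 : 0 < x := by linarith
  have hY2 : 2 * Y ≤ x := (le_max_right _ _).trans hx
  set q := δ * h with hq
  have hqθ : 2 * x ^ θ ≤ q := by
    rw [div_le_iff₀ hδ0] at hbig
    calc 2 * x ^ θ ≤ x ^ (θ' - θ) * δ * x ^ θ := by gcongr
      _ = δ * x ^ θ' := by
          rw [mul_comm _ δ, mul_assoc, ← Real.rpow_add hx0, sub_add_cancel]
      _ ≤ q := by rw [hq]; gcongr
  have hxθ : 0 < x ^ θ := Real.rpow_pos_of_pos hx0 _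
  have hh0 : 0 < h := lt_of_lt_of_le (Real.rpow_pos_of_pos hx0 _) hh
  have hq0 : 0 < q := mul_pos hδ0 hh0
  have hqh : q ≤ h / 4 := by
    rw [hq]
    nlinarith
  have up : psi (x + h) - psi x ≤ (1 + δ) * (h + q) := by
    have hy : Y ≤ x - q := by linarith
    have hm := hY (x - q) hy (h + q) q
    have hyθ : (x - q) ^ θ ≤ x ^ θ := Real.rpow_le_rpow (by linarith) (by linarith) (by linarith)
    have hb := abs_le.1 (hm (by linarith) (by linarith) (by linarith) (by linarith))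
    have b1 := (psiOne_sub_bounds (x := x + h) (y := x - q + q + (h + q)) (by linarith)
      (by linarith)).1
    have b2 := (psiOne_sub_bounds (x := x - q) (y := x) (by linarith) (by linarith)).2
    rw [show x - q + (h + q) = x + h by ring, show x - q + q = x by ring] at hb
    rw [show x - q + q + (h + q) = x + (h + q) by ring,
      show x + (h + q) - (x + h) = q by ring] at b1
    rw [sub_sub_cancel] at b2
    refine le_of_mul_le_mul_left ?_ hq0
    linarith [hb.2]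
  have lo : (1 - δ) * (h - q) ≤ psi (x + h) - psi x := by
    have hb := abs_le.1 (hY x (by linarith) (h - q) q (by linarith) (by linarith) (by linarith)
      (by linarith))
    have b1 := (psiOne_sub_bounds (x := x + (h - q)) (y := x + h) (by linarith) (by linarith)).2
    have b2 := (psiOne_sub_bounds (x := x) (y := x + q) (by linarith) (by linarith)).1
    rw [show x + q + (h - q) = x + h by ring] at hb
    rw [show x + h - (x + (h - q)) = q by ring] at b1
    rw [add_sub_cancel_left] at b2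
    refine le_of_mul_le_mul_left ?_ hq0
    linarith [hb.1]
  have hδh : 4 * δ * h ≤ ε * h := mul_le_mul_of_nonneg_right hδε hh0.le
  have hδq : δ * q ≤ δ * h := by gcongr; linarith
  rw [abs_le]
  constructor <;> nlinarith

/-- **`ψ (x + h) - ψ x ∼ h` uniformly for `x ^ θ ≤ h ≤ x`.** -/
theorem exists_psi_short : ∃ θ : ℝ, 1 / 2 < θ ∧ θ < 1 ∧ ∀ ε : ℝ, 0 < ε → ∀ᶠ x in atTop,
    ∀ h : ℝ, x ^ θ ≤ h → h ≤ x → |psi (x + h) - psi x - h| ≤ ε * h := by
  obtain ⟨θ, hθ, hθ1, hmix⟩ := exists_mixed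
  exact ⟨(θ + 1) / 2, by linarith, by linarith,
    psi_short_of_mixed (by linarith) (by linarith) hmix⟩

/-- From `ψ` to `θ` and `π` in short intervals. -/
theorem primeCount_short_of_psi {θ : ℝ} (hθ : 1 / 2 < θ)
    (hpsi : ∀ ε : ℝ, 0 < ε → ∀ᶠ x in atTop, ∀ h : ℝ, x ^ θ ≤ h → h ≤ x →
      |psi (x + h) - psi x - h| ≤ ε * h) :
    ∀ ε : ℝ, 0 < ε → ∀ᶠ x in atTop, ∀ h : ℝ, x ^ θ ≤ h → h ≤ x →
      |Chebyshev.theta (x + h) - Chebyshev.theta x - h| ≤ ε * h ∧
        |((Nat.primeCounting ⌊x + h⌋₊ : ℝ) - Nat.primeCounting ⌊x⌋₊) * Real.log x - h| ≤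
          ε * h := by
  intro ε hε
  obtain ⟨δ, hδdef⟩ : ∃ δ, δ = min ε 1 / 4 := ⟨_, rfl⟩
  have hδ0 : 0 < δ := by rw [hδdef]; positivity
  have hδ4 : δ ≤ 1 / 4 := by rw [hδdef]; linarith [min_le_right ε 1]
  have hδε : 4 * δ ≤ ε := by rw [hδdef]; linarith [min_le_left ε 1]
  filter_upwards [hpsi δ hδ0, (isLittleO_log_rpow_atTop (show 0 < θ - 1 / 2 by linarith)).def
    (show 0 < δ / 16 by positivity), eventually_ge_atTop (2 : ℝ),
    Real.tendsto_log_atTop.eventually_ge_atTop (1 / δ)] with x hp hlog hx hlogx h hh hhx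
  have hx0 : 0 < x := by linarith
  have hh0 : 0 < h := lt_of_lt_of_le (Real.rpow_pos_of_pos hx0 _) hh
  have hl0 : 0 ≤ Real.log x := Real.log_nonneg (by linarith)
  rw [Real.norm_of_nonneg hl0, Real.norm_of_nonneg (Real.rpow_nonneg hx0.le _)] at hlog
  have hsl : √x * Real.log x ≤ δ / 16 * h := by
    calc √x * Real.log x ≤ √x * (δ / 16 * x ^ (θ - 1 / 2)) := by gcongr
      _ = δ / 16 * x ^ θ := by
          rw [Real.sqrt_eq_rpow, mul_left_comm, ← Real.rpow_add hx0, add_sub_cancel]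
      _ ≤ _ := by gcongr
  have hgap : ∀ t, x ≤ t → t ≤ 2 * x → |psi t - Chebyshev.theta t| ≤ δ / 2 * h := by
    intro t ht ht2
    refine (Chebyshev.abs_psi_sub_theta_le_sqrt_mul_log (by linarith)).trans ?_
    have h1 : √t ≤ 2 * √x := by
      rw [Real.sqrt_le_left (by positivity), mul_pow, Real.sq_sqrt hx0.le]
      linarith
    have h2 : Real.log t ≤ 2 * Real.log x := by
      have := Real.log_le_log (by linarith) (show t ≤ x ^ 2 by nlinarith)
      rwa [Real.log_pow, Nat.cast_ofNat] at this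
    calc 2 * √t * Real.log t ≤ 2 * (2 * √x) * (2 * Real.log x) :=
          mul_le_mul (by linarith) h2 (Real.log_nonneg (by linarith)) (by positivity)
      _ = 8 * (√x * Real.log x) := by ring
      _ ≤ 8 * (δ / 16 * h) := by linarith
      _ = _ := by ring
  have hth : |Chebyshev.theta (x + h) - Chebyshev.theta x - h| ≤ 2 * δ * h := by
    have h1 := abs_le.1 (hgap (x + h) (by linarith) (by linarith))
    have h2 := abs_le.1 (hgap x le_rfl (by linarith))
    have h3 := abs_le.1 (hp h hh hhx)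
    rw [abs_le]
    constructor <;> linarith
  refine ⟨hth.trans (by nlinarith), ?_⟩
  set A := Nat.primesLE ⌊x⌋₊ with hA
  set B := Nat.primesLE ⌊x + h⌋₊ with hB
  have hsub : A ⊆ B := fun n hn => by
    simp only [hA, hB, Nat.mem_primesLE] at hn ⊢
    exact ⟨hn.1.trans (Nat.floor_mono (by linarith)), hn.2⟩
  have hcard : ((Nat.primeCounting ⌊x + h⌋₊ : ℝ) - Nat.primeCounting ⌊x⌋₊) =
      ((B \ A).card : ℝ) := by
    rw [Nat.primeCounting, Nat.primeCounting, ← Nat.primesBelow_card_eq_primeCounting',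
      ← Nat.primesBelow_card_eq_primeCounting', Finset.cast_card_sdiff hsub]
    rfl
  have hdiff : Chebyshev.theta (x + h) - Chebyshev.theta x =
      ∑ n ∈ B \ A, Real.log n := by
    rw [Chebyshev.theta_eq_sum_primesLE, Chebyshev.theta_eq_sum_primesLE, ← hA, ← hB,
      ← Finset.sum_sdiff hsub]
    ring
  have hmem : ∀ n ∈ B \ A, x < (n : ℝ) ∧ (n : ℝ) ≤ x + h := by
    intro n hn
    simp only [hA, hB, Finset.mem_sdiff, Nat.mem_primesLE, not_and] at hn
    refine ⟨?_, (Nat.cast_le.2 hn.1.1).trans (Nat.floor_le (by linarith))⟩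
    exact Nat.lt_of_floor_lt (not_le.1 fun hle => hn.2 hle hn.1.2)
  have hlo : ((B \ A).card : ℝ) * Real.log x ≤ Chebyshev.theta (x + h) - Chebyshev.theta x := by
    rw [hdiff, ← nsmul_eq_mul]
    exact Finset.card_nsmul_le_sum _ _ _ fun n hn =>
      Real.log_le_log hx0 (hmem n hn).1.le
  have hhi : Chebyshev.theta (x + h) - Chebyshev.theta x ≤
      ((B \ A).card : ℝ) * (Real.log x + 1) := by
    rw [hdiff, ← nsmul_eq_mul]
    refine Finset.sum_le_card_nsmul _ _ _ fun n hn => ?_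
    refine (Real.log_le_log (by linarith [(hmem n hn).1])
      ((hmem n hn).2.trans (show x + h ≤ 2 * x by linarith))).trans ?_
    rw [Real.log_mul two_ne_zero hx0.ne']
    linarith [Real.log_le_sub_one_of_pos (show (0 : ℝ) < 2 by norm_num)]
  rw [hcard]
  set N := ((B \ A).card : ℝ) with hN
  rw [div_le_iff₀ hδ0] at hlogx
  have hth' := abs_le.1 hth
  have hN2 : N ≤ δ * (N * Real.log x) := by
    have := mul_le_mul_of_nonneg_left hlogx (show (0 : ℝ) ≤ N from Nat.cast_nonneg _)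
    linarith
  have hN3 : δ * (N * Real.log x) ≤ δ * ((1 + 2 * δ) * h) :=
    mul_le_mul_of_nonneg_left (by linarith) hδ0.le
  have hδh : 4 * δ * h ≤ ε * h := mul_le_mul_of_nonneg_right hδε hh0.le
  have hδ2 : δ * ((1 + 2 * δ) * h) ≤ δ * (2 * h) := by gcongr; linarith
  rw [abs_le]
  constructor <;> linarith

/-- **`θ (x + h) - θ x ∼ h`**, and the same for `π` with weight `log x`. -/
theorem exists_hoheisel : ∃ θ : ℝ, 1 / 2 < θ ∧ θ < 1 ∧ ∀ ε : ℝ, 0 < ε → ∀ᶠ x in atTop,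
    ∀ h : ℝ, x ^ θ ≤ h → h ≤ x → |Chebyshev.theta (x + h) - Chebyshev.theta x - h| ≤ ε * h ∧
      |((Nat.primeCounting ⌊x + h⌋₊ : ℝ) - Nat.primeCounting ⌊x⌋₊) * Real.log x - h| ≤
        ε * h := by
  obtain ⟨θ, hθ, hθ1, hpsi⟩ := exists_psi_short
  exact ⟨θ, hθ, hθ1, primeCount_short_of_psi hθ hpsi⟩

end FA.Hoheisel

end
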