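import Fermat.Agent.MeanValue.Dirichlet
import Fermat.Agent.ExplicitFormula.Zeros
import Mathlib.Analysis.InnerProductSpace.Calculus
import Mathlib.Analysis.SpecialFunctions.Pow.Deriv

/-!
# Dirichlet polynomials sampled at the zeros of `ζ`

The sum over the zeros up to height `T` of the square of a Dirichlet polynomial at the ordinate is
bounded by the integral of the square of the polynomial and of its derivative, hence by
`(T + M) log T ∑ (1 + log n)² |b n|²`.
-/

set_option autoImplicit false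

noncomputable section

open Complex Finset MeasureTheory FA.ZeroFree FA.RiemannMangoldt FA.ExplicitFormula
open scoped Real

namespace FA.Hoheisel

/-- A Dirichlet polynomial on the line. -/
def dpoly (s : Finset ℕ) (b : ℕ → ℂ) (t : ℝ) : ℂ :=
  ∑ n ∈ s, b n * (n : ℂ) ^ (-(I * (t : ℂ)))

theorem hasDerivAt_dpoly {s : Finset ℕ} (hs : ∀ n ∈ s, 1 ≤ n) (b : ℕ → ℂ) (t : ℝ) :
    HasDerivAt (dpoly s b) (dpoly s (fun n => -(I * (Real.log n : ℂ)) * b n) t) t := by
  refine HasDerivAt.fun_sum fun n hn => ?_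
  have hn0 : (n : ℂ) ≠ 0 := Nat.cast_ne_zero.2 (by have := hs n hn; omega)
  have h : HasDerivAt (fun z : ℂ => -(I * z)) (-I) (t : ℂ) := by
    simpa using ((hasDerivAt_id (t : ℂ)).const_mul I).fun_neg
  refine ((h.const_cpow (Or.inl hn0)).comp_ofReal.const_mul (b n)).congr_deriv ?_
  rw [← Complex.natCast_log]
  ring

theorem continuous_dpoly {s : Finset ℕ} (hs : ∀ n ∈ s, 1 ≤ n) (b : ℕ → ℂ) :
    Continuous (dpoly s b) :=
  continuous_iff_continuousAt.2 fun t => (hasDerivAt_dpoly hs b t).continuousAt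

/-- The square at one point through the square at another and the derivative. -/
theorem norm_sq_le_add_integral {F F' : ℝ → ℂ} (hF : ∀ t, HasDerivAt F (F' t) t)
    (hF' : Continuous F') {a b x y : ℝ} (hx : x ∈ Set.Icc a b)
    (hy : y ∈ Set.Icc a b) :
    ‖F x‖ ^ 2 ≤ ‖F y‖ ^ 2 + ∫ t in a..b, (‖F t‖ ^ 2 + ‖F' t‖ ^ 2) := by
  have hc : Continuous F := continuous_iff_continuousAt.2 fun t => (hF t).continuousAt
  set D : ℝ → ℝ := fun t => 2 * inner ℝ (F t) (F' t) with hD
  have hd : ∀ t, HasDerivAt (fun t => ‖F t‖ ^ 2) (D t) t := fun t => (hF t).norm_sq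
  have hDc : Continuous D := continuous_const.mul (hc.inner hF')
  have hint : ∫ t in y..x, D t = ‖F x‖ ^ 2 - ‖F y‖ ^ 2 :=
    intervalIntegral.integral_eq_sub_of_hasDerivAt (fun t _ => hd t) (hDc.intervalIntegrable _ _)
  have hG : Continuous fun t => ‖F t‖ ^ 2 + ‖F' t‖ ^ 2 := by fun_prop
  have hle : ∀ t, |D t| ≤ ‖F t‖ ^ 2 + ‖F' t‖ ^ 2 := fun t => by
    rw [hD]
    simp only [abs_mul, abs_two]
    have := abs_real_inner_le_norm (F t) (F' t)
    nlinarith [sq_nonneg (‖F t‖ - ‖F' t‖)]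
  have h1 : |∫ t in y..x, D t| ≤ ∫ t in a..b, (‖F t‖ ^ 2 + ‖F' t‖ ^ 2) := by
    have h2 : |∫ t in y..x, D t| ≤ |∫ t in y..x, (‖F t‖ ^ 2 + ‖F' t‖ ^ 2)| := by
      rw [← Real.norm_eq_abs]
      exact intervalIntegral.norm_integral_le_abs_of_norm_le
        (Filter.Eventually.of_forall fun t => by simpa [Real.norm_eq_abs] using hle t)
        (hG.intervalIntegrable _ _)
    refine h2.trans ?_
    rcases le_total y x with h | h
    · rw [abs_of_nonneg (intervalIntegral.integral_nonneg h fun t _ => by positivity)]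
      exact intervalIntegral.integral_mono_interval hy.1 h hx.2
        (Filter.Eventually.of_forall fun t => by positivity) (hG.intervalIntegrable _ _)
    · rw [intervalIntegral.integral_symm, abs_neg,
        abs_of_nonneg (intervalIntegral.integral_nonneg h fun t _ => by positivity)]
      exact intervalIntegral.integral_mono_interval hx.1 h hy.2
        (Filter.Eventually.of_forall fun t => by positivity) (hG.intervalIntegrable _ _)
  linarith [le_abs_self (∫ t in y..x, D t)]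

/-- The square at a point of a unit interval. -/
theorem norm_sq_le_unit_integral {F F' : ℝ → ℂ} (hF : ∀ t, HasDerivAt F (F' t) t)
    (hF' : Continuous F') {a x : ℝ} (hx : x ∈ Set.Icc a (a + 1)) :
    ‖F x‖ ^ 2 ≤ ∫ t in a..(a + 1), (2 * ‖F t‖ ^ 2 + ‖F' t‖ ^ 2) := by
  have hc : Continuous F := continuous_iff_continuousAt.2 fun t => (hF t).continuousAt
  set J : ℝ := ∫ t in a..(a + 1), (‖F t‖ ^ 2 + ‖F' t‖ ^ 2) with hJ
  have h1 : ∫ _t in a..(a + 1), ‖F x‖ ^ 2 ≤ ∫ t in a..(a + 1), (‖F t‖ ^ 2 + J) := by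
    refine intervalIntegral.integral_mono_on (by linarith) intervalIntegrable_const ?_ fun t ht =>
      norm_sq_le_add_integral hF hF' hx ht
    exact Continuous.intervalIntegrable (by fun_prop) _ _
  rw [intervalIntegral.integral_const, add_sub_cancel_left, one_smul] at h1
  refine h1.trans (le_of_eq ?_)
  rw [intervalIntegral.integral_add (Continuous.intervalIntegrable (by fun_prop) _ _)
    intervalIntegrable_const, intervalIntegral.integral_const, add_sub_cancel_left, one_smul, hJ,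
    ← intervalIntegral.integral_add (Continuous.intervalIntegrable (by fun_prop) _ _)
      (Continuous.intervalIntegrable (by fun_prop) _ _)]
  congr 1
  funext t
  ring

theorem integral_dpoly_le {s : Finset ℕ} {M : ℕ} (hs : s ⊆ Icc 1 M) (b : ℕ → ℂ) {u v T : ℝ}
    (huv : v - u ≤ 2 * T) :
    ∫ t in u..v, ‖dpoly s b t‖ ^ 2 ≤ (2 * T + 19 * M) * ∑ n ∈ s, ‖b n‖ ^ 2 := by
  classical
  have h := FA.MeanValue.mean_value_dirichlet (fun n => if n ∈ s then b n else 0) M u v
  have e : ∀ t : ℝ, ∑ n ∈ Icc 1 M, (if n ∈ s then b n else 0) * (n : ℂ) ^ (-(I * (t : ℂ))) =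
      dpoly s b t := fun t => by
    rw [dpoly, ← Finset.sum_subset hs fun n _ hn => by simp [hn]]
    exact Finset.sum_congr rfl fun n hn => by simp [hn]
  have e2 : ∑ n ∈ Icc 1 M, ‖(if n ∈ s then b n else 0 : ℂ)‖ ^ 2 = ∑ n ∈ s, ‖b n‖ ^ 2 := by
    rw [← Finset.sum_subset hs fun n _ hn => by simp [hn]]
    exact Finset.sum_congr rfl fun n hn => by simp [hn]
  have e3 : ∑ n ∈ Icc 1 M, ((n : ℝ) + 1 / 2) * ‖(if n ∈ s then b n else 0 : ℂ)‖ ^ 2 =
      ∑ n ∈ s, ((n : ℝ) + 1 / 2) * ‖b n‖ ^ 2 := by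
    rw [← Finset.sum_subset hs fun n _ hn => by simp [hn]]
    exact Finset.sum_congr rfl fun n hn => by simp [hn]
  simp only [e, e2, e3] at h
  have h2 : 4 * π * ∑ n ∈ s, ((n : ℝ) + 1 / 2) * ‖b n‖ ^ 2 ≤
      19 * M * ∑ n ∈ s, ‖b n‖ ^ 2 := by
    rw [Finset.mul_sum, Finset.mul_sum]
    refine Finset.sum_le_sum fun n hn => ?_
    obtain ⟨h1, h2⟩ := Finset.mem_Icc.1 (hs hn)
    have h1' : (1 : ℝ) ≤ n := by exact_mod_cast h1
    have h2' : (n : ℝ) ≤ M := by exact_mod_cast h2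
    rw [← mul_assoc]
    refine mul_le_mul_of_nonneg_right ?_ (sq_nonneg _)
    nlinarith [Real.pi_lt_d2, Real.pi_pos]
  have h3 : (v - u) * ∑ n ∈ s, ‖b n‖ ^ 2 ≤ 2 * T * ∑ n ∈ s, ‖b n‖ ^ 2 :=
    mul_le_mul_of_nonneg_right huv (Finset.sum_nonneg fun n _ => sq_nonneg _)
  linarith [(abs_le.1 h).2]

/-- **Sampling at the zeros.** -/
theorem exists_sample : ∃ C, 0 ≤ C ∧ ∀ (s : Finset ℕ) (M : ℕ) (b : ℕ → ℂ) (T : ℝ) (Z : Finset ℂ),
    s ⊆ Icc 1 M → 1 ≤ T → (∀ ρ ∈ Z, xiFn ρ = 0 ∧ |ρ.im| ≤ T) →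
      ∑ ρ ∈ Z, zeroWeight ρ * ‖dpoly s b ρ.im‖ ^ 2 ≤
        C * ell T * ((T + M) * ∑ n ∈ s, (1 + Real.log n) ^ 2 * ‖b n‖ ^ 2) := by
  obtain ⟨C, hC, hblocks⟩ := exists_sum_blocks
  refine ⟨80 * C, by positivity, fun s M b T Z hs hT hZ => ?_⟩
  have hs1 : ∀ n ∈ s, 1 ≤ n := fun n hn => (Finset.mem_Icc.1 (hs hn)).1
  set b' : ℕ → ℂ := fun n => -(I * (Real.log n : ℂ)) * b n with hb'
  have hder : ∀ t, HasDerivAt (dpoly s b) (dpoly s b' t) t := hasDerivAt_dpoly hs1 b
  have hc := continuous_dpoly hs1 b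
  have hc' := continuous_dpoly hs1 b'
  set G : ℝ → ℝ := fun t => 2 * ‖dpoly s b t‖ ^ 2 + ‖dpoly s b' t‖ ^ 2 with hG
  have hGc : Continuous G := by fun_prop
  have hG0 : ∀ t, 0 ≤ G t := fun t => by positivity
  set g : ℕ → ℝ := fun k => (∫ t in (k : ℝ)..((k : ℝ) + 1), G t) +
    ∫ t in (k : ℝ)..((k : ℝ) + 1), G (-t) with hg
  have hg0 : ∀ k, 0 ≤ g k := fun k => add_nonneg
    (intervalIntegral.integral_nonneg (by linarith) fun t _ => hG0 t)
    (intervalIntegral.integral_nonneg (by linarith) fun t _ => hG0 _)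
  set K : ℕ := ⌊T⌋₊ + 1 with hK
  have hKT : (K : ℝ) ≤ 2 * T := by
    rw [hK]; push_cast; linarith [Nat.floor_le (show 0 ≤ T by linarith)]
  refine (hblocks Z (range K) (fun ρ => ‖dpoly s b ρ.im‖ ^ 2) g (fun ρ hρ => ?_)
    fun k _ => hg0 k).trans ?_
  · obtain ⟨h0, h1⟩ := hZ ρ hρ
    refine ⟨h0, mem_range.2 (Nat.lt_succ_of_le (Nat.floor_le_floor h1)), ?_⟩
    set k := ⌊|ρ.im|⌋₊
    have hk1 : (k : ℝ) ≤ |ρ.im| := Nat.floor_le (abs_nonneg _)
    have hk2 : |ρ.im| ≤ (k : ℝ) + 1 := (Nat.lt_floor_add_one _).le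
    rcases le_total 0 ρ.im with h | h
    · rw [abs_of_nonneg h] at hk1 hk2
      refine (norm_sq_le_unit_integral hder hc' (a := (k : ℝ)) ⟨hk1, hk2⟩).trans ?_
      exact le_add_of_nonneg_right (intervalIntegral.integral_nonneg (by linarith) fun t _ => hG0 _)
    · rw [abs_of_nonpos h] at hk1 hk2
      refine (norm_sq_le_unit_integral hder hc' (a := -((k : ℝ) + 1))
        ⟨by linarith, by linarith⟩).trans ?_
      refine le_trans (le_of_eq ?_) (le_add_of_nonneg_left
        (intervalIntegral.integral_nonneg (by linarith) fun t _ => hG0 _))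
      rw [intervalIntegral.integral_comp_neg (fun t => G t),
        show -((k : ℝ) + 1) + 1 = -(k : ℝ) by ring]
  have hsum : ∑ k ∈ range K, g k = (∫ t in (0 : ℝ)..K, G t) + ∫ t in (0 : ℝ)..K, G (-t) := by
    simp only [hg, Finset.sum_add_distrib]
    have key : ∀ H : ℝ → ℝ, Continuous H →
        ∑ k ∈ range K, ∫ t in (k : ℝ)..((k : ℝ) + 1), H t = ∫ t in (0 : ℝ)..K, H t := fun H hH => by
      have h := intervalIntegral.sum_integral_adjacent_intervals (a := fun k : ℕ => (k : ℝ))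
        (n := K) (f := H) (μ := volume) fun k _ => hH.intervalIntegrable _ _
      simpa using h
    rw [key G hGc, key (fun t => G (-t)) (hGc.comp continuous_neg)]
  have hside : ∀ u v : ℝ, v - u ≤ 2 * T →
      ∫ t in u..v, G t ≤ (2 * T + 19 * M) * (2 * ∑ n ∈ s, (1 + Real.log n) ^ 2 * ‖b n‖ ^ 2) := by
    intro u v huv
    rw [hG, intervalIntegral.integral_add (Continuous.intervalIntegrable (by fun_prop) _ _)
      (Continuous.intervalIntegrable (by fun_prop) _ _), intervalIntegral.integral_const_mul]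
    have h1 := integral_dpoly_le hs b huv
    have h2 := integral_dpoly_le hs b' huv
    have h0 : 0 ≤ 2 * T + 19 * (M : ℝ) := by positivity
    have h3 : 2 * ∑ n ∈ s, ‖b n‖ ^ 2 + ∑ n ∈ s, ‖b' n‖ ^ 2 ≤
        2 * ∑ n ∈ s, (1 + Real.log n) ^ 2 * ‖b n‖ ^ 2 := by
      rw [Finset.mul_sum, Finset.mul_sum, ← Finset.sum_add_distrib]
      refine Finset.sum_le_sum fun n hn => ?_
      have hl : 0 ≤ Real.log n := Real.log_natCast_nonneg n
      rw [hb']
      simp only [norm_mul, norm_neg, Complex.norm_I, one_mul, Complex.norm_real,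
        Real.norm_of_nonneg hl]
      nlinarith [sq_nonneg ‖b n‖, mul_nonneg hl (sq_nonneg ‖b n‖),
        mul_nonneg (sq_nonneg (Real.log n)) (sq_nonneg ‖b n‖)]
    nlinarith [mul_le_mul_of_nonneg_left h3 h0]
  calc C * ∑ k ∈ range K, ell k * g k ≤ C * ∑ k ∈ range K, ell T * g k := by
        refine mul_le_mul_of_nonneg_left (Finset.sum_le_sum fun k hk => ?_) hC
        refine mul_le_mul_of_nonneg_right (ell_mono ?_) (hg0 k)
        rw [Nat.abs_cast, abs_of_nonneg (by linarith : 0 ≤ T)]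
        exact (Nat.cast_le.2 (Nat.le_of_lt_succ (mem_range.1 hk))).trans
          (Nat.floor_le (by linarith))
    _ ≤ C * (ell T * (80 * ((T + M) * ∑ n ∈ s, (1 + Real.log n) ^ 2 * ‖b n‖ ^ 2))) := by
        rw [← Finset.mul_sum, hsum, intervalIntegral.integral_comp_neg (fun t => G t), neg_zero]
        refine mul_le_mul_of_nonneg_left (mul_le_mul_of_nonneg_left ?_ (ell_pos T).le) hC
        have h1 := hside 0 K (by linarith)
        have h2 := hside (-(K : ℝ)) 0 (by linarith)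
        have h3 : 0 ≤ ∑ n ∈ s, (1 + Real.log n) ^ 2 * ‖b n‖ ^ 2 :=
          Finset.sum_nonneg fun n _ => by positivity
        have hM : (0 : ℝ) ≤ M := Nat.cast_nonneg M
        nlinarith
    _ = _ := by ring

end FA.Hoheisel
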