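import Fermat.Agent.Subconvexity.ThirdDerivative
import Mathlib.Analysis.SpecialFunctions.Log.Deriv
import Mathlib.Analysis.Calculus.Deriv.MeanValue
import Mathlib.Analysis.SpecialFunctions.Pow.Real

/-!
# The derivative test of general order

Iterated Weyl differencing: with differences of order `j + 2` of size about `λ` an exponential
sum of length `N` is `O (N H ^ (-2 ^ (-j)))` for suitable `H`. Applied to `t log n` this gives a
power saving `N ^ (1 - θ)`, `θ = 1 / (4 · 4 ^ k)`, for `N ^ (k - 3/2) ≤ t ≤ N ^ (k - 1/2)`.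
-/

set_option autoImplicit false

noncomputable section

namespace FA.Hoheisel

open Finset
open FA.Subconvexity (expI)

/-- Iterated forward differences of a sequence. -/
def difSeq : ℕ → (ℕ → ℝ) → ℕ → ℝ
  | 0, φ, n => φ n
  | j + 1, φ, n => difSeq j φ (n + 1) - difSeq j φ n

theorem difSeq_zero (φ : ℕ → ℝ) (n : ℕ) : difSeq 0 φ n = φ n := rfl

theorem difSeq_succ (j : ℕ) (φ : ℕ → ℝ) (n : ℕ) :
    difSeq (j + 1) φ n = difSeq j φ (n + 1) - difSeq j φ n := rfl

theorem difSeq_shift (j : ℕ) (φ : ℕ → ℝ) (h : ℕ) : ∀ n,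
    difSeq j (fun m => φ (m + h) - φ m) n = difSeq j φ (n + h) - difSeq j φ n := by
  induction j with
  | zero => intro n; rfl
  | succ j ih =>
    intro n
    rw [difSeq_succ, difSeq_succ, difSeq_succ, ih, ih, Nat.add_right_comm n 1 h]
    ring

theorem difSeq_telescope (j : ℕ) (φ : ℕ → ℝ) (h n : ℕ) :
    ∑ i ∈ range h, difSeq (j + 1) φ (n + i) = difSeq j φ (n + h) - difSeq j φ n := by
  have e := Finset.sum_range_sub (fun i => difSeq j φ (n + i)) h
  simp only [add_zero] at e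
  rw [← e]
  exact Finset.sum_congr rfl fun i _ => by rw [difSeq_succ, Nat.add_assoc]

/-- **The derivative test of order `j + 2`.** -/
theorem norm_vdc_iter_le {A M : ℝ} (hA : 1 ≤ A) (hM : 1 ≤ M) {N H : ℕ} (hH : 1 ≤ H)
    (hHN : H ≤ N) : ∀ (j a b : ℕ) (φ : ℕ → ℝ) (lam : ℝ), 0 < lam → b - a ≤ N →
      (∀ n, a ≤ n → n + j + 1 < b →
        lam ≤ difSeq (j + 2) φ n ∧ difSeq (j + 2) φ n ≤ A * lam) →
      3 * A * √((H : ℝ) ^ j * lam) + 26 / ((N : ℝ) * √lam) ≤ M / H →
      ‖∑ n ∈ Ico a b, expI (φ n)‖ ≤ 8 * M * N * (H : ℝ) ^ (-((1 / 2 : ℝ) ^ j)) := by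
  have hH0 : (0 : ℝ) < H := Nat.cast_pos.2 hH
  have hH1 : (1 : ℝ) ≤ H := Nat.one_le_cast.2 hH
  have hN0 : (0 : ℝ) < N := Nat.cast_pos.2 (hH.trans hHN)
  intro j
  induction j with
  | zero =>
    intro a b φ lam hlam hL hD hc
    refine (Subconvexity.norm_vdc_second_le hlam hA (φ := φ) fun n h1 h2 => ?_).trans ?_
    · simpa [difSeq] using hD n h1 (by simpa using h2)
    have hL' : ((b - a : ℕ) : ℝ) ≤ N := Nat.cast_le.2 hL
    rw [pow_zero, one_mul] at hc
    rw [pow_zero, Real.rpow_neg_one, ← div_eq_mul_inv]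
    calc 3 * A * ((b - a : ℕ) : ℝ) * √lam + 26 / √lam
        ≤ 3 * A * N * √lam + 26 / √lam := by gcongr
      _ = N * (3 * A * √lam + 26 / ((N : ℝ) * √lam)) := by field_simp
      _ ≤ N * (M / H) := mul_le_mul_of_nonneg_left hc hN0.le
      _ ≤ 8 * M * N / H := by
        rw [mul_div_assoc', mul_comm (N : ℝ) M]
        gcongr
        linarith
  | succ j ih =>
    intro a b φ lam hlam hL hD hc
    set u := (H : ℝ) ^ (-((1 / 2 : ℝ) ^ (j + 1))) with hu
    have hu0 : 0 < u := Real.rpow_pos_of_pos hH0 _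
    have hu2 : (H : ℝ) ^ (-((1 / 2 : ℝ) ^ j)) = u * u := by
      rw [hu, ← Real.rpow_add hH0, pow_succ]
      ring_nf
    have hT : ∀ h ∈ Ico 1 H,
        ‖∑ n ∈ Ico a (b - h), expI (φ (n + h) - φ n)‖ ≤ 8 * M * N * (u * u) := by
      intro h hh
      obtain ⟨hh1, hh2⟩ := mem_Ico.1 hh
      have hh0 : (1 : ℝ) ≤ h := Nat.one_le_cast.2 hh1
      rw [← hu2]
      refine ih a (b - h) (fun m => φ (m + h) - φ m) ((h : ℝ) * lam) (by positivity) (by omega)
        (fun n hn hnb => ?_) (le_trans ?_ hc)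
      · rw [difSeq_shift, ← difSeq_telescope]
        have hb : ∀ i ∈ range h, lam ≤ difSeq (j + 2 + 1) φ (n + i) ∧
            difSeq (j + 2 + 1) φ (n + i) ≤ A * lam := fun i hi =>
          hD (n + i) (by omega) (by have := mem_range.1 hi; omega)
        constructor
        · refine le_trans (le_of_eq ?_) (Finset.sum_le_sum fun i hi => (hb i hi).1)
          rw [sum_const, card_range, nsmul_eq_mul]
        · refine le_trans (Finset.sum_le_sum fun i hi => (hb i hi).2) (le_of_eq ?_)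
          rw [sum_const, card_range, nsmul_eq_mul]
          ring
      · have hhH : (h : ℝ) ≤ H := Nat.cast_le.2 hh2.le
        refine add_le_add (mul_le_mul_of_nonneg_left (Real.sqrt_le_sqrt ?_) (by linarith)) ?_
        · rw [pow_succ, mul_assoc]
          gcongr
        · gcongr
          exact le_mul_of_one_le_left hlam.le hh0
    have hw := Subconvexity.sq_norm_sum_le a b H hH φ
    have hL' : ((b - a : ℕ) : ℝ) ≤ N := Nat.cast_le.2 hL
    have hHN' : (H : ℝ) ≤ N := Nat.cast_le.2 hHN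
    have hsum : ∑ h ∈ Ico 1 H, ‖∑ n ∈ Ico a (b - h), expI (φ (n + h) - φ n)‖ ≤
        (H : ℝ) * (8 * M * N * (u * u)) := by
      refine (Finset.sum_le_card_nsmul _ _ _ hT).trans ?_
      rw [Nat.card_Ico, nsmul_eq_mul]
      gcongr
      omega
    have hHu : 1 ≤ (H : ℝ) * (u * u) := by
      rw [← hu2]
      nth_rewrite 1 [← Real.rpow_one (H : ℝ)]
      rw [← Real.rpow_add hH0]
      refine Real.one_le_rpow hH1 ?_
      have : (1 / 2 : ℝ) ^ j ≤ 1 := pow_le_one₀ (by norm_num) (by norm_num)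
      linarith
    have hMu : u * u ≤ M * (u * u) := le_mul_of_one_le_left (by positivity) hM
    have h1 : (H : ℝ) * ‖∑ n ∈ Ico a b, expI (φ n)‖ ^ 2 ≤
        (H : ℝ) * (8 * M * N * u) ^ 2 := by
      calc (H : ℝ) * ‖∑ n ∈ Ico a b, expI (φ n)‖ ^ 2
          ≤ (N + N) * (N + 2 * ((H : ℝ) * (8 * M * N * (u * u)))) := by
            refine hw.trans ?_
            have := Finset.sum_nonneg (s := Ico 1 H) fun h _ =>
              norm_nonneg (∑ n ∈ Ico a (b - h), expI (φ (n + h) - φ n))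
            gcongr
        _ ≤ (N + N) * (N * (H * (M * (u * u))) + 2 * ((H : ℝ) * (8 * M * N * (u * u)))) := by
            gcongr
            refine le_mul_of_one_le_right hN0.le (hHu.trans ?_)
            gcongr
        _ = H * (34 * M * (N * u) ^ 2) := by ring
        _ ≤ _ := by
            rw [show (8 * M * N * u) ^ 2 = 64 * M * M * (N * u) ^ 2 by ring]
            gcongr
            nlinarith
    exact le_of_pow_le_pow_left₀ two_ne_zero (by positivity) (le_of_mul_le_mul_left h1 hH0)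

/-- Iterated forward differences of the logarithm. -/
def logDif : ℕ → ℝ → ℝ
  | 0, x => Real.log x
  | j + 1, x => logDif j (x + 1) - logDif j x

/-- `x (x + 1) ⋯ (x + j)`. -/
def risingProd (j : ℕ) (x : ℝ) : ℝ := ∏ i ∈ range (j + 1), (x + i)

theorem risingProd_pos (j : ℕ) {x : ℝ} (hx : 0 < x) : 0 < risingProd j x :=
  Finset.prod_pos fun i _ => by positivity

theorem hasDerivAt_logDif : ∀ (j : ℕ) (x : ℝ), 0 < x →
    HasDerivAt (logDif j) ((-1) ^ j * j.factorial / risingProd j x) x := by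
  intro j
  induction j with
  | zero =>
    intro x hx
    simpa [logDif, risingProd] using Real.hasDerivAt_log hx.ne'
  | succ j ih =>
    intro x hx
    have h := ((ih (x + 1) (by linarith)).comp_add_const x 1).sub (ih x hx)
    refine (h.congr_deriv ?_).congr_of_eventuallyEq (Filter.Eventually.of_forall fun y => rfl)
    have e1 : risingProd (j + 1) x = risingProd j (x + 1) * x := by
      rw [risingProd, Finset.prod_range_succ', risingProd]
      push_cast
      rw [add_zero]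
      congr 1
      exact Finset.prod_congr rfl fun i _ => by ring
    have e2 : risingProd (j + 1) x = risingProd j x * (x + (j + 1 : ℕ)) := by
      rw [risingProd, Finset.prod_range_succ, risingProd]
    have f1 : ∀ y : ℝ, y / risingProd j (x + 1) = y * x / risingProd (j + 1) x := fun y => by
      rw [e1, mul_div_mul_right _ _ hx.ne']
    have f2 : ∀ y : ℝ, y / risingProd j x = y * (x + (j + 1 : ℕ)) / risingProd (j + 1) x :=
      fun y => by rw [e2, mul_div_mul_right _ _ (by positivity)]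
    rw [f1, f2, ← sub_div, Nat.factorial_succ, pow_succ]
    push_cast
    ring

theorem logDif_bounds (j : ℕ) {x : ℝ} (hx : 0 < x) :
    (j.factorial : ℝ) / (x + (j + 1 : ℕ)) ^ (j + 1) ≤ (-1) ^ j * logDif (j + 1) x ∧
      (-1) ^ j * logDif (j + 1) x ≤ (j.factorial : ℝ) / x ^ (j + 1) := by
  obtain ⟨ξ, ⟨hξ1, hξ2⟩, hξ⟩ := exists_hasDerivAt_eq_slope (logDif j)
    (fun y => (-1) ^ j * j.factorial / risingProd j y) (show x < x + 1 by linarith)
    (fun y hy => (hasDerivAt_logDif j y (hx.trans_le hy.1)).continuousAt.continuousWithinAt)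
    fun y hy => hasDerivAt_logDif j y (hx.trans hy.1)
  rw [add_sub_cancel_left, div_one] at hξ
  have hξ0 : 0 < ξ := hx.trans hξ1
  rw [show logDif (j + 1) x = logDif j (x + 1) - logDif j x from rfl, ← hξ, ← mul_div_assoc,
    ← mul_assoc, ← mul_pow, neg_one_mul, neg_neg, one_pow, one_mul]
  have hprod : x ^ (j + 1) ≤ risingProd j ξ ∧
      risingProd j ξ ≤ (x + (j + 1 : ℕ)) ^ (j + 1) := by
    constructor
    · rw [risingProd]
      refine le_trans (le_of_eq ?_) (Finset.prod_le_prod (s := range (j + 1)) (f := fun _ => x)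
        (fun i _ => hx.le) fun i _ => ?_)
      · simp
      · have : (0 : ℝ) ≤ i := Nat.cast_nonneg i
        linarith
    · rw [risingProd]
      refine le_trans (Finset.prod_le_prod (g := fun _ => x + (j + 1 : ℕ))
        (fun i _ => by positivity) fun i hi => ?_) (le_of_eq ?_)
      · have : (i : ℝ) ≤ j := Nat.cast_le.2 (Nat.lt_succ_iff.1 (mem_range.1 hi))
        push_cast
        linarith
      · simp
  exact ⟨div_le_div_of_nonneg_left (by positivity) (risingProd_pos j hξ0) hprod.2,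
    div_le_div_of_nonneg_left (by positivity) (by positivity) hprod.1⟩

theorem difSeq_mul_log (c : ℝ) : ∀ (j n : ℕ),
    difSeq j (fun m => c * Real.log m) n = c * logDif j n := by
  intro j
  induction j with
  | zero => intro n; rfl
  | succ j ih =>
    intro n
    rw [difSeq_succ, ih, ih, logDif, Nat.cast_succ]
    ring

/-- **Sums of `n ^ (-i t)` over a short range, with a power saving.** -/
theorem norm_sum_block_pow_le {t : ℝ} {N a b j : ℕ} (hN : 1 ≤ N) (ha : N ≤ a)
    (hb : b ≤ 2 * N) (ht1 : (N : ℝ) ^ ((j : ℝ) + 1 / 2) ≤ t)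
    (ht2 : t ≤ (N : ℝ) ^ ((j : ℝ) + 3 / 2))
    (hk : (3 * ((j : ℝ) + 2)) ^ (j + 2) ≤ (N : ℝ) ^ ((1 : ℝ) / 16)) :
    ‖∑ n ∈ Ico a b, expI (-(t * Real.log n))‖ ≤
      464 * ((N : ℝ) * (N : ℝ) ^ (-(1 / (4 * (4 : ℝ) ^ (j + 2))))) := by
  have hN0 : (0 : ℝ) < N := Nat.cast_pos.2 hN
  have hN1 : (1 : ℝ) ≤ N := Nat.one_le_cast.2 hN
  have ht : 0 < t := lt_of_lt_of_le (Real.rpow_pos_of_pos hN0 _) ht1
  set k : ℝ := (j : ℝ) + 2 with hkdef
  have hk2 : 2 ≤ k := by rw [hkdef]; linarith [(Nat.cast_nonneg j : (0 : ℝ) ≤ j)]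
  have hkN : (((j + 2 : ℕ)) : ℝ) = k := by rw [hkdef]; push_cast; ring
  set R := (N : ℝ) ^ (1 / (16 * k)) with hR
  have hR1 : 1 ≤ R := Real.one_le_rpow hN1 (by positivity)
  set H := ⌊R⌋₊ with hH
  have hH1 : 1 ≤ H := Nat.le_floor (by simpa using hR1)
  have hHR : (H : ℝ) ≤ R := Nat.floor_le (by linarith)
  have hHlo : R / 2 ≤ H := by
    have := Nat.lt_floor_add_one R
    rw [← hH] at this
    have : (1 : ℝ) ≤ H := Nat.one_le_cast.2 hH1
    linarith
  have hexp : 1 / (16 * k) ≤ 3 / 16 := by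
    rw [div_le_iff₀ (by positivity)]
    linarith
  have hHN : H ≤ N := by
    have : (H : ℝ) ≤ N := hHR.trans (Real.rpow_le_self_of_one_le hN1 (by linarith))
    exact_mod_cast this
  set A := (2 : ℝ) ^ (j + 2) with hA
  set lam := t * (j + 1).factorial / (A * (N : ℝ) ^ (j + 2)) with hlam
  have hA1 : 1 ≤ A := one_le_pow₀ one_le_two
  have hlam0 : 0 < lam := by positivity
  have hfac : ((j + 1).factorial : ℝ) ≤ k ^ (j + 2) := by
    rw [← hkN]
    have h1 : (j + 1).factorial ≤ (j + 2) ^ (j + 2) :=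
      (Nat.factorial_le (Nat.le_succ _)).trans (Nat.factorial_le_pow _)
    exact_mod_cast h1
  have e1 : (N : ℝ) ^ ((j : ℝ) + 1 / 2) = (N : ℝ) ^ (j + 2) * (N : ℝ) ^ (-(3 / 2) : ℝ) := by
    rw [← Real.rpow_natCast (N : ℝ) (j + 2), hkN, ← Real.rpow_add hN0, hkdef]
    ring_nf
  have e2 : (N : ℝ) ^ ((j : ℝ) + 3 / 2) = (N : ℝ) ^ (j + 2) * (N : ℝ) ^ (-(1 / 2) : ℝ) := by
    rw [← Real.rpow_natCast (N : ℝ) (j + 2), hkN, ← Real.rpow_add hN0, hkdef]
    ring_nf
  set q := (N : ℝ) ^ ((3 : ℝ) / 16) with hq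
  have hq0 : 0 < q := Real.rpow_pos_of_pos hN0 _
  have hRk : R ^ (j + 2) = (N : ℝ) ^ ((1 : ℝ) / 16) := by
    rw [hR, ← Real.rpow_mul_natCast hN0.le, hkN]
    congr 1
    field_simp
  have hAk : A * k ^ (j + 2) ≤ (N : ℝ) ^ ((1 : ℝ) / 16) := by
    refine le_trans ?_ hk
    rw [hA, ← mul_pow]
    exact pow_le_pow_left₀ (by positivity) (by linarith) _
  have hkpow : 1 ≤ k ^ (j + 2) := one_le_pow₀ (by linarith)
  have hI : 3 * A * √((H : ℝ) ^ j * lam) ≤ 3 / q := by
    have h1 : (H : ℝ) ^ j * lam * A ^ 2 ≤ (1 / q) ^ 2 := by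
      calc (H : ℝ) ^ j * lam * A ^ 2
          = A * (j + 1).factorial * (H : ℝ) ^ j * (t / (N : ℝ) ^ (j + 2)) := by
            rw [hlam]; field_simp
        _ ≤ A * k ^ (j + 2) * R ^ (j + 2) * (N : ℝ) ^ (-(1 / 2) : ℝ) := by
            gcongr
            · refine (pow_le_pow_left₀ (Nat.cast_nonneg H) hHR j).trans ?_
              exact pow_le_pow_right₀ hR1 (by omega)
            · rw [div_le_iff₀ (by positivity), mul_comm, ← e2]
              exact ht2
        _ ≤ (N : ℝ) ^ ((1 : ℝ) / 16) * (N : ℝ) ^ ((1 : ℝ) / 16) *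
              (N : ℝ) ^ (-(1 / 2) : ℝ) := by
            rw [hRk]
            gcongr
        _ = (1 / q) ^ 2 := by
            rw [hq, one_div_pow, ← Real.rpow_mul_natCast hN0.le, ← Real.rpow_add hN0,
              ← Real.rpow_add hN0, one_div ((N : ℝ) ^ _), ← Real.rpow_neg hN0.le]
            norm_num
    have h2 := Real.sqrt_le_sqrt h1
    rw [Real.sqrt_mul' _ (sq_nonneg A), Real.sqrt_sq (by linarith : 0 ≤ A),
      Real.sqrt_sq (by positivity)] at h2
    calc 3 * A * √((H : ℝ) ^ j * lam) = 3 * (√((H : ℝ) ^ j * lam) * A) := by ring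
      _ ≤ 3 * (1 / q) := by linarith
      _ = _ := by ring
  have hII : 26 / ((N : ℝ) * √lam) ≤ 26 / q := by
    refine div_le_div_of_nonneg_left (by norm_num) hq0 ?_
    have hfac1 : (1 : ℝ) ≤ (j + 1).factorial := Nat.one_le_cast.2 (Nat.factorial_pos _)
    have hA16 : A ≤ (N : ℝ) ^ ((1 : ℝ) / 16) :=
      le_trans (le_mul_of_one_le_right (by linarith) hkpow) hAk
    have h1 : q ^ 2 ≤ (N : ℝ) ^ 2 * lam := by
      calc q ^ 2 ≤ (N : ℝ) ^ ((7 : ℝ) / 16) := by
            rw [hq, ← Real.rpow_mul_natCast hN0.le]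
            exact Real.rpow_le_rpow_of_exponent_le hN1 (by norm_num)
        _ = (N : ℝ) ^ 2 * ((N : ℝ) ^ (-(3 / 2) : ℝ) / (N : ℝ) ^ ((1 : ℝ) / 16)) := by
            rw [← Real.rpow_natCast (N : ℝ) 2, ← Real.rpow_sub hN0, ← Real.rpow_add hN0]
            norm_num
        _ ≤ (N : ℝ) ^ 2 * ((N : ℝ) ^ (-(3 / 2) : ℝ) * (j + 1).factorial / A) := by
            gcongr
            exact le_mul_of_one_le_right (by positivity) hfac1
        _ ≤ _ := by
            rw [hlam, mul_comm A ((N : ℝ) ^ (j + 2)), ← div_div _ ((N : ℝ) ^ (j + 2)) A]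
            gcongr
            rw [le_div_iff₀ (by positivity), mul_comm _ ((N : ℝ) ^ (j + 2)), ← mul_assoc, ← e1]
            gcongr
    have h2 := Real.sqrt_le_sqrt h1
    rwa [Real.sqrt_mul (by positivity), Real.sqrt_sq hq0.le, Real.sqrt_sq hN0.le] at h2
  have hc : 3 * A * √((H : ℝ) ^ j * lam) + 26 / ((N : ℝ) * √lam) ≤ 29 / (H : ℝ) := by
    refine (add_le_add hI hII).trans ?_
    rw [← add_div, show (3 : ℝ) + 26 = 29 by norm_num]
    refine div_le_div_of_nonneg_left (by norm_num) (Nat.cast_pos.2 hH1) ?_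
    exact hHR.trans (Real.rpow_le_rpow_of_exponent_le hN1 hexp)
  set c := (-1 : ℝ) ^ (j + 1) * t with hcdef
  have hD : ∀ n, a ≤ n → n + j + 1 < b →
      lam ≤ difSeq (j + 2) (fun m => c * Real.log m) n ∧
        difSeq (j + 2) (fun m => c * Real.log m) n ≤ A * lam := by
    intro n hn hnb
    have hn0 : (0 : ℝ) < n := Nat.cast_pos.2 (by omega)
    have hn2 : (n : ℝ) + (j + 1 + 1 : ℕ) ≤ 2 * N := by
      exact_mod_cast (show n + (j + 1 + 1) ≤ 2 * N by omega)
    have hnN : (N : ℝ) ≤ n := Nat.cast_le.2 (ha.trans hn)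
    obtain ⟨b1, b2⟩ := logDif_bounds (j + 1) hn0
    rw [difSeq_mul_log, hcdef, mul_right_comm]
    constructor
    · calc lam = t * ((j + 1).factorial / (2 * N) ^ (j + 2)) := by
            rw [hlam, hA, mul_pow, mul_div_assoc]
        _ ≤ t * ((j + 1).factorial / ((n : ℝ) + (j + 1 + 1 : ℕ)) ^ (j + 1 + 1)) := by gcongr
        _ ≤ (-1) ^ (j + 1) * logDif (j + 2) n * t := by
            rw [mul_comm _ t]
            exact mul_le_mul_of_nonneg_left b1 ht.le
    · calc (-1) ^ (j + 1) * logDif (j + 2) n * t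
          ≤ (j + 1).factorial / (n : ℝ) ^ (j + 1 + 1) * t :=
            mul_le_mul_of_nonneg_right b2 ht.le
        _ ≤ (j + 1).factorial / (N : ℝ) ^ (j + 2) * t := by gcongr
        _ = A * lam := by rw [hlam]; field_simp
  have hS := norm_vdc_iter_le hA1 (show (1 : ℝ) ≤ 29 by norm_num) hH1 hHN j a b
    (fun m => c * Real.log m) lam hlam0 (by omega) hD hc
  have hnorm : ‖∑ n ∈ Ico a b, expI (-(t * Real.log n))‖ =
      ‖∑ n ∈ Ico a b, expI (c * Real.log n)‖ := by
    rcases neg_one_pow_eq_or ℝ (j + 1) with h | h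
    · rw [Subconvexity.norm_sum_expI_neg]
      simp [hcdef, h]
    · simp [hcdef, h]
  rw [hnorm]
  refine hS.trans ?_
  set θ := 1 / (4 * (4 : ℝ) ^ (j + 2)) with hθ
  set e := (1 / 2 : ℝ) ^ j with he
  have he0 : 0 < e := by positivity
  have he1 : e ≤ 1 := pow_le_one₀ (by norm_num) (by norm_num)
  have hθe : θ ≤ 1 / (16 * k) * e := by
    rw [hθ, he, one_div_pow, one_div_mul_one_div]
    refine one_div_le_one_div_of_le (by positivity) ?_
    have hk2j : k ≤ (2 : ℝ) ^ (j + 2) := by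
      rw [← hkN]
      exact_mod_cast (Nat.lt_two_pow_self (n := j + 2)).le
    calc 16 * k * 2 ^ j ≤ 16 * (2 : ℝ) ^ (j + 2) * 2 ^ j := by gcongr
      _ = 4 * (2 * 2) ^ (j + 2) := by rw [mul_pow, pow_add]; ring
      _ = _ := by norm_num
  have hHe : (H : ℝ) ^ (-e) ≤ 2 * (N : ℝ) ^ (-θ) := by
    calc (H : ℝ) ^ (-e) ≤ (R / 2) ^ (-e) :=
          Real.rpow_le_rpow_of_nonpos (by linarith) hHlo (by linarith)
      _ = R ^ (-e) * (2 : ℝ) ^ e := by
          rw [Real.div_rpow (by linarith) two_pos.le, Real.rpow_neg two_pos.le, div_inv_eq_mul]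
      _ ≤ (N : ℝ) ^ (-θ) * 2 := by
          gcongr
          · rw [hR, ← Real.rpow_mul hN0.le]
            exact Real.rpow_le_rpow_of_exponent_le hN1 (by linarith)
          · exact Real.rpow_le_self_of_one_le one_le_two he1
      _ = _ := mul_comm _ _
  calc 8 * (29 : ℝ) * N * (H : ℝ) ^ (-e) ≤ 8 * 29 * N * (2 * (N : ℝ) ^ (-θ)) := by gcongr
    _ = _ := by ring

end FA.Hoheisel

end
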