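import Fermat.Agent.Hoheisel.ZeroDensity
import Fermat.Agent.Hoheisel.Littlewood
import Fermat.Agent.Subconvexity.ZetaLine

/-!
# Ingham's zero-density theorem

The zeros with `re ρ ≥ σ`, `|im ρ| ≤ T` number `O (T ^ (8 (1 - σ) / 3) log ^ 13 T)`. The product of
the mollifier and the truncated series is cut into dyadic cells `d ∼ 2 ^ i`, `m ∼ 2 ^ j`: the cells
with `i + j ≤ K` make one Dirichlet series without small terms, in the others the block of the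
series is `O (T ^ (1/6) 2 ^ (j (1/2 - σ)))` by the Weyl-Hardy-Littlewood bound.
-/

set_option autoImplicit false

noncomputable section

open Complex Finset FA.ZeroFree FA.RiemannMangoldt FA.ExplicitFormula
open ArithmeticFunction
open scoped Real ArithmeticFunction.Moebius

namespace FA.Hoheisel

/-- The pairs `(d, m)` in the cells with `i + j ≤ K`. -/
def nearPairs (I J K : ℕ) : Finset (ℕ × ℕ) :=
  ((Ico 1 (2 ^ I)) ×ˢ (Ico 1 (2 ^ J))).filter fun p => Nat.log 2 p.1 + Nat.log 2 p.2 ≤ K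

/-- The coefficients made by these cells. -/
def nearCoeff (I J K n : ℕ) : ℂ :=
  ∑ p ∈ (nearPairs I J K).filter (fun p => p.1 * p.2 = n), ((μ p.1 : ℤ) : ℂ)

/-- The block `d ∼ 2 ^ i` of the mollifier. -/
def molBlock (i : ℕ) (s : ℂ) : ℂ :=
  ∑ d ∈ (Ico (2 ^ i) (2 ^ (i + 1)) : Finset ℕ), ((μ d : ℤ) : ℂ) * (1 / (d : ℂ) ^ s)

/-- The block `m ∼ 2 ^ j` of the series. -/
def serBlock (j : ℕ) (s : ℂ) : ℂ := ∑ m ∈ (Ico (2 ^ j) (2 ^ (j + 1)) : Finset ℕ), 1 / (m : ℂ) ^ s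

theorem norm_moebius_cast_le (n : ℕ) : ‖((μ n : ℤ) : ℂ)‖ ≤ 1 := by
  rw [Complex.norm_intCast, ← Int.cast_abs, ← Int.cast_one, Int.cast_le]
  exact abs_moebius_le_one

theorem norm_nearCoeff_le (I J K n : ℕ) : ‖nearCoeff I J K n‖ ≤ n.divisors.card := by
  refine (norm_sum_le _ _).trans ((Finset.sum_le_sum fun p _ => norm_moebius_cast_le p.1).trans ?_)
  rw [Finset.sum_const, nsmul_eq_mul, mul_one]
  refine Nat.cast_le.2
    (Finset.card_le_card_of_injOn Prod.fst (fun p hp => ?_) fun p hp q hq h => ?_)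
  · simp only [nearPairs, Finset.coe_filter, Set.mem_ofPred_eq, Finset.mem_filter,
      Finset.mem_product, Finset.mem_Ico] at hp
    refine Finset.mem_coe.2 (Nat.mem_divisors.2 ⟨⟨p.2, hp.2.symm⟩, ?_⟩)
    rw [← hp.2]
    exact Nat.mul_ne_zero (by omega) (by omega)
  · simp only [nearPairs, Finset.coe_filter, Set.mem_ofPred_eq, Finset.mem_filter,
      Finset.mem_product, Finset.mem_Ico] at hp hq
    refine Prod.ext h (Nat.eq_of_mul_eq_mul_left (n := p.1) (by omega) ?_)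
    rw [hp.2, h, hq.2]

theorem nearCoeff_low {I J K n : ℕ} (hn : 1 ≤ n) (hI : n < 2 ^ I) (hIJ : I ≤ J) (hIK : I ≤ K) :
    nearCoeff I J K n = if n = 1 then 1 else 0 := by
  have hJ : n < 2 ^ J := hI.trans_le (Nat.pow_le_pow_right two_pos hIJ)
  rw [← molCoeff_low (X := 2 ^ I - 1) (N := 2 ^ J - 1) hn (by omega) (by omega), molCoeff]
  refine Finset.sum_congr ?_ fun _ _ => rfl
  ext p
  simp only [nearPairs, molPairs, Finset.mem_filter, Finset.mem_product, Finset.mem_Ico,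
    Finset.mem_Icc]
  constructor
  · rintro ⟨⟨⟨h1, h2⟩, -⟩, h4⟩
    exact ⟨⟨⟨h1.1, by omega⟩, ⟨h2.1, by omega⟩⟩, h4⟩
  · rintro ⟨⟨⟨h1, h1'⟩, ⟨h2, h2'⟩⟩, h4⟩
    refine ⟨⟨⟨⟨h1, by omega⟩, ⟨h2, by omega⟩⟩, ?_⟩, h4⟩
    have h5 := Nat.mul_le_mul (Nat.pow_log_le_self 2 (show p.1 ≠ 0 by omega))
      (Nat.pow_log_le_self 2 (show p.2 ≠ 0 by omega))
    rw [h4, ← pow_add] at h5
    have := (Nat.pow_lt_pow_iff_right (by norm_num : 1 < 2)).1 (lt_of_le_of_lt h5 hI)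
    omega

/-- The product, by cells. -/
theorem cells_eq {I J K : ℕ} (hI : 1 ≤ I) (hIJ : I ≤ J) (hIK : I ≤ K) (s : ℂ) :
    (∑ d ∈ (Ico 1 (2 ^ I) : Finset ℕ), ((μ d : ℤ) : ℂ) * (1 / (d : ℂ) ^ s)) *
        ∑ m ∈ (Ico 1 (2 ^ J) : Finset ℕ), 1 / (m : ℂ) ^ s =
      1 + ∑ n ∈ Ioc (2 ^ I - 1) (2 ^ (K + 2)), nearCoeff I J K n * (1 / (n : ℂ) ^ s) +
        ∑ c ∈ ((range I) ×ˢ (range J)).filter (fun c => K < c.1 + c.2),
          molBlock c.1 s * serBlock c.2 s := by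
  classical
  rw [Finset.sum_mul_sum, ← Finset.sum_product',
    ← Finset.sum_filter_add_sum_filter_not ((Ico 1 (2 ^ I)) ×ˢ (Ico 1 (2 ^ J)))
      fun p : ℕ × ℕ => Nat.log 2 p.1 + Nat.log 2 p.2 ≤ K]
  congr 1
  · rw [← Finset.sum_fiberwise_of_maps_to (g := fun p : ℕ × ℕ => p.1 * p.2)
      (t := Icc 1 (2 ^ (K + 2))) fun p hp => ?_]
    swap
    · simp only [Finset.mem_filter, Finset.mem_product, Finset.mem_Ico] at hp
      refine Finset.mem_Icc.2 ⟨Nat.one_le_iff_ne_zero.2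
        (Nat.mul_ne_zero (by omega) (by omega)), ?_⟩
      refine (Nat.mul_le_mul (Nat.lt_pow_succ_log_self one_lt_two p.1).le
        (Nat.lt_pow_succ_log_self one_lt_two p.2).le).trans ?_
      rw [← pow_add]
      exact Nat.pow_le_pow_right two_pos (by omega)
    have e : ∀ n ∈ Icc 1 (2 ^ (K + 2)),
        ∑ p ∈ ((((Ico 1 (2 ^ I)) ×ˢ (Ico 1 (2 ^ J))).filter
            fun p : ℕ × ℕ => Nat.log 2 p.1 + Nat.log 2 p.2 ≤ K).filter fun p => p.1 * p.2 = n),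
          ((μ p.1 : ℤ) : ℂ) * (1 / (p.1 : ℂ) ^ s) * (1 / (p.2 : ℂ) ^ s) =
        nearCoeff I J K n * (1 / (n : ℂ) ^ s) := by
      intro n _
      rw [nearCoeff, nearPairs, Finset.sum_mul]
      refine Finset.sum_congr rfl fun p hp => ?_
      rw [← (Finset.mem_filter.1 hp).2, natCast_mul_cpow]
      simp only [one_div, mul_inv]
      ring
    rw [Finset.sum_congr rfl e,
      show Icc 1 (2 ^ (K + 2)) = Icc 1 (2 ^ I - 1) ∪ Ioc (2 ^ I - 1) (2 ^ (K + 2)) by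
        have h1 : 2 ^ I ≤ 2 ^ (K + 2) := Nat.pow_le_pow_right two_pos (by omega)
        have h2 : 2 ≤ 2 ^ I := le_self_pow₀ one_le_two (by omega)
        ext k; simp only [Finset.mem_union, Finset.mem_Icc, Finset.mem_Ioc]; omega,
      Finset.sum_union (Finset.disjoint_left.2 fun k hk hk' => by
        rw [Finset.mem_Icc] at hk; rw [Finset.mem_Ioc] at hk'; omega)]
    congr 1
    have h2 : 2 ≤ 2 ^ I := le_self_pow₀ one_le_two (by omega)
    rw [Finset.sum_eq_single 1]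
    · rw [nearCoeff_low le_rfl (by omega) hIJ hIK]; simp
    · intro n hn hne
      rw [Finset.mem_Icc] at hn
      rw [nearCoeff_low hn.1 (by omega) hIJ hIK, if_neg hne, zero_mul]
    · intro h; exact absurd (Finset.mem_Icc.2 ⟨le_rfl, by omega⟩) h
  · rw [← Finset.sum_fiberwise_of_maps_to
      (g := fun p : ℕ × ℕ => (Nat.log 2 p.1, Nat.log 2 p.2))
      (t := ((range I) ×ˢ (range J)).filter (fun c => K < c.1 + c.2)) fun p hp => ?_]
    swap
    · simp only [Finset.mem_filter, Finset.mem_product, Finset.mem_Ico, mem_range] at hp ⊢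
      exact ⟨⟨Nat.log_lt_of_lt_pow (by omega) hp.1.1.2, Nat.log_lt_of_lt_pow (by omega) hp.1.2.2⟩,
        by omega⟩
    refine Finset.sum_congr rfl fun c hc => ?_
    simp only [Finset.mem_filter, Finset.mem_product, mem_range] at hc
    rw [molBlock, serBlock, Finset.sum_mul_sum, ← Finset.sum_product']
    refine Finset.sum_congr ?_ fun _ _ => rfl
    have hp1 : 2 ^ (c.1 + 1) ≤ 2 ^ I := Nat.pow_le_pow_right two_pos (by omega)
    have hp2 : 2 ^ (c.2 + 1) ≤ 2 ^ J := Nat.pow_le_pow_right two_pos (by omega)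
    have hq1 : 1 ≤ 2 ^ c.1 := Nat.one_le_pow _ _ two_pos
    have hq2 : 1 ≤ 2 ^ c.2 := Nat.one_le_pow _ _ two_pos
    ext p
    simp only [Finset.mem_filter, Finset.mem_product, Finset.mem_Ico, Prod.ext_iff]
    constructor
    · rintro ⟨⟨⟨h1, h2⟩, -⟩, e1, e2⟩
      exact ⟨(Nat.log_eq_iff (Or.inr ⟨one_lt_two, by omega⟩)).1 e1,
        (Nat.log_eq_iff (Or.inr ⟨one_lt_two, by omega⟩)).1 e2⟩
    · rintro ⟨h1, h2⟩
      have e1 := (Nat.log_eq_iff (Or.inr ⟨one_lt_two, by omega⟩)).2 h1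
      have e2 := (Nat.log_eq_iff (Or.inr ⟨one_lt_two, by omega⟩)).2 h2
      exact ⟨⟨⟨⟨by omega, by omega⟩, ⟨by omega, by omega⟩⟩, by omega⟩, e1, e2⟩

/-- A block of the mollifier as a piece of doubled index. -/
theorem molBlock_eq_piece (i : ℕ) (s : ℂ) :
    molBlock i s = (2 : ℂ) ^ s * piece (2 ^ (i + 1) - 1)
      (fun n => if 2 ∣ n then ((μ (n / 2) : ℤ) : ℂ) else 0) s.re s.im := by
  rw [piece_eq, molBlock, Finset.mul_sum]
  simp only [ite_mul, zero_mul, mul_ite, mul_zero]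
  rw [← Finset.sum_filter]
  refine Finset.sum_nbij' (fun d => 2 * d) (fun n => n / 2) (fun d hd => ?_) (fun n hn => ?_)
    (fun d _ => by simp) (fun n hn => ?_) (fun d hd => ?_)
  · rw [Finset.mem_Ico] at hd
    rw [Finset.mem_filter, Finset.mem_Ioc]
    exact ⟨by rw [pow_succ] at hd ⊢; omega, dvd_mul_right 2 d⟩
  · rw [Finset.mem_filter, Finset.mem_Ioc] at hn
    rw [Finset.mem_Ico]
    obtain ⟨⟨h1, h2⟩, k, rfl⟩ := hn
    rw [pow_succ] at h1 h2 ⊢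
    omega
  · rw [Finset.mem_filter] at hn
    exact Nat.mul_div_cancel' hn.2
  · have h2 : (2 : ℂ) ^ s ≠ 0 := by simp [cpow_eq_zero_iff]
    simp only [Nat.mul_div_cancel_left _ two_pos]
    rw [natCast_mul_cpow]
    simp only [one_div, mul_inv, Nat.cast_ofNat]
    field_simp

theorem norm_molBlock_sq_le {i : ℕ} {s : ℂ} (hs1 : s.re ≤ 1) :
    ‖molBlock i s‖ ^ 2 ≤ 4 * ‖piece (2 ^ (i + 1) - 1)
      (fun n => if 2 ∣ n then ((μ (n / 2) : ℤ) : ℂ) else 0) s.re s.im‖ ^ 2 := by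
  rw [molBlock_eq_piece, norm_mul, mul_pow]
  refine mul_le_mul_of_nonneg_right ?_ (sq_nonneg _)
  rw [show (4 : ℝ) = 2 ^ 2 by norm_num, show ((2 : ℂ)) = ((2 : ℝ) : ℂ) by norm_num,
    norm_cpow_eq_rpow_re_of_pos two_pos]
  exact pow_le_pow_left₀ (Real.rpow_nonneg two_pos.le _)
    (Real.rpow_le_self_of_one_le one_le_two hs1) 2

theorem norm_molEven_le (n : ℕ) :
    ‖(if 2 ∣ n then ((μ (n / 2) : ℤ) : ℂ) else 0)‖ ≤ n.divisors.card := by
  split_ifs with h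
  · rcases Nat.eq_zero_or_pos n with rfl | hn
    · simp
    · refine (norm_moebius_cast_le _).trans (Nat.one_le_cast.2 (Finset.card_pos.2 ⟨1, ?_⟩))
      simp; omega
  · simp

/-- **A block of the series**: `O (T ^ (1/6) 2 ^ (j (1/2 - σ)))`. -/
theorem norm_serBlock_le {T σ : ℝ} {s : ℂ} (hT : 4 ≤ T) (ht : T / 2 ≤ |s.im|)
    (ht' : |s.im| ≤ T) (hσ : σ ≤ s.re) (hσ0 : 0 ≤ σ) {j : ℕ} (hj : (2 : ℝ) ^ j ≤ T ^ 2) :
    ‖serBlock j s‖ ≤ 20000 * T ^ ((1 : ℝ) / 6) * ((2 : ℝ) ^ j) ^ (1 / 2 - σ) := by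
  set N : ℕ := 2 ^ j with hN
  have hN1 : 1 ≤ N := Nat.one_le_pow _ _ two_pos
  have hN0 : (0 : ℝ) < N := Nat.cast_pos.2 hN1
  have hNR : (N : ℝ) = (2 : ℝ) ^ j := by rw [hN]; push_cast; rfl
  have hNt : (N : ℝ) ≤ 4 * |s.im| ^ 2 := by rw [hNR]; nlinarith
  rw [← hNR, serBlock, ← hN, show 2 ^ (j + 1) = 2 * N by rw [hN, pow_succ]; ring,
    Finset.sum_congr rfl fun n hn => one_div_cpow_eq (s := s)
      (show 1 ≤ n by rw [mem_Ico] at hn; omega)]
  have hB : ∀ m, N ≤ m → m ≤ 2 * N →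
      ‖∑ n ∈ Ico N m, Subconvexity.expI (-(s.im * Real.log n))‖ ≤
        20000 * T ^ ((1 : ℝ) / 6) * √(N : ℝ) := by
    intro m hm hm'
    have h := Subconvexity.norm_sum_block_le (t := |s.im|) (by linarith) hN1 le_rfl hm' hNt
    refine le_trans (le_of_eq ?_) (h.trans (by gcongr))
    rcases le_or_gt 0 s.im with h0 | h0
    · rw [abs_of_nonneg h0]; rfl
    · rw [abs_of_neg h0, ← Subconvexity.norm_sum_expI_neg]
      simp [Subconvexity.phase]
  refine (Subconvexity.norm_sum_weight_le (w := fun n => (n : ℝ) ^ (-s.re)) (by omega)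
    (fun m _ _ => by positivity) (fun m hm _ => Real.rpow_le_rpow_of_nonpos
      (Nat.cast_pos.2 (by omega)) (Nat.cast_le.2 m.le_succ) (by linarith)) hB).trans ?_
  calc (N : ℝ) ^ (-s.re) * (20000 * T ^ ((1 : ℝ) / 6) * √(N : ℝ))
      = 20000 * T ^ ((1 : ℝ) / 6) * (N : ℝ) ^ (-s.re + 1 / 2) := by
        rw [Real.rpow_add hN0, ← Real.sqrt_eq_rpow]; ring
    _ ≤ _ := by
        gcongr
        · exact Nat.one_le_cast.2 hN1
        · linarith

/-- The product is small at a zero. -/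
theorem norm_cells_le {T b : ℝ} {I J : ℕ} {ρ : ℂ} (hρ : xiFn ρ = 0) (hT : 4 ≤ T)
    (hb : 5 / 8 ≤ b) (hre : b ≤ ρ.re) (him1 : T / 2 ≤ |ρ.im|) (him2 : |ρ.im| ≤ T)
    (hJ1 : T ^ 2 / 2 ≤ (2 : ℝ) ^ J) (hJ2 : (2 : ℝ) ^ J ≤ T ^ 2) :
    ‖(∑ d ∈ (Ico 1 (2 ^ I) : Finset ℕ), ((μ d : ℤ) : ℂ) * (1 / (d : ℂ) ^ ρ)) *
        ∑ m ∈ (Ico 1 (2 ^ J) : Finset ℕ), 1 / (m : ℂ) ^ ρ‖ ≤
      (I : ℝ) * ((2 : ℝ) ^ I) ^ (1 - b) *
        (2 * (T ^ (2 * (1 - b) - 1)) + 32 * T ^ (1 - 2 * b)) := by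
  obtain ⟨h0, h1⟩ := xiFn_zero_strip hρ
  have hT0 : 0 < T := by linarith
  have hb1 : b ≤ 1 := by linarith
  have hρ1 : ρ ≠ 1 := fun h => by rw [h] at h1; simp at h1
  rw [norm_mul]
  refine mul_le_mul ?_ ?_ (norm_nonneg _) (by positivity)
  · refine (norm_sum_le _ _).trans ?_
    rw [← Finset.sum_fiberwise_of_maps_to (g := Nat.log 2) (t := range I) fun d hd =>
      mem_range.2 (Nat.log_lt_of_lt_pow (by rw [mem_Ico] at hd; omega) (mem_Ico.1 hd).2)]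
    refine (Finset.sum_le_card_nsmul _ _ (((2 : ℝ) ^ I) ^ (1 - b)) fun i hi => ?_).trans
      (le_of_eq (by rw [card_range, nsmul_eq_mul]))
    calc ∑ d ∈ Ico 1 (2 ^ I) with Nat.log 2 d = i, ‖((μ d : ℤ) : ℂ) * (1 / (d : ℂ) ^ ρ)‖
        ≤ ∑ d ∈ Ico (2 ^ i) (2 ^ (i + 1)), ((2 : ℝ) ^ i) ^ (-b) := by
          refine (Finset.sum_le_sum (g := fun _ => ((2 : ℝ) ^ i) ^ (-b)) fun d hd => ?_).trans
            (Finset.sum_le_sum_of_subset_of_nonneg (fun d hd => ?_) fun _ _ _ => by positivity)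
          · rw [Finset.mem_filter, Finset.mem_Ico] at hd
            have hd0 : (0 : ℝ) < d := Nat.cast_pos.2 (by omega)
            have hid : (2 : ℝ) ^ i ≤ d := by
              rw [← hd.2]
              exact_mod_cast Nat.pow_log_le_self 2 (show d ≠ 0 by omega)
            rw [norm_mul, norm_div, norm_one, ← Complex.ofReal_natCast,
              norm_cpow_eq_rpow_re_of_pos hd0, one_div, ← Real.rpow_neg hd0.le]
            refine (mul_le_of_le_one_left (by positivity) (norm_moebius_cast_le d)).trans ?_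
            exact (Real.rpow_le_rpow_of_exponent_le (Nat.one_le_cast.2 (by omega))
              (by linarith)).trans (Real.rpow_le_rpow_of_nonpos (by positivity) hid (by linarith))
          · rw [Finset.mem_filter, Finset.mem_Ico] at hd
            rw [Finset.mem_Ico]
            exact (Nat.log_eq_iff (Or.inr ⟨one_lt_two, by omega⟩)).1 hd.2
      _ = ((2 : ℝ) ^ i) ^ (1 - b) := by
          rw [Finset.sum_const, Nat.card_Ico, nsmul_eq_mul, sub_eq_add_neg 1 b,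
            Real.rpow_add (by positivity), Real.rpow_one, pow_succ,
            show 2 ^ i * 2 - 2 ^ i = 2 ^ i by omega]
          push_cast
          rfl
      _ ≤ _ := Real.rpow_le_rpow (by positivity)
          (pow_le_pow_right₀ one_le_two (mem_range.1 hi).le) (by linarith)
  · have h2J : 2 ≤ 2 ^ J := by
      have : (2 : ℝ) ≤ (2 : ℝ) ^ J := by nlinarith
      exact_mod_cast this
    set N : ℕ := 2 ^ J - 1 with hNdef
    have hNR : (N : ℝ) = (2 : ℝ) ^ J - 1 := by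
      rw [hNdef, Nat.cast_sub (by omega)]; push_cast; rfl
    have hNlo : T ^ 2 / 4 ≤ (N : ℝ) := by rw [hNR]; nlinarith
    have hN0 : (0 : ℝ) < N := by nlinarith
    have hN1 : 1 ≤ N := Nat.cast_pos.1 hN0
    have hNhi : (N : ℝ) ≤ T ^ 2 := by rw [hNR]; linarith
    rw [show Ico 1 (2 ^ J) = Icc 1 N by ext k; simp only [mem_Ico, mem_Icc]; omega]
    have htr := riemannZeta_truncated h0 hρ1 hN1
    rw [(xiFn_eq_zero_iff h0 hρ1).1 hρ] at htr
    rw [show ∑ m ∈ Icc 1 N, 1 / (m : ℂ) ^ ρ = ρ * (∫ t in Set.Ioi (N : ℝ),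
        ((t - (⌊t⌋₊ : ℝ) : ℝ) : ℂ) * (t : ℂ) ^ (-(ρ + 1))) - (N : ℂ) ^ (1 - ρ) / (ρ - 1) by
      linear_combination -htr, add_comm (2 * _)]
    refine (norm_sub_le _ _).trans (add_le_add ?_ ?_)
    · have hi : ‖∫ u in Set.Ioi (N : ℝ), ((u - (⌊u⌋₊ : ℝ) : ℝ) : ℂ) * (u : ℂ) ^ (-(ρ + 1))‖ ≤
          (N : ℝ) ^ (-ρ.re) / ρ.re := by
        refine (MeasureTheory.norm_integral_le_of_norm_le
          (integrableOn_Ioi_rpow_of_lt (a := -(ρ.re + 1)) (by linarith) hN0) ?_).trans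
          (le_of_eq ?_)
        · filter_upwards [MeasureTheory.ae_restrict_mem measurableSet_Ioi] with u hu
          exact CycloGrowth.norm_fracIntegrand_le
            (lt_of_le_of_lt (Nat.one_le_cast.2 hN1) hu)
        · rw [integral_Ioi_rpow_of_lt (by linarith) hN0,
            show -(ρ.re + 1) + 1 = -ρ.re by ring, neg_div_neg_eq]
      have hn : ‖ρ‖ ≤ 2 * T := by
        have := norm_le_abs_re_add_abs_im ρ
        rw [abs_of_pos h0] at this
        linarith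
      have hp : (N : ℝ) ^ (-ρ.re) ≤ 4 * T ^ (-(2 * b)) := by
        calc (N : ℝ) ^ (-ρ.re) ≤ (T ^ 2 / 4) ^ (-ρ.re) :=
              Real.rpow_le_rpow_of_nonpos (by positivity) hNlo (by linarith)
          _ ≤ (T ^ 2 / 4) ^ (-b) :=
              Real.rpow_le_rpow_of_exponent_le (by nlinarith) (by linarith)
          _ = T ^ (-(2 * b)) * (4 : ℝ) ^ b := by
              rw [Real.div_rpow (sq_nonneg T) (by norm_num),
                Real.rpow_neg (by norm_num : (0:ℝ) ≤ 4),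
                div_inv_eq_mul, ← Real.rpow_natCast T 2, ← Real.rpow_mul hT0.le]
              push_cast; ring_nf
          _ ≤ T ^ (-(2 * b)) * 4 := by
              gcongr
              exact Real.rpow_le_self_of_one_le (by norm_num) hb1
          _ = _ := mul_comm _ _
      rw [norm_mul]
      calc ‖ρ‖ * ‖∫ u in Set.Ioi (N : ℝ), ((u - (⌊u⌋₊ : ℝ) : ℝ) : ℂ) * (u : ℂ) ^ (-(ρ + 1))‖
          ≤ 2 * T * (4 * T ^ (-(2 * b)) / (1 / 2)) := by
            refine mul_le_mul hn (hi.trans ?_) (norm_nonneg _) (by linarith)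
            exact div_le_div₀ (by positivity) hp (by norm_num) (by linarith)
        _ = 16 * (T * T ^ (-(2 * b))) := by ring
        _ ≤ 32 * T ^ (1 - 2 * b) := by
            rw [← Real.rpow_one_add' hT0.le (by linarith), ← sub_eq_add_neg]
            linarith [Real.rpow_nonneg hT0.le (1 - 2 * b)]
    · rw [norm_div, ← Complex.ofReal_natCast, norm_cpow_eq_rpow_re_of_pos hN0, sub_re, one_re]
      have hd : T / 2 ≤ ‖ρ - 1‖ := him1.trans (by simpa using abs_im_le_norm (ρ - 1))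
      rw [div_le_iff₀ (lt_of_lt_of_le (by linarith) hd)]
      calc (N : ℝ) ^ (1 - ρ.re) ≤ (N : ℝ) ^ (1 - b) :=
            Real.rpow_le_rpow_of_exponent_le (Nat.one_le_cast.2 hN1) (by linarith)
        _ ≤ (T ^ 2) ^ (1 - b) := Real.rpow_le_rpow hN0.le hNhi (by linarith)
        _ = 2 * T ^ (2 * (1 - b) - 1) * (T / 2) := by
            rw [← Real.rpow_natCast T 2, ← Real.rpow_mul hT0.le, Real.rpow_sub_one hT0.ne']
            push_cast
            field_simp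
        _ ≤ _ := by gcongr

/-- A power of two next to a real number. -/
theorem exists_two_pow {x : ℝ} (hx : 1 ≤ x) : ∃ n : ℕ, (2 : ℝ) ^ n ≤ x ∧ x < 2 * (2 : ℝ) ^ n := by
  refine ⟨Nat.log 2 ⌊x⌋₊, ?_, ?_⟩
  · refine le_trans ?_ (Nat.floor_le (by linarith))
    exact_mod_cast Nat.pow_log_le_self 2 (Nat.floor_pos.2 hx).ne'
  · have h : ⌊x⌋₊ + 1 ≤ 2 ^ (Nat.log 2 ⌊x⌋₊ + 1) := Nat.lt_pow_succ_log_self one_lt_two _
    have h' : ((⌊x⌋₊ : ℕ) : ℝ) + 1 ≤ (2 : ℝ) ^ (Nat.log 2 ⌊x⌋₊ + 1) := by exact_mod_cast h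
    rw [pow_succ] at h'
    linarith [Nat.lt_floor_add_one x]

theorem exponent_le_log {T : ℝ} (hT : 1 ≤ T) {n : ℕ} {m : ℝ}
    (h : (2 : ℝ) ^ n ≤ T ^ m) : (n : ℝ) ≤ 2 * m * Real.log T := by
  have h1 := Real.log_le_log (by positivity) h
  rw [Real.log_pow, Real.log_rpow (by linarith)] at h1
  have h2 : (1 : ℝ) / 2 ≤ Real.log 2 := by linarith [Real.log_two_gt_d9]
  have h3 := mul_le_mul_of_nonneg_left h2 (Nat.cast_nonneg n : (0 : ℝ) ≤ n)
  linarith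

/-- The band `T/2 < |im ρ| ≤ T`, with Ingham's exponent. -/
theorem exists_ingham_band : ∃ C, 0 ≤ C ∧ ∃ T₀, 16 ≤ T₀ ∧ ∀ σ T : ℝ, T₀ ≤ T → 5 / 8 ≤ σ →
    σ ≤ 1 → ∑ ρ ∈ ((zerosUpTo T).filter (fun ρ => σ ≤ ρ.re)).filter (fun ρ => T / 2 < |ρ.im|),
      (zeroWeight ρ : ℝ) ≤ C * T ^ (8 / 3 * (1 - σ)) * Real.log T ^ 12 := by
  classical
  obtain ⟨C, hC, hsamp⟩ := exists_piece_sample
  obtain ⟨T₁, hT₁⟩ := Filter.eventually_atTop.1 ((isLittleO_log_rpow_atTop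
    (show (0 : ℝ) < 1 / 16 by norm_num)).def (show (0 : ℝ) < 1 / 408 by norm_num))
  refine ⟨4 * (5 * 5 + 8 * 8) * (30 * 20000 ^ 2 * (C * 2 * 4 * 4 ^ 7) * 4), by positivity,
    max T₁ 10000, (by norm_num : (16 : ℝ) ≤ 10000).trans (le_max_right _ _),
    fun σ T hT hσ hσ1 => ?_⟩
  have hT4 : 10000 ≤ T := (le_max_right _ _).trans hT
  have hT0 : 0 < T := by linarith
  have hT1 : 1 ≤ T := by linarith
  set L := Real.log T with hL
  have hL3 : 3 ≤ L := by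
    rw [hL, Real.le_log_iff_exp_le hT0]
    calc Real.exp 3 = Real.exp 1 ^ 3 := by rw [← Real.exp_nat_mul]; norm_num
      _ ≤ 3 ^ 3 := pow_le_pow_left₀ (Real.exp_pos 1).le
          (by linarith [Real.exp_one_lt_d9]) 3
      _ ≤ T := by linarith
  have hlog : L ≤ 1 / 408 * T ^ ((1 : ℝ) / 16) := by
    have h := hT₁ T ((le_max_left _ _).trans hT)
    rwa [Real.norm_of_nonneg (by linarith), Real.norm_of_nonneg (by positivity)] at h
  set P := T ^ (8 / 3 * (1 - σ)) with hP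
  have hP0 : 0 ≤ P := Real.rpow_nonneg hT0.le _
  -- the parameters
  obtain ⟨a, b, ha0, ha1, hb, hbσ, hsmall, hX⟩ : ∃ a b : ℝ, 1 / 2 ≤ a ∧ a ≤ 1 ∧ 5 / 8 ≤ b ∧
      b ≤ σ ∧ a * (1 - b) + (1 - 2 * b) ≤ -(1 / 16) ∧
      1 + a * (1 - 2 * σ) ≤ 8 / 3 * (1 - σ) := by
    rcases le_or_gt σ (7 / 10) with h | h
    · exact ⟨1 / 2, 5 / 8, le_rfl, by norm_num, le_rfl, hσ, by norm_num, by linarith⟩
    · exact ⟨1, 7 / 10, by norm_num, le_rfl, by norm_num, h.le, by norm_num, by linarith⟩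
  obtain ⟨I, hI1, hI2⟩ := exists_two_pow (Real.one_le_rpow hT1 (show 0 ≤ a by linarith))
  obtain ⟨J, hJ1, hJ2⟩ := exists_two_pow (one_le_pow₀ (n := 2) hT1)
  obtain ⟨K, hK1, hK2⟩ := exists_two_pow (Real.one_le_rpow hT1 (show (0 : ℝ) ≤ 4 / 3 by norm_num))
  have hTa : 100 ≤ T ^ a := by
    calc (100 : ℝ) = √10000 := by rw [show (10000 : ℝ) = 100 ^ 2 by norm_num,
          Real.sqrt_sq (by norm_num)]
      _ ≤ √T := Real.sqrt_le_sqrt hT4
      _ = T ^ ((1 : ℝ) / 2) := Real.sqrt_eq_rpow T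
      _ ≤ T ^ a := Real.rpow_le_rpow_of_exponent_le hT1 ha0
  have hTaT : T ^ a ≤ T := Real.rpow_le_self_of_one_le hT1 ha1
  have hI0 : 1 ≤ I := by
    by_contra h
    rw [show I = 0 by omega, pow_zero] at hI2
    linarith
  have hIJ : I ≤ J := by
    refine le_of_lt ((pow_lt_pow_iff_right₀ (one_lt_two : (1 : ℝ) < 2)).1 ?_)
    nlinarith
  have hIK : I ≤ K := by
    refine le_of_lt ((pow_lt_pow_iff_right₀ (one_lt_two : (1 : ℝ) < 2)).1 ?_)
    have h8 : (3 : ℝ) ≤ T ^ ((1 : ℝ) / 3) := by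
      refine le_trans (le_of_eq ?_) (Real.rpow_le_rpow (by norm_num) (show (27 : ℝ) ≤ T by linarith)
        (by norm_num))
      rw [show (27 : ℝ) = 3 ^ ((3 : ℕ) : ℝ) by norm_num, ← Real.rpow_mul (by norm_num)]
      norm_num
    have h9 : T ^ ((4 : ℝ) / 3) = T * T ^ ((1 : ℝ) / 3) := by
      nth_rewrite 2 [← Real.rpow_one T]
      rw [← Real.rpow_add hT0]
      norm_num
    nlinarith [mul_le_mul_of_nonneg_left h8 hT0.le]
  have hKT : (2 : ℝ) ^ K ≤ T ^ 2 := by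
    refine hK1.trans ?_
    rw [← Real.rpow_natCast]
    exact Real.rpow_le_rpow_of_exponent_le hT1 (by norm_num)
  have hIL : (I : ℝ) ≤ 2 * L := by
    have := exponent_le_log hT1 (m := 1) (n := I)
      (by rw [Real.rpow_one]; exact hI1.trans hTaT)
    linarith
  have hJL : (J : ℝ) ≤ 4 * L := by
    have := exponent_le_log hT1 (m := 2) (n := J) (by rw [Real.rpow_two]; exact hJ1)
    linarith
  have hKL : (K : ℝ) ≤ 4 * L := by
    have := exponent_le_log hT1 (m := 2) (n := K) (by rw [Real.rpow_two]; exact hKT)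
    linarith
  set Z := ((zerosUpTo T).filter (fun ρ => σ ≤ ρ.re)).filter (fun ρ => T / 2 < |ρ.im|)
  have hZ : ∀ ρ ∈ Z, xiFn ρ = 0 ∧ |ρ.im| ≤ T ∧ σ ≤ ρ.re ∧ T / 2 < |ρ.im| := fun ρ hρ => by
    simp only [Z, Finset.mem_filter, mem_zerosUpTo] at hρ
    exact ⟨hρ.1.1.1, hρ.1.1.2, hρ.1.2, hρ.2⟩
  set X : ℕ := 2 ^ I - 1 with hXdef
  have h2I : 2 ≤ 2 ^ I := le_self_pow₀ one_le_two (by omega)
  have hXR : (X : ℝ) = (2 : ℝ) ^ I - 1 := by
    rw [hXdef, Nat.cast_sub (by omega)]; push_cast; rfl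
  have hX4 : T ^ a / 4 ≤ (X : ℝ) := by rw [hXR]; linarith
  set J' : ℕ := K + 3 - I with hJ'
  have hJ'L : (J' : ℝ) ≤ 5 * L := by
    have : (J' : ℝ) ≤ (K : ℝ) + 3 := by exact_mod_cast (show J' ≤ K + 3 by omega)
    linarith
  have hcover : 2 ^ (K + 2) ≤ X * 2 ^ J' := by
    calc 2 ^ (K + 2) = 2 ^ (I - 1) * 2 ^ J' := by rw [← pow_add]; congr 1; omega
      _ ≤ X * 2 ^ J' := by
        refine Nat.mul_le_mul_right _ ?_
        have : 2 ^ I = 2 ^ (I - 1) * 2 := by rw [← pow_succ]; congr 1; omega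
        have := Nat.one_le_pow (I - 1) 2 two_pos
        omega
  set co : ℕ → ℂ := fun n => if n ≤ 2 ^ (K + 2) then nearCoeff I J K n else 0 with hco
  have hcoLe : ∀ n, ‖co n‖ ≤ n.divisors.card := fun n => by
    simp only [hco]
    split_ifs
    · exact norm_nearCoeff_le _ _ _ _
    · simp
  set E : ℕ → ℂ := fun n => if 2 ∣ n then ((μ (n / 2) : ℤ) : ℂ) else 0
  set cs := ((range I) ×ˢ (range J)).filter (fun c => K < c.1 + c.2) with hcs
  have hcard : (cs.card : ℝ) ≤ 8 * L ^ 2 := by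
    have h := Finset.card_filter_le ((range I) ×ˢ (range J)) (fun c => K < c.1 + c.2)
    rw [Finset.card_product, card_range, card_range] at h
    calc (cs.card : ℝ) ≤ (I : ℝ) * J := by rw [← Nat.cast_mul]; exact Nat.cast_le.2 h
      _ ≤ (2 * L) * (4 * L) := mul_le_mul hIL hJL (Nat.cast_nonneg _) (by linarith)
      _ = _ := by ring
  set S1 : ℂ → ℝ := fun ρ => ∑ u ∈ range J', ‖piece (X * 2 ^ u) co ρ.re ρ.im‖ ^ 2 with hS1
  set S2 : ℂ → ℝ := fun ρ => ∑ c ∈ cs, ‖molBlock c.1 ρ * serBlock c.2 ρ‖ ^ 2 with hS2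
  have hS10 : ∀ ρ, 0 ≤ S1 ρ := fun ρ => Finset.sum_nonneg fun _ _ => sq_nonneg _
  have hS20 : ∀ ρ, 0 ≤ S2 ρ := fun ρ => Finset.sum_nonneg fun _ _ => sq_nonneg _
  -- detection
  have hdet : ∀ ρ ∈ Z, (1 : ℝ) ≤ 4 * (5 * L * S1 ρ + 8 * L ^ 2 * S2 ρ) := by
    intro ρ hρ
    obtain ⟨h0, h1, h2, h3⟩ := hZ ρ hρ
    have hle := norm_cells_le (I := I) (b := b) h0 (by linarith) hb (hbσ.trans h2) h3.le h1
      (by linarith) hJ1
    rw [cells_eq hI0 hIJ hIK] at hle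
    have hquarter : (I : ℝ) * ((2 : ℝ) ^ I) ^ (1 - b) *
        (2 * T ^ (2 * (1 - b) - 1) + 32 * T ^ (1 - 2 * b)) ≤ 1 / 4 := by
      rw [show 2 * (1 - b) - 1 = 1 - 2 * b by ring, ← add_mul]
      calc (I : ℝ) * ((2 : ℝ) ^ I) ^ (1 - b) * ((2 + 32) * T ^ (1 - 2 * b))
          ≤ 2 * L * (T ^ a) ^ (1 - b) * ((2 + 32) * T ^ (1 - 2 * b)) := by
            gcongr
            linarith
        _ = 68 * L * T ^ (a * (1 - b) + (1 - 2 * b)) := by
            rw [Real.rpow_add hT0, Real.rpow_mul hT0.le]; ring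
        _ ≤ 68 * (1 / 408 * T ^ ((1 : ℝ) / 16)) * T ^ (-(1 / 16) : ℝ) := by
            gcongr
        _ = 1 / 6 := by
            rw [mul_assoc, mul_assoc, ← Real.rpow_add hT0, add_neg_cancel, Real.rpow_zero]
            norm_num
        _ ≤ 1 / 4 := by norm_num
    set A := ∑ n ∈ Ioc (2 ^ I - 1) (2 ^ (K + 2)), nearCoeff I J K n * (1 / (n : ℂ) ^ ρ)
    set B := ∑ c ∈ cs, molBlock c.1 ρ * serBlock c.2 ρ
    have hAB : 3 / 4 ≤ ‖A‖ + ‖B‖ := by
      have h4 := hle.trans hquarter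
      have := norm_sub_norm_le (1 : ℂ) (-(A + B))
      rw [norm_one, norm_neg, sub_neg_eq_add, ← add_assoc] at this
      linarith [norm_add_le A B]
    have hA : A = ∑ u ∈ range J', piece (X * 2 ^ u) co ρ.re ρ.im := by
      simp only [piece_eq]
      rw [sum_dyadic]
      refine (Finset.sum_congr rfl fun n hn => ?_).trans (Finset.sum_subset
        (Finset.Ioc_subset_Ioc_right hcover) fun n hn hn' => ?_)
      · simp only [Finset.mem_Ioc] at hn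
        simp only [hco, if_pos hn.2]
      · simp only [Finset.mem_Ioc] at hn hn'
        simp only [hco]
        rw [if_neg (fun h => hn' ⟨hn.1, h⟩), zero_mul]
    have hA2 : ‖A‖ ^ 2 ≤ 5 * L * S1 ρ := by
      rw [hA]
      refine (pow_le_pow_left₀ (norm_nonneg _) (norm_sum_le _ _) 2).trans
        (sq_sum_le_card_mul_sum_sq.trans ?_)
      rw [card_range]
      exact mul_le_mul_of_nonneg_right hJ'L (hS10 ρ)
    have hB2 : ‖B‖ ^ 2 ≤ 8 * L ^ 2 * S2 ρ := by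
      refine (pow_le_pow_left₀ (norm_nonneg _) (norm_sum_le _ _) 2).trans
        (sq_sum_le_card_mul_sum_sq.trans ?_)
      exact mul_le_mul_of_nonneg_right hcard (hS20 ρ)
    nlinarith [sq_nonneg (‖A‖ - ‖B‖), norm_nonneg A, norm_nonneg B]
  have hell : ell T ≤ 2 * L := by
    rw [hL, ell, abs_of_pos hT0, show 2 * Real.log T = Real.log (T ^ 2) by
      rw [Real.log_pow]; norm_num]
    exact Real.log_le_log (by positivity) (by nlinarith)
  have hσ2 : 1 - 2 * σ ≤ 0 := by linarith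
  -- sampling a piece
  have hpiece : ∀ (U : ℕ) (c : ℕ → ℂ), 1 ≤ U → (U : ℝ) ≤ 4 * T ^ 2 →
      (∀ n, ‖c n‖ ≤ n.divisors.card) →
      ∑ ρ ∈ Z, (zeroWeight ρ : ℝ) * ‖piece U c ρ.re ρ.im‖ ^ 2 ≤
        C * 2 * 4 * 4 ^ 7 * L ^ 8 * ((T + 2 * U) * (U : ℝ) ^ (1 - 2 * σ)) := by
    intro U c hU hU2 hc
    refine (hsamp U c σ T Z hT1 (fun ρ hρ =>
      ⟨(hZ ρ hρ).1, (hZ ρ hρ).2.1, (hZ ρ hρ).2.2.1⟩) (by linarith)).trans ?_
    have hU0 : (1 : ℝ) ≤ U := Nat.one_le_cast.2 hU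
    have hLam : 1 + Real.log (2 * (U : ℝ)) ≤ 4 * L := by
      have h : Real.log (2 * (U : ℝ)) ≤ Real.log (T ^ 3) :=
        Real.log_le_log (by positivity) (by nlinarith)
      rw [Real.log_pow, ← hL, Nat.cast_ofNat] at h
      linarith
    have hLam0 : 0 ≤ 1 + Real.log (2 * (U : ℝ)) := by
      linarith [Real.log_nonneg (show (1 : ℝ) ≤ 2 * U by linarith)]
    have hb0 := add_nonneg (blockSum_nonneg U c σ)
      (blockSum_nonneg U (fun n => -(Real.log n : ℂ) * c n) σ)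
    rw [show ((2 * U : ℕ) : ℝ) = 2 * (U : ℝ) by push_cast; ring]
    calc C * ell T * ((T + 2 * (U : ℝ)) *
          (blockSum U c σ + blockSum U (fun n => -(Real.log n : ℂ) * c n) σ))
        ≤ C * (2 * L) * ((T + 2 * (U : ℝ)) * (4 * (4 * L) ^ 7 * (U : ℝ) ^ (1 - 2 * σ))) := by
          refine mul_le_mul (mul_le_mul_of_nonneg_left hell hC) ?_
            (mul_nonneg (by positivity) hb0) (by positivity)
          refine mul_le_mul_of_nonneg_left ?_ (by positivity)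
          refine (blockSum_le hU (by linarith) hc).trans ?_
          gcongr
      _ = _ := by ring
  have h0Q : 0 ≤ C * 2 * 4 * 4 ^ 7 * L ^ 8 := by positivity
  have hone : ∀ u ∈ range J', ∑ ρ ∈ Z, (zeroWeight ρ : ℝ) *
      ‖piece (X * 2 ^ u) co ρ.re ρ.im‖ ^ 2 ≤
        30 * 20000 ^ 2 * (C * 2 * 4 * 4 ^ 7) * 4 * L ^ 8 * P := by
    intro u hu
    set U := X * 2 ^ u with hU
    have hXU : X ≤ U := Nat.le_mul_of_pos_right X (by positivity)
    have hUK : U ≤ 2 ^ (K + 2) := by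
      calc U ≤ 2 ^ I * 2 ^ (K + 2 - I) := Nat.mul_le_mul (by omega)
            (Nat.pow_le_pow_right two_pos (by have := mem_range.1 hu; omega))
        _ = 2 ^ (K + 2) := by rw [← pow_add]; congr 1; omega
    have hUR : (U : ℝ) ≤ 4 * T ^ ((4 : ℝ) / 3) := by
      have h : (U : ℝ) ≤ ((2 : ℝ) ^ (K + 2)) := by exact_mod_cast hUK
      rw [pow_add] at h
      linarith
    have hU2 : (U : ℝ) ≤ 4 * T ^ 2 := hUR.trans (by
      rw [← Real.rpow_two]; gcongr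
      norm_num)
    refine (hpiece U co (le_trans (by omega) hXU) hU2 hcoLe).trans ?_
    have hU0 : (0 : ℝ) < U := Nat.cast_pos.2 (lt_of_lt_of_le (by omega) hXU)
    have e1 : T * (U : ℝ) ^ (1 - 2 * σ) ≤ 4 * P := by
      have hX0 : (0 : ℝ) < T ^ a / 4 := by positivity
      calc T * (U : ℝ) ^ (1 - 2 * σ) ≤ T * (T ^ a / 4) ^ (1 - 2 * σ) := by
            refine mul_le_mul_of_nonneg_left ?_ hT0.le
            exact Real.rpow_le_rpow_of_nonpos hX0 (hX4.trans (Nat.cast_le.2 hXU)) hσ2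
        _ = T ^ (1 + a * (1 - 2 * σ)) * (4 : ℝ) ^ (2 * σ - 1) := by
            rw [Real.div_rpow (Real.rpow_nonneg hT0.le _) (by norm_num), ← Real.rpow_mul hT0.le,
              Real.rpow_add hT0, Real.rpow_one, show 1 - 2 * σ = -(2 * σ - 1) by ring,
              Real.rpow_neg (by norm_num : (0 : ℝ) ≤ 4), div_inv_eq_mul]
            ring
        _ ≤ P * 4 := mul_le_mul (Real.rpow_le_rpow_of_exponent_le hT1 hX)
            (Real.rpow_le_self_of_one_le (by norm_num) (by linarith)) (by positivity) hP0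
        _ = _ := mul_comm _ _
    have e2 : (U : ℝ) * (U : ℝ) ^ (1 - 2 * σ) ≤ 4 * P := by
      calc (U : ℝ) * (U : ℝ) ^ (1 - 2 * σ) = (U : ℝ) ^ (1 + (1 - 2 * σ)) := by
            rw [Real.rpow_add hU0, Real.rpow_one]
        _ ≤ (4 * T ^ ((4 : ℝ) / 3)) ^ (1 + (1 - 2 * σ)) :=
            Real.rpow_le_rpow hU0.le hUR (by linarith)
        _ = (4 : ℝ) ^ (1 + (1 - 2 * σ)) * P := by
            rw [Real.mul_rpow (by norm_num) (by positivity), ← Real.rpow_mul hT0.le, hP]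
            ring_nf
        _ ≤ 4 * P := mul_le_mul_of_nonneg_right
            (Real.rpow_le_self_of_one_le (by norm_num) (by linarith)) hP0
    calc C * 2 * 4 * 4 ^ 7 * L ^ 8 * ((T + 2 * U) * (U : ℝ) ^ (1 - 2 * σ))
        = C * 2 * 4 * 4 ^ 7 * L ^ 8 *
          (T * (U : ℝ) ^ (1 - 2 * σ) + 2 * ((U : ℝ) * (U : ℝ) ^ (1 - 2 * σ))) := by ring
      _ ≤ C * 2 * 4 * 4 ^ 7 * L ^ 8 * (12 * P) :=
          mul_le_mul_of_nonneg_left (by linarith) h0Q
      _ ≤ C * 2 * 4 * 4 ^ 7 * L ^ 8 * ((30 * 20000 ^ 2 * 4) * P) := by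
          gcongr
          norm_num
      _ = _ := by ring
  have htwo : ∀ c ∈ cs, ∑ ρ ∈ Z, (zeroWeight ρ : ℝ) * ‖molBlock c.1 ρ * serBlock c.2 ρ‖ ^ 2 ≤
      30 * 20000 ^ 2 * (C * 2 * 4 * 4 ^ 7) * 4 * L ^ 8 * P := by
    intro c hc
    simp only [hcs, Finset.mem_filter, Finset.mem_product, mem_range] at hc
    obtain ⟨⟨hci, hcj⟩, hck⟩ := hc
    set U : ℕ := 2 ^ (c.1 + 1) - 1 with hU
    set τ := 20000 * T ^ ((1 : ℝ) / 6) * ((2 : ℝ) ^ c.2) ^ (1 / 2 - σ) with hτ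
    have hser : ∀ ρ ∈ Z, ‖molBlock c.1 ρ * serBlock c.2 ρ‖ ^ 2 ≤
        τ ^ 2 * 4 * ‖piece U E ρ.re ρ.im‖ ^ 2 := by
      intro ρ hρ
      obtain ⟨h0, h1, h2, h3⟩ := hZ ρ hρ
      rw [norm_mul, mul_pow, mul_comm, mul_assoc]
      refine mul_le_mul (pow_le_pow_left₀ (norm_nonneg _) ?_ 2)
        (norm_molBlock_sq_le (xiFn_zero_strip h0).2.le) (sq_nonneg _) (sq_nonneg _)
      exact norm_serBlock_le (by linarith) h3.le h1 h2 (by linarith)
        ((pow_le_pow_right₀ one_le_two hcj.le).trans hJ1)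
    refine (Finset.sum_le_sum fun ρ hρ => mul_le_mul_of_nonneg_left (hser ρ hρ)
      (Nat.cast_nonneg _)).trans ?_
    rw [Finset.sum_congr rfl fun ρ _ => mul_left_comm (zeroWeight ρ : ℝ) (τ ^ 2 * 4) _,
      ← Finset.mul_sum]
    have hU1 : 2 ^ c.1 ≤ U := by
      have : 1 ≤ 2 ^ c.1 := Nat.one_le_pow _ _ two_pos
      rw [hU, pow_succ]; omega
    have hUT : (U : ℝ) ≤ T := by
      have h1 : U ≤ 2 ^ I := (Nat.sub_le _ _).trans (Nat.pow_le_pow_right two_pos (by omega))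
      have h2 : (U : ℝ) ≤ (2 : ℝ) ^ I := by exact_mod_cast h1
      linarith
    refine (mul_le_mul_of_nonneg_left (hpiece U E (le_trans (Nat.one_le_pow _ _ two_pos) hU1)
      (by nlinarith) fun n => norm_molEven_le n) (by positivity)).trans ?_
    have hi0 : (0 : ℝ) < (2 : ℝ) ^ c.1 := by positivity
    have e1 : (U : ℝ) ^ (1 - 2 * σ) ≤ ((2 : ℝ) ^ c.1) ^ (1 - 2 * σ) :=
      Real.rpow_le_rpow_of_nonpos hi0 (by exact_mod_cast hU1) hσ2
    have e2 : τ ^ 2 = 20000 ^ 2 * T ^ ((1 : ℝ) / 3) * ((2 : ℝ) ^ c.2) ^ (1 - 2 * σ) := by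
      rw [hτ, mul_pow, mul_pow, ← Real.rpow_mul_natCast hT0.le,
        ← Real.rpow_mul_natCast (by positivity)]
      push_cast
      ring_nf
    have e3 : ((2 : ℝ) ^ c.1) ^ (1 - 2 * σ) * ((2 : ℝ) ^ c.2) ^ (1 - 2 * σ) ≤
        2 * T ^ ((4 : ℝ) / 3 * (1 - 2 * σ)) := by
      rw [← Real.mul_rpow (by positivity) (by positivity), ← pow_add]
      calc ((2 : ℝ) ^ (c.1 + c.2)) ^ (1 - 2 * σ) ≤ (T ^ ((4 : ℝ) / 3) / 2) ^ (1 - 2 * σ) := by
            refine Real.rpow_le_rpow_of_nonpos (by positivity) ?_ hσ2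
            have : (2 : ℝ) ^ K ≤ (2 : ℝ) ^ (c.1 + c.2) := pow_le_pow_right₀ one_le_two hck.le
            linarith
        _ = T ^ ((4 : ℝ) / 3 * (1 - 2 * σ)) * (2 : ℝ) ^ (2 * σ - 1) := by
            rw [Real.div_rpow (Real.rpow_nonneg hT0.le _) two_pos.le, ← Real.rpow_mul hT0.le,
              show 1 - 2 * σ = -(2 * σ - 1) by ring, Real.rpow_neg two_pos.le, div_inv_eq_mul]
        _ ≤ T ^ ((4 : ℝ) / 3 * (1 - 2 * σ)) * 2 := by
            gcongr
            exact Real.rpow_le_self_of_one_le one_le_two (by linarith)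
        _ = _ := mul_comm _ _
    have e4 : T ^ ((1 : ℝ) / 3) * T * T ^ ((4 : ℝ) / 3 * (1 - 2 * σ)) = P := by
      rw [← Real.rpow_add_one hT0.ne', ← Real.rpow_add hT0, hP]
      ring_nf
    calc τ ^ 2 * 4 * (C * 2 * 4 * 4 ^ 7 * L ^ 8 * ((T + 2 * U) * (U : ℝ) ^ (1 - 2 * σ)))
        ≤ τ ^ 2 * 4 * (C * 2 * 4 * 4 ^ 7 * L ^ 8 * ((3 * T) * ((2 : ℝ) ^ c.1) ^ (1 - 2 * σ))) := by
          gcongr
          linarith
      _ = 20000 ^ 2 * 12 * (C * 2 * 4 * 4 ^ 7) * L ^ 8 * (T ^ ((1 : ℝ) / 3) * T *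
          (((2 : ℝ) ^ c.1) ^ (1 - 2 * σ) * ((2 : ℝ) ^ c.2) ^ (1 - 2 * σ))) := by rw [e2]; ring
      _ ≤ 20000 ^ 2 * 12 * (C * 2 * 4 * 4 ^ 7) * L ^ 8 * (T ^ ((1 : ℝ) / 3) * T *
          (2 * T ^ ((4 : ℝ) / 3 * (1 - 2 * σ)))) := by gcongr
      _ = 24 * 20000 ^ 2 * (C * 2 * 4 * 4 ^ 7) * L ^ 8 * P := by rw [← e4]; ring
      _ ≤ (30 * 20000 ^ 2 * 4) * (C * 2 * 4 * 4 ^ 7) * L ^ 8 * P := by
          have : 0 ≤ C * 2 * 4 * 4 ^ 7 * L ^ 8 * P := by positivity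
          linarith
      _ = _ := by ring
  set Q := 30 * 20000 ^ 2 * (C * 2 * 4 * 4 ^ 7) * 4 with hQ
  have hQ0 : 0 ≤ Q := by positivity
  have m1 : ∑ ρ ∈ Z, (zeroWeight ρ : ℝ) * S1 ρ ≤ 5 * L * (Q * L ^ 8 * P) := by
    simp only [hS1, Finset.mul_sum]
    rw [Finset.sum_comm]
    refine (Finset.sum_le_card_nsmul _ _ _ hone).trans ?_
    rw [card_range, nsmul_eq_mul]
    gcongr
  have m2 : ∑ ρ ∈ Z, (zeroWeight ρ : ℝ) * S2 ρ ≤ 8 * L ^ 2 * (Q * L ^ 8 * P) := by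
    simp only [hS2, Finset.mul_sum]
    rw [Finset.sum_comm]
    refine (Finset.sum_le_card_nsmul _ _ _ htwo).trans ?_
    rw [nsmul_eq_mul]
    gcongr
  calc ∑ ρ ∈ Z, (zeroWeight ρ : ℝ)
      ≤ ∑ ρ ∈ Z, (zeroWeight ρ : ℝ) * (4 * (5 * L * S1 ρ + 8 * L ^ 2 * S2 ρ)) :=
        Finset.sum_le_sum fun ρ hρ => le_mul_of_one_le_right (Nat.cast_nonneg _) (hdet ρ hρ)
    _ = 4 * (5 * L * ∑ ρ ∈ Z, (zeroWeight ρ : ℝ) * S1 ρ +
        8 * L ^ 2 * ∑ ρ ∈ Z, (zeroWeight ρ : ℝ) * S2 ρ) := by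
        simp only [Finset.mul_sum, ← Finset.sum_add_distrib]
        exact Finset.sum_congr rfl fun ρ _ => by ring
    _ ≤ 4 * (5 * L * (5 * L * (Q * L ^ 8 * P)) + 8 * L ^ 2 * (8 * L ^ 2 * (Q * L ^ 8 * P))) := by
        gcongr
    _ ≤ _ := by
        have h1 : L ^ 10 ≤ L ^ 12 := pow_le_pow_right₀ (by linarith) (by norm_num)
        have h2 := mul_le_mul_of_nonneg_left h1 (mul_nonneg hQ0 hP0)
        rw [hQ] at h2 ⊢
        linarith

/-- The count from the bound on the bands. -/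
theorem countGe_le_bands {σ T T₀ B : ℝ} (hT₀ : 1 ≤ T₀) (hB : 0 ≤ B)
    (h : ∀ S, T₀ ≤ S → S ≤ T →
      ∑ ρ ∈ ((zerosUpTo S).filter (fun ρ => σ ≤ ρ.re)).filter (fun ρ => S / 2 < |ρ.im|),
        (zeroWeight ρ : ℝ) ≤ B) :
    ∀ (j : ℕ) (S : ℝ), S ≤ T → S ≤ 2 ^ j * T₀ →
      (countGe σ S : ℝ) ≤ (countGe 0 T₀ : ℝ) + j * B := by
  intro j
  induction j with
  | zero =>
    intro S _ hS
    rw [pow_zero, one_mul] at hS
    simp only [Nat.cast_zero, zero_mul, add_zero, Nat.cast_le]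
    refine (countGe_mono σ hS).trans (Finset.sum_le_sum_of_subset fun ρ hρ => ?_)
    simp only [Finset.mem_filter, mem_zerosUpTo] at hρ ⊢
    exact ⟨hρ.1, (xiFn_zero_strip hρ.1.1).1.le⟩
  | succ j ih =>
    intro S hST hS
    rcases le_or_gt S (2 ^ j * T₀) with h' | h'
    · refine (ih S hST h').trans ?_
      push_cast
      linarith
    have hS0 : T₀ ≤ S :=
      (le_mul_of_one_le_left (by linarith) (one_le_pow₀ one_le_two)).trans h'.le
    have hb := h S hS0 hST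
    have hpre := ih (S / 2) (by linarith) (by rw [pow_succ] at hS; linarith)
    have hsplit : (countGe σ S : ℝ) = (countGe σ (S / 2) : ℝ) +
        ∑ ρ ∈ ((zerosUpTo S).filter (fun ρ => σ ≤ ρ.re)).filter (fun ρ => S / 2 < |ρ.im|),
          (zeroWeight ρ : ℝ) := by
      rw [countGe, countGe, Nat.cast_sum, Nat.cast_sum,
        ← Finset.sum_filter_add_sum_filter_not ((zerosUpTo S).filter (fun ρ => σ ≤ ρ.re))
          (fun ρ => |ρ.im| ≤ S / 2)]
      congr 1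
      · refine Finset.sum_congr ?_ fun _ _ => rfl
        ext ρ
        simp only [Finset.mem_filter, mem_zerosUpTo]
        constructor
        · rintro ⟨⟨⟨a, -⟩, b⟩, c⟩; exact ⟨⟨a, c⟩, b⟩
        · rintro ⟨⟨a, c⟩, b⟩; exact ⟨⟨⟨a, by linarith⟩, b⟩, c⟩
      · simp only [not_le]
    rw [hsplit]
    push_cast
    linarith

/-- **Ingham's zero-density theorem.** -/
theorem exists_ingham_density : ∃ C, 0 ≤ C ∧ ∀ σ T : ℝ, 2 ≤ T →
    (countGe σ T : ℝ) ≤ C * T ^ (8 / 3 * (1 - σ)) * Real.log T ^ 13 := by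
  obtain ⟨C₀, hC₀, htriv⟩ := exists_countGe_trivial
  obtain ⟨C₁, hC₁, T₀, hT₀, hband⟩ := exists_ingham_band
  set M : ℝ := (countGe 0 T₀ : ℝ) with hM
  refine ⟨(C₀ + M + 3 * C₁) * 4 ^ 13, by positivity, fun σ T hT => ?_⟩
  set L := Real.log T with hLdef
  have hL : 1 / 2 ≤ L := le_trans (by linarith [Real.log_two_gt_d9]) (Real.log_le_log two_pos hT)
  have hT0 : 0 < T := by linarith
  set P := T ^ (8 / 3 * (1 - σ)) with hP
  have hP0 : 0 ≤ P := Real.rpow_nonneg hT0.le _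
  have hL4 : L ≤ 4 ^ 13 * L ^ 13 := by
    rw [← mul_pow]
    exact (le_mul_of_one_le_left (by linarith) (show (1 : ℝ) ≤ 4 by norm_num)).trans
      (le_self_pow₀ (by linarith) (by norm_num))
  rcases le_or_gt σ (5 / 8) with hσ | hσ
  · have hTP : T ≤ P := Real.self_le_rpow_of_one_le (by linarith) (by linarith)
    calc (countGe σ T : ℝ) ≤ C₀ * (T * L) := htriv σ T hT
      _ ≤ C₀ * (P * (4 ^ 13 * L ^ 13)) := by gcongr
      _ = C₀ * 4 ^ 13 * P * L ^ 13 := by ring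
      _ ≤ _ := by
        gcongr
        linarith [show (0 : ℝ) ≤ M from Nat.cast_nonneg _]
  rcases le_or_gt σ 1 with hσ1 | hσ1
  swap
  · have : countGe σ T = 0 := Finset.sum_eq_zero fun ρ hρ => by
      simp only [Finset.mem_filter, mem_zerosUpTo] at hρ
      linarith [(xiFn_zero_strip hρ.1.1).2]
    rw [this, Nat.cast_zero]
    positivity
  set j := Nat.log 2 ⌊T⌋₊ + 1 with hj
  have hjT : T ≤ 2 ^ j * T₀ := by
    have h2 : ((⌊T⌋₊ : ℕ) : ℝ) + 1 ≤ (2 : ℝ) ^ j := by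
      exact_mod_cast (Nat.lt_pow_succ_log_self one_lt_two ⌊T⌋₊ : ⌊T⌋₊ + 1 ≤ 2 ^ j)
    have : (2 : ℝ) ^ j ≤ 2 ^ j * T₀ := le_mul_of_one_le_right (by positivity) (by linarith)
    linarith [Nat.lt_floor_add_one T]
  have hjL : (j : ℝ) ≤ 4 * L := by
    have hfl : 2 ^ Nat.log 2 ⌊T⌋₊ ≤ ⌊T⌋₊ :=
      Nat.pow_log_le_self 2 (Nat.floor_pos.2 (by linarith : (1 : ℝ) ≤ T)).ne'
    have hflR : (2 : ℝ) ^ Nat.log 2 ⌊T⌋₊ ≤ (⌊T⌋₊ : ℝ) := by exact_mod_cast hfl
    have h := exponent_le_log (show 1 ≤ T by linarith) (m := 1)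
      (n := Nat.log 2 ⌊T⌋₊) (by rw [Real.rpow_one]; exact hflR.trans (Nat.floor_le hT0.le))
    rw [hj, Nat.cast_succ]
    linarith
  have h := countGe_le_bands (show 1 ≤ T₀ by linarith)
    (show 0 ≤ C₁ * P * L ^ 12 by positivity) (fun S hS hST => (hband σ S hS hσ.le hσ1).trans (by
      have hS2 : 1 ≤ S := by linarith
      refine mul_le_mul (mul_le_mul_of_nonneg_left (Real.rpow_le_rpow (by linarith) hST
        (by linarith)) hC₁) ?_ (pow_nonneg (Real.log_nonneg hS2) 12) (by positivity)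
      exact pow_le_pow_left₀ (Real.log_nonneg hS2) (Real.log_le_log (by linarith) hST) 12))
    j T le_rfl hjT
  refine h.trans ?_
  have h1 : 1 ≤ P * (4 ^ 13 * L ^ 13) := by
    rw [← mul_pow]
    exact one_le_mul_of_one_le_of_one_le (Real.one_le_rpow (by linarith) (by linarith))
      (one_le_pow₀ (by linarith))
  calc M + (j : ℝ) * (C₁ * P * L ^ 12) ≤ M * (P * (4 ^ 13 * L ^ 13)) +
        4 * L * (C₁ * P * L ^ 12) := by
        refine add_le_add (le_mul_of_one_le_right (Nat.cast_nonneg _) h1) ?_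
        gcongr
    _ ≤ _ := by
        have : 0 ≤ C₀ * (4 : ℝ) ^ 13 * P * L ^ 13 := by positivity
        have : 0 ≤ C₁ * P * L ^ 13 := by positivity
        linarith

end FA.Hoheisel

end
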