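import Fermat.Agent.Hoheisel.Ingham
import Fermat.Agent.Hoheisel.ShortIntervals

/-!
# Ingham's exponent for primes in short intervals

From a zero-free region wider than every multiple of `log log T / log T` and Ingham's density
theorem: the mixed difference of `ψ₁` is `p q (1 + o(1))` for steps `p, q ≥ y ^ (5/8 + ε)`. The
zeros above height `y ^ (3/8 - ε/2)` are bounded with the weight `y ^ (re ρ - 1)` too.
-/

set_option autoImplicit false

noncomputable section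

namespace FA.Hoheisel

open Finset Complex Filter
open FA.RiemannMangoldt (xiFn xiFn_zero_strip)
open FA.ExplicitFormula (zeroTerm zeroWeight zerosUpTo mem_zerosUpTo)
open FA.ZeroFree (psiOne ell)

/-- No zero up to height `T` within `A log log T / log T` of `re s = 1`, for every `A`. -/
def FreeRate : Prop :=
  ∀ A : ℝ, 0 < A → ∀ᶠ T in atTop, ∀ ρ : ℂ, xiFn ρ = 0 → |ρ.im| ≤ T →
    A * (Real.log (Real.log T) / Real.log T) ≤ 1 - ρ.re

/-- The zeros up to height `S` weighted by `y ^ (re ρ - 1)`. -/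
theorem exists_sum_weighted : ∃ C, 0 ≤ C ∧ ∀ (y S : ℝ) (Z : Finset ℂ), 1 ≤ y → 2 ≤ S →
    (∀ ρ ∈ Z, xiFn ρ = 0 ∧ |ρ.im| ≤ S) →
      ∑ ρ ∈ Z, (zeroWeight ρ : ℝ) * y ^ (ρ.re - 1) ≤
        C * (2 * Real.log S) ^ 14 * (1 + S * y ^ (-(3 / 8) : ℝ)) := by
  classical
  obtain ⟨C₀, hC₀, htriv⟩ := exists_countGe_trivial
  obtain ⟨C, hC, hdens⟩ := exists_ingham_density
  refine ⟨(C + C₀) * Real.exp (8 / 3), by positivity, fun y S Z hy hS hZ => ?_⟩
  have hy0 : 0 < y := by linarith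
  have hS0 : 0 < S := by linarith
  set L := Real.log S with hL
  have hL2 : 1 / 2 ≤ L := le_trans (by linarith [Real.log_two_gt_d9]) (Real.log_le_log two_pos hS)
  have hLy : 0 ≤ Real.log y := Real.log_nonneg hy
  set Y := S * y ^ (-(3 / 8) : ℝ) with hY
  have hY0 : 0 ≤ Y := by positivity
  rw [← Finset.sum_fiberwise_of_maps_to (t := range (⌊L⌋₊ + 1))
    (g := fun ρ : ℂ => ⌊(1 - ρ.re) * L⌋₊) fun ρ hρ => mem_range.2 (Nat.lt_succ_of_le
      (Nat.floor_mono (mul_le_of_le_one_left (by linarith)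
        (by linarith [(xiFn_zero_strip (hZ ρ hρ).1).1]))))]
  set r := Real.log y / L with hr
  have hr0 : 0 ≤ r := by positivity
  have hfib : ∀ m ∈ range (⌊L⌋₊ + 1),
      ∑ ρ ∈ Z with ⌊(1 - ρ.re) * L⌋₊ = m, (zeroWeight ρ : ℝ) * y ^ (ρ.re - 1) ≤
        (C + C₀) * Real.exp (8 / 3) * (2 * L) ^ 13 * (1 + Y) := by
    intro m _
    set D := (Z.filter fun ρ => ⌊(1 - ρ.re) * L⌋₊ = m) with hD
    have hw : ∀ ρ ∈ D, y ^ (ρ.re - 1) ≤ Real.exp (-((m : ℝ) * r)) := by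
      intro ρ hρ
      obtain ⟨hρZ, hρm⟩ := Finset.mem_filter.1 hρ
      have hv : 0 ≤ (1 - ρ.re) * L :=
        mul_nonneg (by linarith [(xiFn_zero_strip (hZ ρ hρZ).1).2]) (by linarith)
      have h1 : (m : ℝ) ≤ (1 - ρ.re) * L := hρm ▸ Nat.floor_le hv
      rw [Real.rpow_def_of_pos hy0, Real.exp_le_exp,
        show Real.log y = L * r by rw [hr, mul_div_cancel₀ _ (by linarith)]]
      linarith [mul_le_mul_of_nonneg_right h1 hr0]
    have hcnt : ∑ ρ ∈ D, (zeroWeight ρ : ℝ) ≤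
        C * Real.exp (8 / 3 * ((m : ℝ) + 1)) * (2 * L) ^ 13 ∧
        ∑ ρ ∈ D, (zeroWeight ρ : ℝ) ≤ C₀ * S * (2 * L) ^ 13 := by
      have hsub : ∑ ρ ∈ D, (zeroWeight ρ : ℝ) ≤ (countGe (1 - ((m : ℝ) + 1) / L) S : ℝ) := by
        rw [countGe, Nat.cast_sum]
        refine Finset.sum_le_sum_of_subset_of_nonneg (fun ρ hρ => ?_)
          fun ρ _ _ => Nat.cast_nonneg _
        simp only [hD, Finset.mem_filter, mem_zerosUpTo] at hρ ⊢
        refine ⟨hZ ρ hρ.1, ?_⟩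
        have h2 := Nat.lt_floor_add_one ((1 - ρ.re) * L)
        rw [hρ.2, ← lt_div_iff₀ (by linarith : 0 < L)] at h2
        linarith
      constructor
      · refine hsub.trans ((hdens _ S hS).trans ?_)
        rw [sub_sub_cancel, Real.rpow_def_of_pos hS0, ← hL,
          show L * (8 / 3 * (((m : ℝ) + 1) / L)) = 8 / 3 * ((m : ℝ) + 1) by field_simp]
        gcongr
        linarith
      · refine hsub.trans ((htriv _ S hS).trans ?_)
        rw [← hL, ← mul_assoc]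
        refine mul_le_mul_of_nonneg_left ?_ (by positivity)
        exact le_trans (show L ≤ 2 * L by linarith) (le_self_pow₀ (by linarith) (by norm_num))
    have hsum : ∑ ρ ∈ D, (zeroWeight ρ : ℝ) * y ^ (ρ.re - 1) ≤
        (∑ ρ ∈ D, (zeroWeight ρ : ℝ)) * Real.exp (-((m : ℝ) * r)) := by
      rw [Finset.sum_mul]
      exact Finset.sum_le_sum fun ρ hρ => mul_le_mul_of_nonneg_left (hw ρ hρ) (Nat.cast_nonneg _)
    refine hsum.trans ?_
    have hY' : Y = Real.exp (L - 3 / 8 * Real.log y) := by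
      rw [hY, Real.rpow_def_of_pos hy0, sub_eq_add_neg, Real.exp_add, hL, Real.exp_log hS0]
      ring_nf
    have hLr : L * r = Real.log y := by rw [hr, mul_div_cancel₀ _ (by linarith)]
    have hE : (1 : ℝ) ≤ Real.exp (8 / 3) := Real.one_le_exp (by norm_num)
    have hC1 : 0 ≤ C * Real.exp (8 / 3) * (2 * L) ^ 13 := by positivity
    have hC2 : 0 ≤ C₀ * Real.exp (8 / 3) * (2 * L) ^ 13 := by positivity
    rcases le_or_gt (m : ℝ) (3 / 8 * L) with hm | hm
    · calc _ ≤ C * Real.exp (8 / 3 * ((m : ℝ) + 1)) * (2 * L) ^ 13 *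
            Real.exp (-((m : ℝ) * r)) :=
            mul_le_mul_of_nonneg_right hcnt.1 (Real.exp_pos _).le
        _ = C * Real.exp (8 / 3) * (2 * L) ^ 13 * Real.exp ((m : ℝ) * (8 / 3 - r)) := by
            rw [show 8 / 3 * ((m : ℝ) + 1) = 8 / 3 + 8 / 3 * m by ring, Real.exp_add,
              mul_sub, sub_eq_add_neg, Real.exp_add, mul_comm (m : ℝ) (8 / 3)]
            ring
        _ ≤ C * Real.exp (8 / 3) * (2 * L) ^ 13 * (1 + Y) := by
            refine mul_le_mul_of_nonneg_left ?_ hC1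
            rcases le_or_gt (8 / 3) r with h | h
            · have : Real.exp ((m : ℝ) * (8 / 3 - r)) ≤ 1 := Real.exp_le_one_iff.2
                (mul_nonpos_of_nonneg_of_nonpos (Nat.cast_nonneg m) (by linarith))
              linarith
            · have : Real.exp ((m : ℝ) * (8 / 3 - r)) ≤ Y := by
                rw [hY', Real.exp_le_exp]
                have := mul_le_mul_of_nonneg_right hm (show 0 ≤ 8 / 3 - r by linarith)
                linarith
              linarith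
        _ ≤ _ := by linarith [mul_nonneg hC2 (show 0 ≤ 1 + Y by linarith)]
    · calc _ ≤ C₀ * S * (2 * L) ^ 13 * Real.exp (-((m : ℝ) * r)) :=
            mul_le_mul_of_nonneg_right hcnt.2 (Real.exp_pos _).le
        _ = C₀ * 1 * (2 * L) ^ 13 * Real.exp (L - (m : ℝ) * r) := by
            rw [sub_eq_add_neg, Real.exp_add, hL, Real.exp_log hS0]; ring
        _ ≤ C₀ * Real.exp (8 / 3) * (2 * L) ^ 13 * (1 + Y) := by
            gcongr
            refine le_trans ?_ (le_add_of_nonneg_left zero_le_one)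
            rw [hY', Real.exp_le_exp]
            have := mul_le_mul_of_nonneg_right hm.le hr0
            linarith
        _ ≤ _ := by linarith [mul_nonneg hC1 (show 0 ≤ 1 + Y by linarith)]
  refine (Finset.sum_le_card_nsmul _ _ _ hfib).trans ?_
  rw [card_range, nsmul_eq_mul, Nat.cast_succ]
  have hn : (⌊L⌋₊ : ℝ) + 1 ≤ 2 * L := by
    rcases lt_or_ge L 1 with h | h
    · rw [Nat.floor_eq_zero.2 h, Nat.cast_zero]; linarith
    · linarith [Nat.floor_le (show 0 ≤ L by linarith)]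
  refine (mul_le_mul_of_nonneg_right hn (by positivity)).trans (le_of_eq ?_)
  rw [pow_succ (2 * L) 13]
  ring

/-- The zeros up to height `y ^ κ`, `κ < 3/8`, are harmless. -/
theorem head_small_of_rate (H : FreeRate) {κ : ℝ} (hκ0 : 0 < κ) (hκ : κ < 3 / 8) :
    ∀ ε : ℝ, 0 < ε → ∀ᶠ y in atTop, ∀ S : Finset ℂ, (∀ ρ ∈ S, xiFn ρ = 0 ∧ |ρ.im| ≤ y ^ κ) →
      ∑ ρ ∈ S, (zeroWeight ρ : ℝ) * y ^ (ρ.re - 1) ≤ ε := by
  classical
  obtain ⟨C, hC, hdens⟩ := exists_ingham_density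
  intro ε hε
  set μ := 1 - 8 / 3 * κ with hμ
  have hμ0 : 0 < μ := by rw [hμ]; linarith
  filter_upwards [(tendsto_rpow_atTop hκ0).eventually (H (15 * κ / μ) (by positivity)),
    (tendsto_rpow_atTop hκ0).eventually_ge_atTop 2,
    (Real.tendsto_log_atTop.comp (tendsto_rpow_atTop hκ0)).eventually_ge_atTop
      (max 1 (2 * C * Real.exp (8 / 3) / ε)), eventually_gt_atTop (1 : ℝ)]
    with y hfree hT hL hy S hS
  simp only [Function.comp_apply] at hL
  set T := y ^ κ with hTdef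
  set L := Real.log T with hLdef
  have hL1 : 1 ≤ L := (le_max_left _ _).trans hL
  have hy0 : 0 < y := by linarith
  have hlogy : Real.log y = L / κ := by
    rw [hLdef, hTdef, Real.log_rpow hy0, mul_div_cancel_left₀ _ hκ0.ne']
  have hterm : ∀ ρ ∈ S, y ^ (ρ.re - 1) ≤
      1 / L ^ 15 * Real.exp (-(8 / 3 * (⌊(1 - ρ.re) * L⌋₊ : ℝ))) := by
    intro ρ hρ
    obtain ⟨hz, hi⟩ := hS ρ hρ
    set v := 1 - ρ.re with hv
    obtain ⟨-, hv1⟩ := xiFn_zero_strip hz
    have hfl : (⌊v * L⌋₊ : ℝ) ≤ v * L :=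
      Nat.floor_le (mul_nonneg (by linarith) (by linarith))
    have hLpow : 1 / L ^ 15 = Real.exp (-(15 * Real.log L)) := by
      rw [Real.exp_neg, show (15 : ℝ) * Real.log L = ((15 : ℕ) : ℝ) * Real.log L by norm_num,
        Real.exp_nat_mul, Real.exp_log (by linarith), one_div]
    have h1 : 15 * κ * Real.log L ≤ μ * (v * L) := by
      have h := hfree ρ hz hi
      calc 15 * κ * Real.log L = μ * (15 * κ / μ * (Real.log L / L) * L) := by field_simp
        _ ≤ μ * (v * L) :=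
          mul_le_mul_of_nonneg_left (mul_le_mul_of_nonneg_right h (by linarith)) hμ0.le
    rw [Real.rpow_def_of_pos hy0, hlogy, hLpow, ← Real.exp_add, Real.exp_le_exp,
      show ρ.re - 1 = -v by rw [hv]; ring, div_mul_eq_mul_div, div_le_iff₀ hκ0]
    have h2 := mul_le_mul_of_nonneg_left hfl (show 0 ≤ 8 / 3 * κ by positivity)
    rw [hμ] at h1
    linarith
  rw [← Finset.sum_fiberwise_of_maps_to (t := range (⌊L⌋₊ + 1))
    (g := fun ρ : ℂ => ⌊(1 - ρ.re) * L⌋₊) fun ρ hρ => mem_range.2 (Nat.lt_succ_of_le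
      (Nat.floor_mono (mul_le_of_le_one_left (by linarith)
        (by linarith [(xiFn_zero_strip (hS ρ hρ).1).1]))))]
  have hfib : ∀ m ∈ range (⌊L⌋₊ + 1),
      ∑ ρ ∈ S with ⌊(1 - ρ.re) * L⌋₊ = m, (zeroWeight ρ : ℝ) * y ^ (ρ.re - 1) ≤
        C * Real.exp (8 / 3) / L ^ 2 := by
    intro m _
    refine (Finset.sum_le_sum fun ρ hρ => mul_le_mul_of_nonneg_left
      (hterm ρ (Finset.mem_filter.1 hρ).1) (Nat.cast_nonneg _)).trans ?_
    rw [Finset.sum_congr rfl fun ρ hρ => by rw [(Finset.mem_filter.1 hρ).2], ← Finset.sum_mul]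
    have hsub : ∑ ρ ∈ S with ⌊(1 - ρ.re) * L⌋₊ = m, (zeroWeight ρ : ℝ) ≤
        C * Real.exp (8 / 3 * ((m : ℝ) + 1)) * L ^ 13 := by
      have h1 := hdens (1 - ((m : ℝ) + 1) / L) T hT
      rw [sub_sub_cancel, Real.rpow_def_of_pos (by linarith), ← hLdef,
        show L * (8 / 3 * (((m : ℝ) + 1) / L)) = 8 / 3 * ((m : ℝ) + 1) by field_simp] at h1
      refine le_trans ?_ h1
      rw [countGe, Nat.cast_sum]
      refine Finset.sum_le_sum_of_subset_of_nonneg (fun ρ hρ => ?_)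
        fun ρ _ _ => Nat.cast_nonneg _
      simp only [Finset.mem_filter, mem_zerosUpTo] at hρ ⊢
      refine ⟨hS ρ hρ.1, ?_⟩
      have h2 := Nat.lt_floor_add_one ((1 - ρ.re) * L)
      rw [hρ.2, ← lt_div_iff₀ (by linarith : 0 < L)] at h2
      linarith
    refine (mul_le_mul_of_nonneg_right hsub (by positivity)).trans (le_of_eq ?_)
    rw [mul_add, mul_one, Real.exp_add, Real.exp_neg]
    field_simp
  refine (Finset.sum_le_card_nsmul _ _ _ hfib).trans ?_
  rw [card_range, nsmul_eq_mul, Nat.cast_succ]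
  have hfl : (⌊L⌋₊ : ℝ) ≤ L := Nat.floor_le (by linarith)
  have hbig := (le_max_right _ _).trans hL
  rw [div_le_iff₀ hε] at hbig
  calc ((⌊L⌋₊ : ℝ) + 1) * (C * Real.exp (8 / 3) / L ^ 2)
      ≤ 2 * L * (C * Real.exp (8 / 3) / L ^ 2) := by gcongr; linarith
    _ = 2 * C * Real.exp (8 / 3) / L := by field_simp
    _ ≤ ε := by rw [div_le_iff₀ (by linarith)]; linarith

/-- The zeros above height `T ≤ y ^ (3/8)`, with the weight `y ^ (re ρ - 1) / (1 + |γ|)²`. -/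
theorem exists_tail_weighted : ∃ K, 0 ≤ K ∧ ∀ (y T : ℝ) (Z : Finset ℂ), 1 ≤ y → 3 ≤ T →
    T ≤ y ^ (3 / 8 : ℝ) → (∀ ρ ∈ Z, xiFn ρ = 0 ∧ T < |ρ.im|) →
      ∑ ρ ∈ Z, (zeroWeight ρ : ℝ) * y ^ (ρ.re - 1) * (1 / (1 + |ρ.im|) ^ 2) ≤
        K * (Real.log T ^ 14 / T ^ 2) := by
  classical
  obtain ⟨C, hC, hG⟩ := exists_sum_weighted
  set f : ℕ → ℝ := fun u => ((u : ℝ) + 2) ^ 14 * (1 / 2) ^ u with hf
  have hfs : Summable f := by
    have h := (summable_pow_mul_geometric_of_norm_lt_one (R := ℝ) 14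
      (show ‖(1 / 2 : ℝ)‖ < 1 by norm_num)).comp_injective (add_left_injective 2)
    refine (h.mul_left 4).congr fun u => ?_
    simp only [hf, Function.comp_apply, pow_add]
    push_cast
    ring
  refine ⟨4 * 2 ^ 14 * C * ∑' u, f u,
    mul_nonneg (by positivity) (tsum_nonneg fun u => by positivity),
    fun y T Z hy hT hTy hZ => ?_⟩
  have hy0 : 0 < y := by linarith
  have hT0 : 0 < T := by linarith
  set L := Real.log T with hLdef
  have hL1 : 1 ≤ L := by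
    rw [hLdef, Real.le_log_iff_exp_le hT0]
    linarith [Real.exp_one_lt_d9]
  set g : ℂ → ℕ := fun ρ => Nat.log 2 ⌊|ρ.im| / T⌋₊ with hg
  have hbds : ∀ ρ ∈ Z, (2 : ℝ) ^ g ρ * T ≤ |ρ.im| ∧ |ρ.im| ≤ (2 : ℝ) ^ (g ρ + 1) * T := by
    intro ρ hρ
    have h1 : 1 ≤ |ρ.im| / T := (one_le_div hT0).2 (hZ ρ hρ).2.le
    have h2 : 2 ^ g ρ ≤ ⌊|ρ.im| / T⌋₊ := Nat.pow_log_le_self 2 (Nat.floor_pos.2 h1).ne'
    have h2' : (2 : ℝ) ^ g ρ ≤ (⌊|ρ.im| / T⌋₊ : ℝ) := by exact_mod_cast h2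
    have h3 : ⌊|ρ.im| / T⌋₊ + 1 ≤ 2 ^ (g ρ + 1) := Nat.lt_pow_succ_log_self one_lt_two _
    have h3' : (⌊|ρ.im| / T⌋₊ : ℝ) + 1 ≤ (2 : ℝ) ^ (g ρ + 1) := by exact_mod_cast h3
    constructor
    · rw [← le_div_iff₀ hT0]
      exact h2'.trans (Nat.floor_le (by linarith))
    · rw [← div_le_iff₀ hT0]
      linarith [Nat.lt_floor_add_one (|ρ.im| / T)]
  rw [← Finset.sum_fiberwise_of_maps_to (g := g) (t := Z.image g)
    fun ρ hρ => Finset.mem_image_of_mem g hρ]
  have hfib : ∀ u ∈ Z.image g, ∑ ρ ∈ Z with g ρ = u,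
      (zeroWeight ρ : ℝ) * y ^ (ρ.re - 1) * (1 / (1 + |ρ.im|) ^ 2) ≤
        4 * 2 ^ 14 * C * (L ^ 14 / T ^ 2) * f u := by
    intro u _
    have hu0 : (0 : ℝ) < 2 ^ u := by positivity
    refine (Finset.sum_le_sum (g := fun ρ => (zeroWeight ρ : ℝ) * y ^ (ρ.re - 1) *
      (1 / ((2 : ℝ) ^ u * T) ^ 2)) fun ρ hρ => ?_).trans ?_
    · obtain ⟨hρZ, hρu⟩ := Finset.mem_filter.1 hρ
      refine mul_le_mul_of_nonneg_left (one_div_le_one_div_of_le (by positivity) ?_)
        (by positivity)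
      refine pow_le_pow_left₀ (by positivity) ?_ 2
      rw [← hρu]
      linarith [(hbds ρ hρZ).1]
    rw [← Finset.sum_mul]
    have hS2 : 2 ≤ (2 : ℝ) ^ (u + 1) * T := by
      have : (1 : ℝ) ≤ 2 ^ (u + 1) := one_le_pow₀ one_le_two
      nlinarith
    have h := hG y ((2 : ℝ) ^ (u + 1) * T) (Z.filter fun ρ => g ρ = u) hy hS2 fun ρ hρ => by
      obtain ⟨hρZ, hρu⟩ := Finset.mem_filter.1 hρ
      exact ⟨(hZ ρ hρZ).1, hρu ▸ (hbds ρ hρZ).2⟩
    refine (mul_le_mul_of_nonneg_right h (by positivity)).trans ?_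
    have hlog : Real.log ((2 : ℝ) ^ (u + 1) * T) ≤ ((u : ℝ) + 2) * L := by
      rw [Real.log_mul (by positivity) hT0.ne', Real.log_pow, ← hLdef]
      push_cast
      have h1 : Real.log 2 ≤ L := by
        linarith [Real.log_le_sub_one_of_pos (show (0 : ℝ) < 2 by norm_num)]
      have := mul_le_mul_of_nonneg_left h1 (show (0 : ℝ) ≤ (u : ℝ) + 1 by positivity)
      linarith
    have hY : 1 + (2 : ℝ) ^ (u + 1) * T * y ^ (-(3 / 8) : ℝ) ≤ 4 * 2 ^ u := by
      have h1 : T * y ^ (-(3 / 8) : ℝ) ≤ 1 := by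
        rw [Real.rpow_neg hy0.le, mul_inv_le_iff₀ (Real.rpow_pos_of_pos hy0 _), one_mul]
        exact hTy
      have h2 := mul_le_mul_of_nonneg_left h1 (show (0 : ℝ) ≤ 2 ^ (u + 1) by positivity)
      rw [pow_succ] at h2 ⊢
      linarith [one_le_pow₀ (M₀ := ℝ) one_le_two (n := u)]
    calc C * (2 * Real.log ((2 : ℝ) ^ (u + 1) * T)) ^ 14 *
          (1 + (2 : ℝ) ^ (u + 1) * T * y ^ (-(3 / 8) : ℝ)) * (1 / ((2 : ℝ) ^ u * T) ^ 2)
        ≤ C * (2 * (((u : ℝ) + 2) * L)) ^ 14 * (4 * 2 ^ u) * (1 / ((2 : ℝ) ^ u * T) ^ 2) := by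
          have hl0 : 0 ≤ Real.log ((2 : ℝ) ^ (u + 1) * T) := Real.log_nonneg (by linarith)
          gcongr
      _ = _ := by
          simp only [hf, one_div_pow]
          field_simp
  refine (Finset.sum_le_sum hfib).trans ?_
  rw [← Finset.mul_sum]
  refine (mul_le_mul_of_nonneg_left (hfs.sum_le_tsum _ fun u _ => by positivity)
    (by positivity)).trans (le_of_eq ?_)
  ring

/-- The mixed difference with steps `≥ y ^ (5/8 + ε)`. -/
theorem mixed_of_rate (H : FreeRate) {ε₀ : ℝ} (hε₀ : 0 < ε₀) (hε₁ : ε₀ ≤ 1 / 8) :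
    ∀ ε : ℝ, 0 < ε → ∀ᶠ y in atTop, ∀ p q : ℝ, y ^ (5 / 8 + ε₀) ≤ p → y ^ (5 / 8 + ε₀) ≤ q →
      p ≤ 2 * y → q ≤ 2 * y →
      |psiOne (y + q + p) - psiOne (y + q) - (psiOne (y + p) - psiOne y) - p * q| ≤
        ε * (p * q) := by
  classical
  obtain ⟨c₁, hc₁, hinv⟩ := ExplicitFormula.exists_inv_im_le
  obtain ⟨K₀, hK₀, htail⟩ := exists_tail_weighted
  obtain ⟨C, hC, hex⟩ := ExplicitFormula.exists_explicit
  obtain ⟨d, hd⟩ : ∃ d, d = deriv riemannZeta 0 / riemannZeta 0 := ⟨_, rfl⟩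
  simp only [← hd] at hex
  intro ε hε
  obtain ⟨κ, hκdef⟩ : ∃ κ, κ = 3 / 8 - ε₀ / 2 := ⟨_, rfl⟩
  obtain ⟨θ, hθ⟩ : ∃ θ, θ = 5 / 8 + ε₀ := ⟨_, rfl⟩
  rw [← hθ]
  have hκ0 : 0 < κ := by rw [hκdef]; linarith
  have hκ38 : κ < 3 / 8 := by rw [hκdef]; linarith
  have hε3 : 0 < ε / 3 := by positivity
  set K := 100 * c₁ ^ 2 * K₀ with hK
  have hK0 : 0 ≤ K := by positivity
  filter_upwards [head_small_of_rate H hκ0 hκ38 (ε / 3) hε3,
    (((isLittleO_log_rpow_atTop (show 0 < ε₀ / 14 by positivity)).pow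
      (show 0 < 14 by norm_num))).def (show 0 < ε / (3 * (K + 1)) by positivity),
    (tendsto_rpow_atTop hκ0).eventually_ge_atTop 3,
    (tendsto_rpow_atTop (show (0 : ℝ) < 3 / 4 by norm_num)).eventually_ge_atTop (36 * C / ε),
    eventually_ge_atTop (2 : ℝ)] with y hhd hlog hT hy34 hy2 p q hp hq hp2 hq2
  have hy0 : 0 < y := by linarith
  have hy1 : 1 ≤ y := by linarith
  have hyθ : 0 < y ^ θ := Real.rpow_pos_of_pos hy0 _
  have hp0 : 0 < p := hyθ.trans_le hp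
  have hq0 : 0 < q := hyθ.trans_le hq
  set T := y ^ κ with hTdef
  have hpq : y ^ (2 * θ) ≤ p * q := by
    rw [two_mul, Real.rpow_add hy0]
    exact mul_le_mul hp hq hyθ.le hp0.le
  -- the sum over the zeros
  have s1 := (ExplicitFormula.summable_norm_zeroTerm (show 0 < y + q + p by linarith)).of_norm
  have s2 := (ExplicitFormula.summable_norm_zeroTerm (show 0 < y + q by linarith)).of_norm
  have s3 := (ExplicitFormula.summable_norm_zeroTerm (show 0 < y + p by linarith)).of_norm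
  have s4 := (ExplicitFormula.summable_norm_zeroTerm hy0).of_norm
  obtain ⟨Z, hZ⟩ : ∃ Z : ℂ → ℂ, Z = fun ρ => zeroTerm (y + q + p) ρ - zeroTerm (y + q) ρ -
      (zeroTerm (y + p) ρ - zeroTerm y ρ) := ⟨_, rfl⟩
  have hZs : Summable Z := hZ ▸ (s1.sub s2).sub (s3.sub s4)
  have hsum : ‖∑' ρ, Z ρ‖ ≤ 2 * (ε / 3) * (p * q) := by
    refine (norm_tsum_le_tsum_norm hZs.norm).trans
      (Real.tsum_le_of_sum_le (fun ρ => norm_nonneg _) fun S => ?_)
    rw [← Finset.sum_filter_of_ne (p := fun ρ => xiFn ρ = 0) fun ρ _ hne => ?_,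
      ← Finset.sum_filter_add_sum_filter_not (S.filter fun ρ => xiFn ρ = 0) fun ρ => |ρ.im| ≤ T,
      two_mul, add_mul]
    swap
    · by_contra h
      exact hne (by simp [hZ, ExplicitFormula.zeroTerm_eq_zero _ h])
    have hZeq : ∀ ρ, ‖Z ρ‖ = zeroWeight ρ *
        ‖(((y + q + p : ℝ) : ℂ) ^ (ρ + 1) - ((y + q : ℝ) : ℂ) ^ (ρ + 1) -
          (((y + p : ℝ) : ℂ) ^ (ρ + 1) - (y : ℂ) ^ (ρ + 1))) / (ρ * (ρ + 1))‖ := fun ρ => by
      simp only [hZ, zeroTerm]
      rw [← Complex.norm_natCast, ← norm_mul]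
      congr 1
      ring
    refine add_le_add ((Finset.sum_le_sum (g := fun ρ =>
      p * q * ((zeroWeight ρ : ℝ) * y ^ (ρ.re - 1))) fun ρ hρ => ?_).trans ?_)
      ((Finset.sum_le_sum (g := fun ρ => 100 * y ^ 2 * c₁ ^ 2 *
        ((zeroWeight ρ : ℝ) * y ^ (ρ.re - 1) * (1 / (1 + |ρ.im|) ^ 2)))
          fun ρ hρ => ?_).trans ?_)
    · simp only [Finset.mem_filter] at hρ
      obtain ⟨h0, h1⟩ := xiFn_zero_strip hρ.1.2
      rw [hZeq]
      exact (mul_le_mul_of_nonneg_left (norm_mixed_le h0 h1 hy0 hp0.le hq0.le)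
        (Nat.cast_nonneg _)).trans (le_of_eq (by ring))
    · rw [← Finset.mul_sum, mul_comm (ε / 3)]
      refine mul_le_mul_of_nonneg_left (hhd _ fun ρ hρ => ?_) (by positivity)
      simp only [Finset.mem_filter] at hρ
      exact ⟨hρ.1.2, hρ.2⟩
    · simp only [Finset.mem_filter, not_le] at hρ
      have hρ0 := hρ.1.2
      obtain ⟨h0, h1⟩ := xiFn_zero_strip hρ0
      have e : ∀ t : ℝ, 0 < t → t ≤ 5 * y →
          ‖(t : ℂ) ^ (ρ + 1)‖ ≤ 25 * y ^ 2 * y ^ (ρ.re - 1) := by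
        intro t ht ht2
        rw [norm_cpow_eq_rpow_re_of_pos ht, add_re, one_re]
        refine (Real.rpow_le_rpow ht.le ht2 (by linarith)).trans ?_
        rw [Real.mul_rpow (by norm_num) hy0.le, mul_assoc, ← Real.rpow_natCast y 2,
          ← Real.rpow_add hy0]
        push_cast
        rw [show (2 : ℝ) + (ρ.re - 1) = ρ.re + 1 by ring]
        refine mul_le_mul_of_nonneg_right ?_ (Real.rpow_nonneg hy0.le _)
        refine (Real.rpow_le_rpow_of_exponent_le (by norm_num)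
          (show ρ.re + 1 ≤ ((2 : ℕ) : ℝ) by push_cast; linarith)).trans (le_of_eq ?_)
        rw [Real.rpow_natCast]
        norm_num
      have hden : 1 / ‖ρ * (ρ + 1)‖ ≤ c₁ ^ 2 * (1 / (1 + |ρ.im|) ^ 2) := by
        refine (one_div_le_one_div_of_le ?_ (ExplicitFormula.norm_mul_add_one_ge hρ0)).trans ?_
        · exact sq_pos_of_ne_zero (ExplicitFormula.im_ne_zero_of_zero hρ0)
        · rw [← sq_abs, ← one_div_pow, ← one_div_pow, ← mul_pow]
          exact pow_le_pow_left₀ (by positivity) (hinv ρ hρ0) 2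
      rw [hZeq, norm_div, div_eq_mul_one_div]
      calc (zeroWeight ρ : ℝ) *
            (‖((y + q + p : ℝ) : ℂ) ^ (ρ + 1) - ((y + q : ℝ) : ℂ) ^ (ρ + 1) -
              (((y + p : ℝ) : ℂ) ^ (ρ + 1) - (y : ℂ) ^ (ρ + 1))‖ * (1 / ‖ρ * (ρ + 1)‖))
          ≤ zeroWeight ρ * (100 * y ^ 2 * y ^ (ρ.re - 1) *
              (c₁ ^ 2 * (1 / (1 + |ρ.im|) ^ 2))) := by
            gcongr
            refine (norm_sub_le _ _).trans ?_
            linarith [norm_sub_le (((y + q + p : ℝ) : ℂ) ^ (ρ + 1)) (((y + q : ℝ) : ℂ) ^ (ρ + 1)),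
              norm_sub_le (((y + p : ℝ) : ℂ) ^ (ρ + 1)) ((y : ℂ) ^ (ρ + 1)),
              e (y + q + p) (by linarith) (by linarith), e (y + q) (by linarith) (by linarith),
              e (y + p) (by linarith) (by linarith), e y hy0 (by linarith)]
        _ = _ := by ring
    · rw [← Finset.mul_sum]
      refine (mul_le_mul_of_nonneg_left (htail y T _ hy1 hT
        (Real.rpow_le_rpow_of_exponent_le hy1 hκ38.le) fun ρ hρ => ?_) (by positivity)).trans ?_
      · simp only [Finset.mem_filter, not_le] at hρ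
        exact ⟨hρ.1.2, hρ.2⟩
      have hly : 0 ≤ Real.log y := Real.log_nonneg hy1
      have hlT : Real.log T ≤ Real.log y := by
        rw [hTdef, Real.log_rpow hy0]
        exact mul_le_of_le_one_left hly (by linarith)
      rw [Real.norm_of_nonneg (pow_nonneg hly 14), Real.norm_of_nonneg (pow_nonneg
        (Real.rpow_nonneg hy0.le _) 14), ← Real.rpow_mul_natCast hy0.le, Nat.cast_ofNat,
        div_mul_cancel₀ _ (by norm_num : (14 : ℝ) ≠ 0)] at hlog
      have hKlog : K * Real.log y ^ 14 ≤ ε / 3 * y ^ ε₀ := by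
        calc K * Real.log y ^ 14 ≤ (K + 1) * (ε / (3 * (K + 1)) * y ^ ε₀) :=
              mul_le_mul (by linarith) hlog (pow_nonneg hly 14) (by linarith)
          _ = _ := by field_simp
      calc 100 * y ^ 2 * c₁ ^ 2 * (K₀ * (Real.log T ^ 14 / T ^ 2))
          = K * Real.log T ^ 14 * (y ^ 2 / T ^ 2) := by rw [hK]; ring
        _ ≤ K * Real.log y ^ 14 * (y ^ 2 / T ^ 2) := by
            have : 0 ≤ Real.log T := Real.log_nonneg (by linarith)
            gcongr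
        _ ≤ ε / 3 * y ^ ε₀ * (y ^ 2 / T ^ 2) := by gcongr
        _ = ε / 3 * y ^ (2 * θ) := by
            rw [mul_assoc, hTdef, ← Real.rpow_mul_natCast hy0.le, ← Real.rpow_natCast y 2,
              ← Real.rpow_sub hy0, ← Real.rpow_add hy0, hθ, hκdef]
            push_cast
            ring_nf
        _ ≤ ε / 3 * (p * q) := by gcongr
  -- the error of the explicit formula
  have herr : ∀ t, 0 < t → t ≤ 5 * y → C * √t ≤ 3 * C * √y := fun t ht ht2 => by
    rw [mul_comm (3 : ℝ), mul_assoc]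
    refine mul_le_mul_of_nonneg_left ?_ hC
    rw [Real.sqrt_le_left (by positivity), mul_pow, Real.sq_sqrt hy0.le]
    linarith
  have hsqrt : 12 * C * √y ≤ ε / 3 * (p * q) := by
    refine le_trans ?_ (mul_le_mul_of_nonneg_left hpq hε3.le)
    have h1 : √y * y ^ (3 / 4 : ℝ) ≤ y ^ (2 * θ) := by
      rw [Real.sqrt_eq_rpow, ← Real.rpow_add hy0]
      exact Real.rpow_le_rpow_of_exponent_le hy1 (by rw [hθ]; linarith)
    rw [div_le_iff₀ hε] at hy34
    calc 12 * C * √y ≤ y ^ (3 / 4 : ℝ) * ε / 3 * √y := by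
          refine mul_le_mul_of_nonneg_right ?_ (Real.sqrt_nonneg y)
          linarith
      _ = ε / 3 * (√y * y ^ (3 / 4 : ℝ)) := by ring
      _ ≤ _ := mul_le_mul_of_nonneg_left h1 hε3.le
  obtain ⟨E, hE⟩ : ∃ E : ℝ → ℂ, E = fun t : ℝ => (psiOne t : ℂ) - ((t : ℂ) ^ 2 / 2 -
      ∑' ρ, zeroTerm t ρ - (t : ℂ) * d) := ⟨_, rfl⟩
  have hEb : ∀ t, 0 < t → t ≤ 5 * y → ‖E t‖ ≤ 3 * C * √y := fun t ht ht2 => by
    rw [hE]
    exact (hex t ht).trans (herr t ht ht2)
  have e : ((psiOne (y + q + p) - psiOne (y + q) - (psiOne (y + p) - psiOne y) - p * q : ℝ) : ℂ) =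
      E (y + q + p) - E (y + q) - (E (y + p) - E y) - ∑' ρ, Z ρ := by
    rw [hZ, Summable.tsum_sub (s1.sub s2) (s3.sub s4), Summable.tsum_sub s1 s2,
      Summable.tsum_sub s3 s4, hE]
    push_cast
    ring
  rw [← Real.norm_eq_abs, ← Complex.norm_real, e]
  refine (norm_sub_le _ _).trans ((add_le_add ((norm_sub_le _ _).trans
    (add_le_add (norm_sub_le _ _) (norm_sub_le _ _))) hsum).trans ?_)
  linarith [hEb (y + q + p) (by linarith) (by linarith), hEb (y + q) (by linarith) (by linarith),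
    hEb (y + p) (by linarith) (by linarith), hEb y hy0 (by linarith)]

/-- **`θ (x + h) - θ x ∼ h` and `π (x + h) - π x ∼ h / log x` for `h ≥ x ^ θ`, `θ > 5/8`.** -/
theorem ingham_short_of_rate (H : FreeRate) {θ : ℝ} (hθ : 5 / 8 < θ) :
    ∀ ε : ℝ, 0 < ε → ∀ᶠ x in atTop, ∀ h : ℝ, x ^ θ ≤ h → h ≤ x →
      |Chebyshev.theta (x + h) - Chebyshev.theta x - h| ≤ ε * h ∧
        |((Nat.primeCounting ⌊x + h⌋₊ : ℝ) - Nat.primeCounting ⌊x⌋₊) * Real.log x - h| ≤
          ε * h := by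
  have hmin : 0 < min ((θ - 5 / 8) / 2) (1 / 8) := lt_min (by linarith) (by norm_num)
  have h1 : min ((θ - 5 / 8) / 2) (1 / 8) ≤ (θ - 5 / 8) / 2 := min_le_left _ _
  exact primeCount_short_of_psi (by linarith) (psi_short_of_mixed (by linarith) (by linarith)
    (mixed_of_rate H hmin (min_le_right _ _)))

end FA.Hoheisel

end
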