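import Fermat.Agent.Hoheisel.DPoly
import Fermat.Agent.ThreePrimes.Vaughan
import Fermat.Agent.Subconvexity.ThirdDerivative
import Fermat.Agent.ZeroFreeRegion.Bounds

/-!
# A zero-density theorem for `ζ`

The zeros with `re ρ ≥ σ` and `|im ρ| ≤ T` number `O (T ^ (6 (1 - σ)) log ^ 11 T)`: the truncated
series times the mollifier `∑_{n ≤ T} μ n n ^ (-s)` is small at a zero, so one of `O (log T)`
dyadic blocks of the product is large there.
-/

set_option autoImplicit false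

noncomputable section

open Complex Finset MeasureTheory FA.ZeroFree FA.RiemannMangoldt FA.ExplicitFormula
open ArithmeticFunction
open scoped Real ArithmeticFunction.Moebius

namespace FA.Hoheisel

/-- The pairs `(d, m)` with `d ≤ X`, `m ≤ N` and `d m = n`. -/
def molPairs (X N n : ℕ) : Finset (ℕ × ℕ) :=
  ((Icc 1 X) ×ˢ (Icc 1 N)).filter fun p => p.1 * p.2 = n

/-- The coefficients of the mollified series. -/
def molCoeff (X N n : ℕ) : ℂ := ∑ p ∈ molPairs X N n, ((μ p.1 : ℤ) : ℂ)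

theorem norm_molCoeff_le (X N n : ℕ) : ‖molCoeff X N n‖ ≤ n.divisors.card := by
  refine (norm_sum_le _ _).trans ?_
  calc ∑ p ∈ molPairs X N n, ‖((μ p.1 : ℤ) : ℂ)‖ ≤ ∑ _p ∈ molPairs X N n, (1 : ℝ) := by
        refine Finset.sum_le_sum fun p _ => ?_
        rw [Complex.norm_intCast, ← Int.cast_abs, ← Int.cast_one, Int.cast_le]
        exact abs_moebius_le_one
    _ = ((molPairs X N n).card : ℝ) := by simp
    _ ≤ _ := by
        refine Nat.cast_le.2 (Finset.card_le_card_of_injOn Prod.fst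
          (fun p hp => ?_) fun p hp q hq h => ?_)
        · obtain ⟨hp, he⟩ := Finset.mem_filter.1 hp
          rw [Finset.mem_product, Finset.mem_Icc, Finset.mem_Icc] at hp
          refine Finset.mem_coe.2 (Nat.mem_divisors.2 ⟨⟨p.2, he.symm⟩, ?_⟩)
          rw [← he]
          exact Nat.mul_ne_zero (by omega) (by omega)
        · obtain ⟨hp, he⟩ := Finset.mem_filter.1 (Finset.mem_coe.1 hp)
          obtain ⟨hq, he'⟩ := Finset.mem_filter.1 (Finset.mem_coe.1 hq)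
          rw [Finset.mem_product, Finset.mem_Icc, Finset.mem_Icc] at hp
          refine Prod.ext h (Nat.eq_of_mul_eq_mul_left (n := p.1) (by omega) ?_)
          rw [he, h, he']

theorem molCoeff_eq_zero_of_gt {X N n : ℕ} (h : X * N < n) : molCoeff X N n = 0 := by
  rw [molCoeff, Finset.sum_eq_zero]
  intro p hp
  obtain ⟨hp, he⟩ := Finset.mem_filter.1 hp
  rw [Finset.mem_product, Finset.mem_Icc, Finset.mem_Icc] at hp
  exact absurd (Nat.mul_le_mul hp.1.2 hp.2.2) (by omega)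

theorem molCoeff_low {X N n : ℕ} (hn : 1 ≤ n) (hX : n ≤ X) (hN : n ≤ N) :
    molCoeff X N n = if n = 1 then 1 else 0 := by
  have hset : molPairs X N n = n.divisorsAntidiagonal := by
    ext p
    simp only [molPairs, Finset.mem_filter, Finset.mem_product, Finset.mem_Icc,
      Nat.mem_divisorsAntidiagonal]
    refine ⟨fun h => ⟨h.2, by omega⟩, fun h => ⟨?_, h.1⟩⟩
    have h1 : p.1 ≠ 0 := fun h0 => by rw [h0, zero_mul] at h; omega
    have h2 : p.2 ≠ 0 := fun h0 => by rw [h0, mul_zero] at h; omega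
    have h3 := Nat.le_of_dvd (by omega : 0 < n) (⟨p.2, h.1.symm⟩ : p.1 ∣ n)
    have h4 := Nat.le_of_dvd (by omega : 0 < n) (Dvd.intro_left p.1 h.1 : p.2 ∣ n)
    omega
  have h := congrArg (fun f : ArithmeticFunction ℤ => f n) moebius_mul_coe_zeta
  simp only [mul_apply, natCoe_apply, one_apply] at h
  rw [molCoeff, hset, ← Int.cast_sum,
    show (∑ p ∈ n.divisorsAntidiagonal, μ p.1) = ∑ p ∈ n.divisorsAntidiagonal,
        μ p.1 * ((ArithmeticFunction.zeta p.2 : ℕ) : ℤ) from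
      Finset.sum_congr rfl fun p hp => by
        obtain ⟨he, h0⟩ := Nat.mem_divisorsAntidiagonal.1 hp
        rw [zeta_apply_ne fun h2 => h0 (by rw [← he, h2, mul_zero]), Nat.cast_one, mul_one], h]
  split_ifs <;> simp

theorem natCast_mul_cpow (m n : ℕ) (s : ℂ) :
    ((m * n : ℕ) : ℂ) ^ s = (m : ℂ) ^ s * (n : ℂ) ^ s := by
  rw [Nat.cast_mul, ← Complex.ofReal_natCast m, ← Complex.ofReal_natCast n,
    mul_cpow_ofReal_nonneg (Nat.cast_nonneg m) (Nat.cast_nonneg n)]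

theorem mollified_eq (X N : ℕ) (hX : 1 ≤ X) (hXN : X ≤ N) (s : ℂ) :
    (∑ d ∈ Icc 1 X, ((μ d : ℤ) : ℂ) * (1 / (d : ℂ) ^ s)) * ∑ m ∈ Icc 1 N, 1 / (m : ℂ) ^ s =
      1 + ∑ n ∈ Ioc X (X * N), molCoeff X N n * (1 / (n : ℂ) ^ s) := by
  have hXN' : X ≤ X * N := Nat.le_mul_of_pos_right X (by omega)
  have h1 : (∑ d ∈ Icc 1 X, ((μ d : ℤ) : ℂ) * (1 / (d : ℂ) ^ s)) * ∑ m ∈ Icc 1 N, 1 / (m : ℂ) ^ s =
      ∑ n ∈ Icc 1 (X * N), molCoeff X N n * (1 / (n : ℂ) ^ s) := by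
    rw [Finset.sum_mul_sum, ← Finset.sum_product']
    rw [← Finset.sum_fiberwise_of_maps_to (g := fun p : ℕ × ℕ => p.1 * p.2) (t := Icc 1 (X * N))]
    · refine Finset.sum_congr rfl fun n _ => ?_
      rw [molCoeff, Finset.sum_mul]
      refine Finset.sum_congr rfl fun p hp => ?_
      rw [← (Finset.mem_filter.1 hp).2, natCast_mul_cpow]
      simp only [one_div, mul_inv]
      ring
    · intro p hp
      rw [Finset.mem_product, Finset.mem_Icc, Finset.mem_Icc] at hp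
      exact Finset.mem_Icc.2 ⟨Nat.one_le_iff_ne_zero.2 (Nat.mul_ne_zero (by omega) (by omega)),
        Nat.mul_le_mul hp.1.2 hp.2.2⟩
  rw [h1, show Icc 1 (X * N) = Icc 1 X ∪ Ioc X (X * N) by
      ext k; simp only [Finset.mem_union, Finset.mem_Icc, Finset.mem_Ioc]; omega,
    Finset.sum_union (Finset.disjoint_left.2 fun k hk hk' => by
      rw [Finset.mem_Icc] at hk; rw [Finset.mem_Ioc] at hk'; omega)]
  congr 1
  rw [Finset.sum_eq_single 1]
  · rw [molCoeff_low le_rfl hX (by omega)]; simp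
  · intro n hn hne
    rw [Finset.mem_Icc] at hn
    rw [molCoeff_low hn.1 hn.2 (hn.2.trans hXN), if_neg hne, zero_mul]
  · intro h; exact absurd (Finset.mem_Icc.2 ⟨le_rfl, hX⟩) h

/-- A piece of a Dirichlet series at a point. -/
def piece (U : ℕ) (a : ℕ → ℂ) (u t : ℝ) : ℂ :=
  dpoly (Ioc U (2 * U)) (fun n => a n * (n : ℂ) ^ (-(u : ℂ))) t

theorem piece_eq (U : ℕ) (a : ℕ → ℂ) (s : ℂ) :
    piece U a s.re s.im = ∑ n ∈ Ioc U (2 * U), a n * (1 / (n : ℂ) ^ s) := by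
  simp only [piece, dpoly]
  refine Finset.sum_congr rfl fun n hn => ?_
  have hn0 : (n : ℂ) ≠ 0 := Nat.cast_ne_zero.2 (by rw [Finset.mem_Ioc] at hn; omega)
  rw [mul_assoc, ← cpow_add _ _ hn0,
    show -(s.re : ℂ) + -(I * (s.im : ℂ)) = -s by
      conv_rhs => rw [← re_add_im s]
      ring,
    cpow_neg, one_div]

theorem hasDerivAt_piece (U : ℕ) (a : ℕ → ℂ) (t u : ℝ) :
    HasDerivAt (fun u => piece U a u t)
      (piece U (fun n => -(Real.log n : ℂ) * a n) u t) u := by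
  simp only [piece, dpoly]
  refine HasDerivAt.fun_sum fun n hn => ?_
  have hn0 : (n : ℂ) ≠ 0 := Nat.cast_ne_zero.2 (by rw [Finset.mem_Ioc] at hn; omega)
  have h : HasDerivAt (fun z : ℂ => -z) (-1) (u : ℂ) := (hasDerivAt_id (u : ℂ)).fun_neg
  refine (((h.const_cpow (Or.inl hn0)).comp_ofReal.const_mul (a n)).mul_const _).congr_deriv ?_
  rw [← Complex.natCast_log]
  ring

theorem continuous_piece (U : ℕ) (a : ℕ → ℂ) (t : ℝ) : Continuous fun u => piece U a u t :=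
  continuous_iff_continuousAt.2 fun u => (hasDerivAt_piece U a t u).continuousAt

/-- The weighted sum of squares of the coefficients in a block. -/
def blockSum (U : ℕ) (a : ℕ → ℂ) (σ : ℝ) : ℝ :=
  ∑ n ∈ Ioc U (2 * U), (1 + Real.log n) ^ 2 * ((n : ℝ) ^ (-σ) * ‖a n‖) ^ 2

theorem blockSum_nonneg (U : ℕ) (a : ℕ → ℂ) (σ : ℝ) : 0 ≤ blockSum U a σ :=
  Finset.sum_nonneg fun n _ => by positivity

theorem exists_piece_sample : ∃ C, 0 ≤ C ∧ ∀ (U : ℕ) (a : ℕ → ℂ) (σ T : ℝ) (Z : Finset ℂ),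
    1 ≤ T → (∀ ρ ∈ Z, xiFn ρ = 0 ∧ |ρ.im| ≤ T ∧ σ ≤ ρ.re) → 0 ≤ σ →
      ∑ ρ ∈ Z, zeroWeight ρ * ‖piece U a ρ.re ρ.im‖ ^ 2 ≤
        C * ell T * ((T + (2 * U : ℕ)) *
          (blockSum U a σ + blockSum U (fun n => -(Real.log n : ℂ) * a n) σ)) := by
  obtain ⟨C, hC, hsamp⟩ := exists_sample
  refine ⟨2 * C, by positivity, fun U a σ T Z hT hZ hσ => ?_⟩
  set a' : ℕ → ℂ := fun n => -(Real.log n : ℂ) * a n with ha'
  have hsub : Ioc U (2 * U) ⊆ Icc 1 (2 * U) := fun n hn => by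
    rw [Finset.mem_Ioc] at hn; rw [Finset.mem_Icc]; omega
  set Q : ℝ := C * ell T * ((T + (2 * U : ℕ)) * (blockSum U a σ + blockSum U a' σ)) with hQ
  have hcoef : 0 ≤ C * ell T := mul_nonneg hC (ell_pos T).le
  have hTU : (0 : ℝ) ≤ T + (2 * U : ℕ) := by positivity
  have hone : ∀ (c : ℕ → ℂ) (u : ℝ), σ ≤ u →
      ∑ ρ ∈ Z, (zeroWeight ρ : ℝ) * ‖piece U c u ρ.im‖ ^ 2 ≤
        C * ell T * ((T + (2 * U : ℕ)) * blockSum U c σ) := by
    intro c u hu
    refine (hsamp _ (2 * U) _ T Z hsub hT fun ρ hρ => ⟨(hZ ρ hρ).1, (hZ ρ hρ).2.1⟩).trans ?_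
    refine mul_le_mul_of_nonneg_left (mul_le_mul_of_nonneg_left ?_ hTU) hcoef
    refine Finset.sum_le_sum fun n hn => mul_le_mul_of_nonneg_left ?_ (sq_nonneg _)
    refine pow_le_pow_left₀ (norm_nonneg _) ?_ 2
    have h1 : (1 : ℝ) ≤ n := by exact_mod_cast (Finset.mem_Icc.1 (hsub hn)).1
    rw [norm_mul, ← Complex.ofReal_natCast, norm_cpow_eq_rpow_re_of_pos (by linarith), neg_re,
      ofReal_re, mul_comm]
    exact mul_le_mul_of_nonneg_right (Real.rpow_le_rpow_of_exponent_le h1 (by linarith))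
      (norm_nonneg _)
  by_cases hσ1 : σ ≤ 1
  swap
  · have : Z = ∅ := Finset.eq_empty_of_forall_notMem fun ρ hρ =>
      hσ1 (le_trans (hZ ρ hρ).2.2 (xiFn_zero_strip (hZ ρ hρ).1).2.le)
    rw [this, Finset.sum_empty]
    have := blockSum_nonneg U a σ
    have := blockSum_nonneg U a' σ
    have := ell_pos T
    positivity
  have hpt : ∀ ρ ∈ Z, ‖piece U a ρ.re ρ.im‖ ^ 2 ≤ ‖piece U a σ ρ.im‖ ^ 2 +
      ∫ u in σ..1, (‖piece U a u ρ.im‖ ^ 2 + ‖piece U a' u ρ.im‖ ^ 2) := fun ρ hρ =>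
    norm_sq_le_add_integral (fun u => hasDerivAt_piece U a ρ.im u) (continuous_piece U a' ρ.im)
      ⟨(hZ ρ hρ).2.2, (xiFn_zero_strip (hZ ρ hρ).1).2.le⟩ ⟨le_rfl, hσ1⟩
  have hc : ∀ ρ ∈ Z, Continuous fun u => (zeroWeight ρ : ℝ) *
      (‖piece U a u ρ.im‖ ^ 2 + ‖piece U a' u ρ.im‖ ^ 2) := fun ρ _ =>
    continuous_const.mul (((continuous_piece U a _).norm.pow 2).add
      ((continuous_piece U a' _).norm.pow 2))
  have hint : ∫ u in σ..1, ∑ ρ ∈ Z, (zeroWeight ρ : ℝ) *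
      (‖piece U a u ρ.im‖ ^ 2 + ‖piece U a' u ρ.im‖ ^ 2) ≤ Q := by
    refine (intervalIntegral.integral_mono_on hσ1
      ((continuous_finsetSum _ hc).intervalIntegrable _ _) intervalIntegrable_const
      (g := fun _ => Q) fun u hu => ?_).trans ?_
    · simp only [mul_add, Finset.sum_add_distrib, hQ]
      exact add_le_add (hone a u hu.1) (hone a' u hu.1)
    · rw [intervalIntegral.integral_const, smul_eq_mul]
      refine mul_le_of_le_one_left ?_ (by linarith)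
      exact mul_nonneg hcoef (mul_nonneg hTU
        (add_nonneg (blockSum_nonneg _ _ _) (blockSum_nonneg _ _ _)))
  rw [intervalIntegral.integral_finsetSum fun ρ hρ => (hc ρ hρ).intervalIntegrable _ _] at hint
  simp only [intervalIntegral.integral_const_mul] at hint
  refine (Finset.sum_le_sum fun ρ hρ => mul_le_mul_of_nonneg_left (hpt ρ hρ)
    (Nat.cast_nonneg _)).trans ?_
  simp only [mul_add, Finset.sum_add_distrib]
  have h0 := hone a σ le_rfl
  have h1 : C * ell T * ((T + (2 * U : ℕ)) * blockSum U a σ) ≤ Q := by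
    rw [hQ]
    exact mul_le_mul_of_nonneg_left (mul_le_mul_of_nonneg_left
      (le_add_of_nonneg_right (blockSum_nonneg _ _ _)) hTU) hcoef
  rw [hQ] at hint h1
  simp only [mul_add] at hint h1 h0 ⊢
  linarith

theorem blockSum_le {U : ℕ} (hU : 1 ≤ U) {a : ℕ → ℂ} {σ : ℝ} (hσ : 0 ≤ σ)
    (ha : ∀ n, ‖a n‖ ≤ n.divisors.card) :
    blockSum U a σ + blockSum U (fun n => -(Real.log n : ℂ) * a n) σ ≤
      4 * (1 + Real.log (2 * U)) ^ 7 * (U : ℝ) ^ (1 - 2 * σ) := by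
  have hU0 : (0 : ℝ) < U := Nat.cast_pos.2 hU
  set Lam : ℝ := 1 + Real.log (2 * U) with hLam
  have hLam1 : 1 ≤ Lam := by
    have := Real.log_nonneg (show (1 : ℝ) ≤ 2 * U by have : (1:ℝ) ≤ U := by exact_mod_cast hU
                                                     linarith)
    linarith
  have hterm : ∀ n ∈ Ioc U (2 * U),
      (1 + Real.log n) ^ 2 * ((n : ℝ) ^ (-σ) * ‖a n‖) ^ 2 +
        (1 + Real.log n) ^ 2 * ((n : ℝ) ^ (-σ) * ‖-(Real.log n : ℂ) * a n‖) ^ 2 ≤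
      2 * Lam ^ 4 * (U : ℝ) ^ (-(2 * σ)) * (n.divisors.card : ℝ) ^ 2 := by
    intro n hn
    obtain ⟨hn1, hn2⟩ := Finset.mem_Ioc.1 hn
    have hnU : (U : ℝ) ≤ n := by exact_mod_cast hn1.le
    have hl0 : 0 ≤ Real.log n := Real.log_natCast_nonneg n
    have hl : Real.log n ≤ Real.log (2 * U) := Real.log_le_log (by linarith) (by exact_mod_cast hn2)
    have hp : ((n : ℝ) ^ (-σ) * ‖a n‖) ^ 2 ≤
        (U : ℝ) ^ (-(2 * σ)) * (n.divisors.card : ℝ) ^ 2 := by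
      rw [mul_pow]
      refine mul_le_mul ?_ (pow_le_pow_left₀ (norm_nonneg _) (ha n) 2) (sq_nonneg _)
        (Real.rpow_nonneg hU0.le _)
      rw [← Real.rpow_natCast, ← Real.rpow_mul (Nat.cast_nonneg n),
        show (-σ) * ((2 : ℕ) : ℝ) = -(2 * σ) by push_cast; ring]
      exact Real.rpow_le_rpow_of_nonpos hU0 hnU (by linarith)
    have h1 : (1 + Real.log n) ^ 2 ≤ Lam ^ 2 := pow_le_pow_left₀ (by linarith) (by linarith) 2
    have h2 : Real.log n ^ 2 ≤ Lam ^ 2 := pow_le_pow_left₀ hl0 (by linarith) 2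
    rw [norm_mul, norm_neg, Complex.norm_real, Real.norm_of_nonneg hl0,
      show ((n : ℝ) ^ (-σ) * (Real.log n * ‖a n‖)) ^ 2 =
        Real.log n ^ 2 * ((n : ℝ) ^ (-σ) * ‖a n‖) ^ 2 by ring]
    have hR : 0 ≤ ((n : ℝ) ^ (-σ) * ‖a n‖) ^ 2 := sq_nonneg _
    have h3 : (1 + Real.log n) ^ 2 * (1 + Real.log n ^ 2) ≤ 2 * Lam ^ 4 := by
      nlinarith [one_le_pow₀ (n := 2) hLam1, sq_nonneg (1 + Real.log n), sq_nonneg (Real.log n)]
    calc _ = (1 + Real.log n) ^ 2 * (1 + Real.log n ^ 2) * ((n : ℝ) ^ (-σ) * ‖a n‖) ^ 2 := by ring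
      _ ≤ 2 * Lam ^ 4 * ((U : ℝ) ^ (-(2 * σ)) * (n.divisors.card : ℝ) ^ 2) :=
          mul_le_mul h3 hp hR (by positivity)
      _ = _ := by ring
  rw [blockSum, blockSum, ← Finset.sum_add_distrib]
  refine (Finset.sum_le_sum hterm).trans ?_
  rw [← Finset.mul_sum]
  have hd : ∑ n ∈ Ioc U (2 * U), (n.divisors.card : ℝ) ^ 2 ≤ 2 * U * Lam ^ 3 := by
    refine (Finset.sum_le_sum_of_subset_of_nonneg (Finset.Ioc_subset_Ioc_left (Nat.zero_le U))
      fun n _ _ => sq_nonneg _).trans ((ThreePrimes.sum_card_divisors_sq_le (2 * U)).trans ?_)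
    rw [ThreePrimes.logOne, hLam]
    push_cast
    exact le_rfl
  refine (mul_le_mul_of_nonneg_left hd (by positivity)).trans (le_of_eq ?_)
  rw [show (1 : ℝ) - 2 * σ = 1 + -(2 * σ) by ring, Real.rpow_add hU0, Real.rpow_one]
  ring

/-- Splitting `(X, X 2 ^ J]` dyadically. -/
theorem sum_dyadic {M : Type*} [AddCommMonoid M] (X J : ℕ) (f : ℕ → M) :
    ∑ j ∈ range J, ∑ n ∈ Ioc (X * 2 ^ j) (2 * (X * 2 ^ j)), f n = ∑ n ∈ Ioc X (X * 2 ^ J), f n := by
  induction J with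
  | zero => simp
  | succ J ih =>
    rw [Finset.sum_range_succ, ih, show 2 * (X * 2 ^ J) = X * 2 ^ (J + 1) by ring,
      show Ioc X (X * 2 ^ (J + 1)) = Ioc X (X * 2 ^ J) ∪ Ioc (X * 2 ^ J) (X * 2 ^ (J + 1)) from
        (Finset.Ioc_union_Ioc_eq_Ioc (Nat.le_mul_of_pos_right X (by positivity))
          (Nat.mul_le_mul_left X (Nat.pow_le_pow_right two_pos (Nat.le_succ J)))).symm,
      Finset.sum_union (Finset.Ioc_disjoint_Ioc_of_le le_rfl)]

/-- The mollified series is small at a zero. -/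
theorem norm_mollified_le {T : ℝ} {X : ℕ} (hT : 100000000000 ≤ T) (hX1 : T / 2 ≤ X)
    (hX2 : (X : ℝ) ≤ T) {ρ : ℂ} (hρ : xiFn ρ = 0) (hre : 5 / 6 ≤ ρ.re) (him1 : T / 2 ≤ |ρ.im|)
    (him2 : |ρ.im| ≤ T) :
    ‖(∑ d ∈ Icc 1 X, ((μ d : ℤ) : ℂ) * (1 / (d : ℂ) ^ ρ)) * ∑ m ∈ Icc 1 (X * X), 1 / (m : ℂ) ^ ρ‖
      ≤ 1 / 2 := by
  obtain ⟨h0, h1⟩ := xiFn_zero_strip hρ
  have hρ1 : ρ ≠ 1 := fun h => by rw [h] at h1; simp at h1
  have hX0 : (0 : ℝ) < X := by linarith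
  have hXnat : 1 ≤ X := by exact_mod_cast (show (1 : ℝ) ≤ X by linarith)
  have hN : 1 ≤ X * X := Nat.one_le_iff_ne_zero.2 (Nat.mul_ne_zero (by omega) (by omega))
  have hz : riemannZeta ρ = 0 := (xiFn_eq_zero_iff h0 hρ1).1 hρ
  have htr := riemannZeta_truncated h0 hρ1 hN
  rw [hz] at htr
  have hXX : (((X * X : ℕ) : ℕ) : ℝ) = (X : ℝ) * X := by push_cast; ring
  -- the integral
  have hI : ‖∫ t in Set.Ioi (((X * X : ℕ) : ℝ)),
      ((t - (⌊t⌋₊ : ℝ) : ℝ) : ℂ) * (t : ℂ) ^ (-(ρ + 1))‖ ≤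
      ((X : ℝ) * X) ^ (-ρ.re) / ρ.re := by
    rw [hXX]
    have hXX0 : (0 : ℝ) < (X : ℝ) * X := by positivity
    refine (norm_integral_le_integral_norm _).trans ?_
    have hle : ∫ t in Set.Ioi ((X : ℝ) * X),
        ‖((t - (⌊t⌋₊ : ℝ) : ℝ) : ℂ) * (t : ℂ) ^ (-(ρ + 1))‖ ≤
        ∫ t in Set.Ioi ((X : ℝ) * X), t ^ (-(ρ.re + 1)) := by
      refine setIntegral_mono_on ?_ (integrableOn_Ioi_rpow_of_lt (by linarith) hXX0)
        measurableSet_Ioi
        fun t ht => CycloGrowth.norm_fracIntegrand_le (s := ρ) ?_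
      · refine Integrable.mono' (integrableOn_Ioi_rpow_of_lt (by linarith : -(ρ.re + 1) < -1) hXX0)
          ((CycloGrowth.measurable_frac.mul
            (Complex.measurable_ofReal.pow_const _)).norm.aestronglyMeasurable) ?_
        filter_upwards [ae_restrict_mem measurableSet_Ioi] with t ht
        rw [norm_norm]
        refine CycloGrowth.norm_fracIntegrand_le (s := ρ) ?_
        simp only [Set.mem_Ioi] at ht ⊢
        nlinarith
      · simp only [Set.mem_Ioi] at ht ⊢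
        nlinarith
    refine hle.trans (le_of_eq ?_)
    rw [integral_Ioi_rpow_of_lt (by linarith) hXX0, show -(ρ.re + 1) + 1 = -ρ.re by ring,
      neg_div_neg_eq]
  have hsum : ∑ m ∈ Icc 1 (X * X), 1 / (m : ℂ) ^ ρ =
      ρ * (∫ t in Set.Ioi (((X * X : ℕ) : ℝ)), ((t - (⌊t⌋₊ : ℝ) : ℝ) : ℂ) * (t : ℂ) ^ (-(ρ + 1))) -
        ((X * X : ℕ) : ℂ) ^ (1 - ρ) / (ρ - 1) := by linear_combination -htr
  set R : ℝ := ((X : ℝ) * X) ^ (1 / 6 : ℝ) with hR
  have hXX1 : (1 : ℝ) ≤ (X : ℝ) * X := by nlinarith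
  have hρn : ‖ρ‖ ≤ 2 * T := by
    have := norm_le_abs_re_add_abs_im ρ
    rw [abs_of_pos h0] at this
    linarith
  have hS : ‖∑ m ∈ Icc 1 (X * X), 1 / (m : ℂ) ^ ρ‖ ≤ 14 * R / T := by
    rw [hsum]
    refine (norm_sub_le _ _).trans ?_
    have a1 : ‖ρ * (∫ t in Set.Ioi (((X * X : ℕ) : ℝ)),
        ((t - (⌊t⌋₊ : ℝ) : ℝ) : ℂ) * (t : ℂ) ^ (-(ρ + 1)))‖ ≤ 12 * R / T := by
      rw [norm_mul]
      refine (mul_le_mul hρn hI (norm_nonneg _) (by linarith)).trans ?_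
      have e1 : ((X : ℝ) * X) ^ (-ρ.re) ≤ R / ((X : ℝ) * X) := by
        rw [hR, ← Real.rpow_sub_one (by positivity)]
        exact Real.rpow_le_rpow_of_exponent_le hXX1 (by linarith)
      have e2 : ((X : ℝ) * X) ^ (-ρ.re) / ρ.re ≤ R / ((X : ℝ) * X) * (6 / 5) := by
        rw [div_le_iff₀ h0]
        nlinarith [Real.rpow_nonneg (by positivity : (0:ℝ) ≤ (X:ℝ) * X) (-ρ.re)]
      have e3 : R / ((X : ℝ) * X) ≤ 4 * R / T ^ 2 := by
        rw [div_le_div_iff₀ (by positivity) (by positivity)]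
        have : T ^ 2 ≤ 4 * ((X : ℝ) * X) := by nlinarith
        nlinarith [Real.rpow_nonneg (by positivity : (0:ℝ) ≤ (X:ℝ) * X) (1 / 6 : ℝ)]
      calc 2 * T * (((X : ℝ) * X) ^ (-ρ.re) / ρ.re) ≤ 2 * T * (4 * R / T ^ 2 * (6 / 5)) := by
            refine mul_le_mul_of_nonneg_left (e2.trans ?_) (by linarith)
            exact mul_le_mul_of_nonneg_right e3 (by norm_num)
        _ ≤ 12 * R / T := by
            rw [show 2 * T * (4 * R / T ^ 2 * (6 / 5)) = 48 / 5 * R / T by field_simp; ring]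
            gcongr
            norm_num
    have a2 : ‖((X * X : ℕ) : ℂ) ^ (1 - ρ) / (ρ - 1)‖ ≤ 2 * R / T := by
      rw [norm_div, ← Complex.ofReal_natCast, norm_cpow_eq_rpow_re_of_pos (by rw [hXX]; positivity),
        hXX, sub_re, one_re, show 2 * R / T = R / (T / 2) by field_simp]
      refine div_le_div₀ (Real.rpow_nonneg (by positivity) _)
        (Real.rpow_le_rpow_of_exponent_le hXX1 (by linarith)) (by linarith) ?_
      exact him1.trans (by simpa using abs_im_le_norm (ρ - 1))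
    calc _ ≤ 12 * R / T + 2 * R / T := add_le_add a1 a2
      _ = _ := by ring
  have hM : ‖∑ d ∈ Icc 1 X, ((μ d : ℤ) : ℂ) * (1 / (d : ℂ) ^ ρ)‖ ≤ 2 * √(X : ℝ) := by
    refine (norm_sum_le _ _).trans ?_
    refine le_trans ?_ (Subconvexity.sum_inv_sqrt_le X)
    rw [show Icc 1 X = Ico 1 (X + 1) from rfl]
    refine Finset.sum_le_sum fun d hd => ?_
    have hd1 : (1 : ℝ) ≤ d := by exact_mod_cast (Finset.mem_Ico.1 hd).1
    rw [norm_mul, norm_div, norm_one, ← Complex.ofReal_natCast,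
      norm_cpow_eq_rpow_re_of_pos (by linarith), Real.sqrt_eq_rpow]
    calc ‖((μ d : ℤ) : ℂ)‖ * (1 / (d : ℝ) ^ ρ.re) ≤ 1 * (1 / (d : ℝ) ^ (1 / 2 : ℝ)) := by
          refine mul_le_mul ?_ (one_div_le_one_div_of_le (by positivity)
            (Real.rpow_le_rpow_of_exponent_le hd1 (by linarith))) (by positivity) zero_le_one
          rw [Complex.norm_intCast, ← Int.cast_abs, ← Int.cast_one, Int.cast_le]
          exact abs_moebius_le_one
      _ = _ := one_mul _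
  rw [norm_mul]
  refine (mul_le_mul hM hS (norm_nonneg _) (by positivity)).trans ?_
  have hT0 : 0 < T := by linarith
  have e4 : √(X : ℝ) * R ≤ T ^ (5 / 6 : ℝ) := by
    rw [hR, Real.sqrt_eq_rpow, show (5 / 6 : ℝ) = 1 / 2 + 2 * (1 / 6) by norm_num,
      Real.rpow_add hT0, Real.rpow_mul hT0.le, Real.rpow_two, sq]
    refine mul_le_mul (Real.rpow_le_rpow hX0.le hX2 (by norm_num))
      (Real.rpow_le_rpow (by positivity)
      (mul_le_mul hX2 hX2 hX0.le hT0.le) (by norm_num)) (by positivity) (by positivity)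
  rw [show 2 * √(X : ℝ) * (14 * R / T) = 28 * (√(X : ℝ) * R) / T by ring, div_le_iff₀ hT0]
  have e5 : T ^ (5 / 6 : ℝ) * 56 ≤ T := by
    have h56 : (56 : ℝ) ≤ T ^ (1 / 6 : ℝ) := by
      refine le_trans ?_ (Real.rpow_le_rpow (x := (100000000000 : ℝ)) (by norm_num) hT
        (by norm_num : (0 : ℝ) ≤ 1 / 6))
      have h6 : ((100000000000 : ℝ) ^ (1 / 6 : ℝ)) ^ (6 : ℕ) = 100000000000 := by
        rw [← Real.rpow_natCast, ← Real.rpow_mul (by norm_num)]
        norm_num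
      refine le_of_pow_le_pow_left₀ (n := 6) (by norm_num)
        (Real.rpow_nonneg (by norm_num) _) ?_
      rw [h6]
      norm_num
    calc T ^ (5 / 6 : ℝ) * 56 ≤ T ^ (5 / 6 : ℝ) * T ^ (1 / 6 : ℝ) :=
          mul_le_mul_of_nonneg_left h56 (by positivity)
      _ = T := by rw [← Real.rpow_add hT0]; norm_num
  linarith

/-- The zeros with `re ρ ≥ σ`, `|im ρ| ≤ T`, with multiplicity. -/
def countGe (σ T : ℝ) : ℕ := ∑ ρ ∈ (zerosUpTo T).filter (fun ρ => σ ≤ ρ.re), zeroWeight ρ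

theorem countGe_mono (σ : ℝ) {S T : ℝ} (h : S ≤ T) : countGe σ S ≤ countGe σ T :=
  Finset.sum_le_sum_of_subset fun ρ hρ => by
    simp only [Finset.mem_filter, mem_zerosUpTo] at hρ ⊢
    exact ⟨⟨hρ.1.1, hρ.1.2.trans h⟩, hρ.2⟩

/-- The band `T/2 < |im ρ| ≤ T`. -/
theorem exists_band : ∃ C, 0 ≤ C ∧ ∀ σ T : ℝ, 100000000000 ≤ T → 5 / 6 ≤ σ → σ ≤ 1 →
    ∑ ρ ∈ ((zerosUpTo T).filter (fun ρ => σ ≤ ρ.re)).filter (fun ρ => T / 2 < |ρ.im|),
      (zeroWeight ρ : ℝ) ≤ C * T ^ (6 * (1 - σ)) * Real.log T ^ 10 := by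
  obtain ⟨C, hC, hsamp⟩ := exists_piece_sample
  refine ⟨4 * 25 * (C * 2 * (8 * 4 * 5 ^ 7)), by positivity, fun σ T hT hσ hσ1 => ?_⟩
  set Z := ((zerosUpTo T).filter (fun ρ => σ ≤ ρ.re)).filter (fun ρ => T / 2 < |ρ.im|)
  have hZ : ∀ ρ ∈ Z, xiFn ρ = 0 ∧ |ρ.im| ≤ T ∧ σ ≤ ρ.re ∧ T / 2 < |ρ.im| := fun ρ hρ => by
    simp only [Z, Finset.mem_filter, mem_zerosUpTo] at hρ
    exact ⟨hρ.1.1.1, hρ.1.1.2, hρ.1.2, hρ.2⟩
  set X : ℕ := ⌊T⌋₊ with hX
  have hX2 : (X : ℝ) ≤ T := Nat.floor_le (by linarith)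
  have hX1 : T / 2 ≤ X := by have := Nat.lt_floor_add_one T; rw [← hX] at this; linarith
  have hXnat : 1 ≤ X := by exact_mod_cast (show (1 : ℝ) ≤ X by linarith)
  set J : ℕ := Nat.log 2 (X * X) + 1 with hJ
  set a := molCoeff X (X * X)
  set L : ℝ := Real.log T with hL
  have hT0 : 0 < T := by linarith
  have hL2 : 2 ≤ L := by
    rw [hL, Real.le_log_iff_exp_le hT0]
    have := Real.exp_one_lt_d9
    rw [show (2 : ℝ) = 1 + 1 by norm_num, Real.exp_add]
    nlinarith [Real.exp_pos 1]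
  have hlog2 : (1 : ℝ) / 2 ≤ Real.log 2 := by linarith [Real.log_two_gt_d9]
  have hpow : ((2 : ℝ) ^ Nat.log 2 (X * X)) ≤ (X : ℝ) * X := by
    exact_mod_cast Nat.pow_log_le_self 2 (Nat.mul_ne_zero (by omega : X ≠ 0) (by omega : X ≠ 0))
  have hJL : (J : ℝ) ≤ 5 * L := by
    have h := Real.log_le_log (by positivity) (hpow.trans
      (mul_le_mul hX2 hX2 (Nat.cast_nonneg _) hT0.le))
    rw [Real.log_pow, Real.log_mul hT0.ne' hT0.ne', ← hL] at h
    rw [hJ]; push_cast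
    nlinarith [mul_le_mul_of_nonneg_left hlog2 (Nat.cast_nonneg (α := ℝ) (Nat.log 2 (X * X)))]
  have hdec : ∀ ρ ∈ Z, (1 : ℝ) / 4 ≤ J * ∑ j ∈ range J, ‖piece (X * 2 ^ j) a ρ.re ρ.im‖ ^ 2 := by
    intro ρ hρ
    obtain ⟨h0, h1, h2, h3⟩ := hZ ρ hρ
    have hsmall := norm_mollified_le (X := X) hT hX1 hX2 h0 (hσ.trans h2)
      h3.le h1
    rw [mollified_eq X (X * X) hXnat (Nat.le_mul_of_pos_left X (by omega)) ρ] at hsmall
    have hbig : 1 / 2 ≤ ‖∑ n ∈ Ioc X (X * (X * X)), a n * (1 / (n : ℂ) ^ ρ)‖ := by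
      have := norm_sub_norm_le (1 : ℂ) (-∑ n ∈ Ioc X (X * (X * X)), a n * (1 / (n : ℂ) ^ ρ))
      rw [norm_one, norm_neg, sub_neg_eq_add] at this
      linarith
    have hsplit : ∑ n ∈ Ioc X (X * (X * X)), a n * (1 / (n : ℂ) ^ ρ) =
        ∑ j ∈ range J, piece (X * 2 ^ j) a ρ.re ρ.im := by
      simp only [piece_eq]
      rw [sum_dyadic]
      refine Finset.sum_subset (Finset.Ioc_subset_Ioc_right (Nat.mul_le_mul_left X
        (Nat.lt_pow_succ_log_self one_lt_two _).le)) fun n hn hn' => ?_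
      simp only [Finset.mem_Ioc] at hn hn'
      rw [show a n = 0 from molCoeff_eq_zero_of_gt (by omega), zero_mul]
    rw [hsplit] at hbig
    have h4 := (hbig.trans (norm_sum_le _ _))
    have h5 := sq_sum_le_card_mul_sum_sq (s := range J)
      (f := fun j => ‖piece (X * 2 ^ j) a ρ.re ρ.im‖)
    rw [Finset.card_range] at h5
    nlinarith [pow_le_pow_left₀ (by norm_num) h4 2]
  have hell : ell T ≤ 2 * L := by
    rw [hL, ell, abs_of_pos hT0, show 2 * Real.log T = Real.log (T ^ 2) by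
      rw [Real.log_pow]; norm_num]
    exact Real.log_le_log (by positivity) (by nlinarith)
  have hblock : ∀ j ∈ range J, ∑ ρ ∈ Z, (zeroWeight ρ : ℝ) *
      ‖piece (X * 2 ^ j) a ρ.re ρ.im‖ ^ 2 ≤
        C * 2 * (8 * 4 * 5 ^ 7) * L ^ 8 * T ^ (6 * (1 - σ)) := by
    intro j hj
    refine (hsamp (X * 2 ^ j) a σ T Z (by linarith) (fun ρ hρ =>
      ⟨(hZ ρ hρ).1, (hZ ρ hρ).2.1, (hZ ρ hρ).2.2.1⟩) (by linarith)).trans ?_
    set U := X * 2 ^ j with hU
    have hU1 : 1 ≤ U := Nat.one_le_iff_ne_zero.2 (Nat.mul_ne_zero (by omega) (by positivity))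
    have hUX : (X : ℝ) ≤ U := by
      exact_mod_cast Nat.le_mul_of_pos_right X (by positivity : 0 < 2 ^ j)
    have hU3 : (U : ℝ) ≤ T ^ 3 := by
      have h : (2 : ℝ) ^ j ≤ (X : ℝ) * X := le_trans
        (pow_le_pow_right₀ one_le_two (Nat.le_of_lt_succ (mem_range.1 hj))) hpow
      rw [hU]; push_cast
      calc (X : ℝ) * 2 ^ j ≤ T * (T * T) := mul_le_mul hX2
            (h.trans (mul_le_mul hX2 hX2 (Nat.cast_nonneg _) hT0.le)) (by positivity) hT0.le
        _ = T ^ 3 := by ring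
    have hLam : 1 + Real.log (2 * (U : ℝ)) ≤ 5 * L := by
      have h : Real.log (2 * (U : ℝ)) ≤ Real.log (T ^ 4) := by
        refine Real.log_le_log (by positivity) ?_
        nlinarith [mul_le_mul_of_nonneg_right (show (2 : ℝ) ≤ T by linarith)
          (show (0 : ℝ) ≤ T ^ 3 by positivity)]
      rw [Real.log_pow, ← hL] at h
      push_cast at h
      linarith
    have hLam0 : 0 ≤ 1 + Real.log (2 * (U : ℝ)) := by
      have := Real.log_nonneg (show (1 : ℝ) ≤ 2 * U by linarith)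
      linarith
    have hb : blockSum U a σ + blockSum U (fun n => -(Real.log n : ℂ) * a n) σ ≤
        4 * (5 * L) ^ 7 * (U : ℝ) ^ (1 - 2 * σ) :=
      (blockSum_le hU1 (by linarith) fun n => norm_molCoeff_le _ _ n).trans
        (by gcongr)
    have hTU : T + ((2 * U : ℕ) : ℝ) ≤ 4 * U := by push_cast; linarith
    have hpw : (U : ℝ) * (U : ℝ) ^ (1 - 2 * σ) ≤ T ^ (6 * (1 - σ)) := by
      rw [show (U : ℝ) * (U : ℝ) ^ (1 - 2 * σ) = (U : ℝ) ^ (1 + (1 - 2 * σ)) by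
          rw [Real.rpow_add (by linarith), Real.rpow_one],
        show 6 * (1 - σ) = ((3 : ℕ) : ℝ) * (1 + (1 - 2 * σ)) by push_cast; ring,
        Real.rpow_mul hT0.le, Real.rpow_natCast]
      exact Real.rpow_le_rpow (Nat.cast_nonneg U) hU3 (by linarith)
    have hb0 := add_nonneg (blockSum_nonneg U a σ)
      (blockSum_nonneg U (fun n => -(Real.log n : ℂ) * a n) σ)
    calc C * ell T * ((T + ((2 * U : ℕ) : ℝ)) *
          (blockSum U a σ + blockSum U (fun n => -(Real.log n : ℂ) * a n) σ))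
        ≤ C * (2 * L) * ((4 * U) * (4 * (5 * L) ^ 7 * (U : ℝ) ^ (1 - 2 * σ))) := by
          refine mul_le_mul (mul_le_mul_of_nonneg_left hell hC)
            (mul_le_mul hTU hb hb0 (by positivity))
            (mul_nonneg (by positivity) hb0) (by positivity)
      _ = C * 2 * (4 * 4 * 5 ^ 7) * L ^ 8 * ((U : ℝ) * (U : ℝ) ^ (1 - 2 * σ)) := by ring
      _ ≤ C * 2 * (8 * 4 * 5 ^ 7) * L ^ 8 * T ^ (6 * (1 - σ)) := by gcongr; norm_num
  have hmain := Finset.sum_le_sum hblock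
  rw [Finset.sum_comm, Finset.sum_const, Finset.card_range, nsmul_eq_mul] at hmain
  simp only [← Finset.mul_sum] at hmain
  have hL0 : 0 ≤ L := by linarith
  calc ∑ ρ ∈ Z, (zeroWeight ρ : ℝ)
      ≤ ∑ ρ ∈ Z, 4 * (J : ℝ) * ((zeroWeight ρ : ℝ) *
          ∑ j ∈ range J, ‖piece (X * 2 ^ j) a ρ.re ρ.im‖ ^ 2) := by
        refine Finset.sum_le_sum fun ρ hρ => ?_
        have := mul_le_mul_of_nonneg_left (hdec ρ hρ) (Nat.cast_nonneg (α := ℝ) (zeroWeight ρ))
        linarith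
    _ ≤ 4 * (J : ℝ) * ((J : ℝ) * (C * 2 * (8 * 4 * 5 ^ 7) * L ^ 8 * T ^ (6 * (1 - σ)))) := by
        rw [← Finset.mul_sum]
        exact mul_le_mul_of_nonneg_left hmain (by positivity)
    _ ≤ 4 * (5 * L) * ((5 * L) * (C * 2 * (8 * 4 * 5 ^ 7) * L ^ 8 * T ^ (6 * (1 - σ)))) := by
        gcongr
    _ = _ := by ring

theorem exists_countGe_trivial : ∃ C, 0 ≤ C ∧ ∀ σ T : ℝ, 2 ≤ T →
    (countGe σ T : ℝ) ≤ C * (T * Real.log T) := by
  obtain ⟨C, hC, h⟩ := exists_sum_blocks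
  refine ⟨28 * C, by positivity, fun σ T hT => ?_⟩
  have hb := h ((zerosUpTo T).filter (fun ρ => σ ≤ ρ.re)) (range (⌊T⌋₊ + 1))
    (fun _ => 1) (fun _ => 1)
    (fun ρ hρ => ?_) fun k _ => zero_le_one
  swap
  · simp only [Finset.mem_filter, mem_zerosUpTo] at hρ
    exact ⟨hρ.1.1, mem_range.2 (Nat.lt_succ_of_le (Nat.floor_le_floor hρ.1.2)), le_rfl⟩
  simp only [mul_one] at hb
  rw [countGe, Nat.cast_sum]
  refine hb.trans ?_
  have hl : ell T ≤ 7 * Real.log T := by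
    rw [ell, abs_of_pos (by linarith), show (7 : ℝ) * Real.log T = Real.log (T ^ 7) by
      rw [Real.log_pow]; norm_num]
    refine Real.log_le_log (by positivity) ?_
    have : (2 : ℝ) ^ 6 ≤ T ^ 6 := pow_le_pow_left₀ two_pos.le hT 6
    nlinarith
  calc C * ∑ k ∈ range (⌊T⌋₊ + 1), ell k ≤ C * ∑ _k ∈ range (⌊T⌋₊ + 1), ell T := by
        refine mul_le_mul_of_nonneg_left (Finset.sum_le_sum fun k hk => ell_mono ?_) hC
        rw [Nat.abs_cast, abs_of_nonneg (by linarith : 0 ≤ T)]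
        exact (Nat.cast_le.2 (Nat.le_of_lt_succ (mem_range.1 hk))).trans
          (Nat.floor_le (by linarith))
    _ ≤ C * (2 * T * (7 * Real.log T)) := by
        rw [Finset.sum_const, Finset.card_range, nsmul_eq_mul]
        refine mul_le_mul_of_nonneg_left (mul_le_mul ?_ hl (ell_pos T).le (by linarith)) hC
        push_cast
        linarith [Nat.floor_le (show 0 ≤ T by linarith)]
    _ ≤ _ := by nlinarith [mul_nonneg hC (mul_nonneg (show 0 ≤ T by linarith)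
        (Real.log_nonneg (show (1 : ℝ) ≤ T by linarith)))]

/-- **The zero-density theorem.** -/
theorem exists_zero_density : ∃ C, 0 ≤ C ∧ ∀ σ T : ℝ, 2 ≤ T →
    (countGe σ T : ℝ) ≤ C * T ^ (6 * (1 - σ)) * Real.log T ^ 11 := by
  obtain ⟨C₀, hC₀, htriv⟩ := exists_countGe_trivial
  obtain ⟨C₁, hC₁, hband⟩ := exists_band
  obtain ⟨T₀, hT₀⟩ : ∃ T₀ : ℝ, T₀ = 100000000000 := ⟨_, rfl⟩
  set M : ℝ := (countGe 0 T₀ : ℝ) with hM
  refine ⟨C₀ * 4 ^ 10 + M * 4 ^ 11 + 3 * C₁, by positivity, fun σ T hT => ?_⟩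
  set L := Real.log T with hLdef
  have hL : 1 / 2 ≤ L := le_trans (by linarith [Real.log_two_gt_d9]) (Real.log_le_log two_pos hT)
  have hp1 : ∀ m : ℕ, 1 ≤ (2 * L) ^ m := fun m => one_le_pow₀ (by linarith)
  have hT0 : 0 < T := by linarith
  set P := T ^ (6 * (1 - σ)) with hP
  have hP0 : 0 ≤ P := Real.rpow_nonneg hT0.le _
  have expand : (C₀ * 4 ^ 10 + M * 4 ^ 11 + 3 * C₁) * P * L ^ 11 =
      C₀ * 4 ^ 10 * P * L ^ 11 + M * 4 ^ 11 * P * L ^ 11 + 3 * C₁ * P * L ^ 11 := by ring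
  rw [expand]
  have e1 : 0 ≤ C₀ * 4 ^ 10 * P * L ^ 11 := by positivity
  have e2 : 0 ≤ M * 4 ^ 11 * P * L ^ 11 := by positivity
  have e3 : 0 ≤ 3 * C₁ * P * L ^ 11 := by positivity
  rcases le_or_gt σ (5 / 6) with hσ | hσ
  · have hTP : T ≤ P := by
      rw [hP]
      exact Real.self_le_rpow_of_one_le (by linarith) (by linarith)
    have h1 : L ≤ 4 ^ 10 * L ^ 11 := by
      have := hp1 10
      rw [mul_pow] at this
      nlinarith [pow_le_pow_left₀ (by norm_num) (show (2:ℝ) ≤ 4 by norm_num) 10,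
        pow_nonneg (show 0 ≤ L by linarith) 10]
    have := htriv σ T hT
    nlinarith [mul_le_mul hTP h1 (by linarith) hP0]
  rcases le_or_gt σ 1 with hσ1 | hσ1
  swap
  · have : countGe σ T = 0 := Finset.sum_eq_zero fun ρ hρ => by
      simp only [Finset.mem_filter, mem_zerosUpTo] at hρ
      linarith [(xiFn_zero_strip hρ.1.1).2]
    rw [this, Nat.cast_zero]
    linarith
  have hiter : ∀ j : ℕ, ∀ S : ℝ, 2 ≤ S → S ≤ T → S ≤ 2 ^ j * T₀ →
      (countGe σ S : ℝ) ≤ M + j * (C₁ * P * L ^ 10) := by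
    intro j
    induction j with
    | zero =>
      intro S _ _ hS
      rw [pow_zero, one_mul] at hS
      simp only [Nat.cast_zero, zero_mul, add_zero, hM, Nat.cast_le]
      refine (countGe_mono σ hS).trans (Finset.sum_le_sum_of_subset fun ρ hρ => ?_)
      simp only [Finset.mem_filter, mem_zerosUpTo] at hρ ⊢
      exact ⟨hρ.1, by linarith⟩
    | succ j ih =>
      intro S hS2 hST hS
      rcases le_or_gt S (2 ^ j * T₀) with h | h
      · refine (ih S hS2 hST h).trans ?_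
        push_cast
        nlinarith [show 0 ≤ C₁ * P * L ^ 10 by positivity]
      have hS0 : T₀ ≤ S := le_trans (le_mul_of_one_le_left (by rw [hT₀]; norm_num)
        (one_le_pow₀ one_le_two)) h.le
      have hb := hband σ S (hT₀ ▸ hS0) hσ.le hσ1
      have hpre := ih (S / 2) (by rw [hT₀] at hS0; linarith) (by linarith)
        (by rw [pow_succ] at hS; linarith)
      have hsplit : (countGe σ S : ℝ) = (countGe σ (S / 2) : ℝ) +
          ∑ ρ ∈ ((zerosUpTo S).filter (fun ρ => σ ≤ ρ.re)).filter (fun ρ => S / 2 < |ρ.im|),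
            (zeroWeight ρ : ℝ) := by
        rw [countGe, countGe, Nat.cast_sum, Nat.cast_sum,
          ← Finset.sum_filter_add_sum_filter_not ((zerosUpTo S).filter (fun ρ => σ ≤ ρ.re))
            (fun ρ => |ρ.im| ≤ S / 2)]
        congr 1
        · refine Finset.sum_congr ?_ fun _ _ => rfl
          ext ρ
          simp only [Finset.mem_filter, mem_zerosUpTo]
          constructor
          · rintro ⟨⟨⟨a, -⟩, b⟩, c⟩; exact ⟨⟨a, c⟩, b⟩
          · rintro ⟨⟨a, c⟩, b⟩; exact ⟨⟨⟨a, by linarith⟩, b⟩, c⟩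
        · simp only [not_le]
      have hSp : S ^ (6 * (1 - σ)) * Real.log S ^ 10 ≤ P * L ^ 10 := by
        refine mul_le_mul (Real.rpow_le_rpow (by linarith) hST (by linarith))
          (pow_le_pow_left₀ (Real.log_nonneg (by linarith)) (Real.log_le_log (by linarith) hST) 10)
          (pow_nonneg (Real.log_nonneg (by linarith)) 10) hP0
      rw [hsplit]
      push_cast
      nlinarith [mul_le_mul_of_nonneg_left hSp hC₁]
  set j := Nat.log 2 ⌊T⌋₊ + 1 with hj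
  have hjT : T ≤ 2 ^ j * T₀ := by
    have h1 : (⌊T⌋₊ : ℕ) + 1 ≤ 2 ^ j := Nat.lt_pow_succ_log_self one_lt_two _
    have h2 : ((⌊T⌋₊ : ℕ) : ℝ) + 1 ≤ (2 : ℝ) ^ j := by exact_mod_cast h1
    have h3 : (1 : ℝ) ≤ T₀ := by rw [hT₀]; norm_num
    nlinarith [Nat.lt_floor_add_one T, show (0 : ℝ) ≤ (2 : ℝ) ^ j by positivity]
  have hjL : (j : ℝ) ≤ 3 * L := by
    have hn0 : ⌊T⌋₊ ≠ 0 := (Nat.floor_pos.2 (by linarith)).ne'
    have h1 : ((2 : ℝ) ^ Nat.log 2 ⌊T⌋₊) ≤ T :=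
      le_trans (by exact_mod_cast Nat.pow_log_le_self 2 hn0) (Nat.floor_le hT0.le)
    have h2 := Real.log_le_log (by positivity) h1
    rw [Real.log_pow] at h2
    rcases Nat.eq_zero_or_pos (Nat.log 2 ⌊T⌋₊) with h0 | h0
    · rw [hj, h0]; push_cast; linarith
    have h3 : (1 : ℝ) ≤ (Nat.log 2 ⌊T⌋₊ : ℝ) := by exact_mod_cast h0
    rw [hj]; push_cast
    nlinarith [Real.log_two_gt_d9, Real.log_two_lt_d9]
  have h := hiter j T hT le_rfl hjT
  have hM1 : M ≤ M * 4 ^ 11 * P * L ^ 11 := by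
    have h1 : 1 ≤ P := Real.one_le_rpow (by linarith) (by linarith)
    have h2 := hp1 11
    rw [mul_pow] at h2
    have h24 : (2 : ℝ) ^ 11 * L ^ 11 ≤ 4 ^ 11 * L ^ 11 := by gcongr; norm_num
    have : (1 : ℝ) ≤ 4 ^ 11 * P * L ^ 11 := by nlinarith
    nlinarith [show 0 ≤ M from Nat.cast_nonneg _]
  have hstep : (j : ℝ) * (C₁ * P * L ^ 10) ≤ 3 * C₁ * P * L ^ 11 := by
    nlinarith [show 0 ≤ C₁ * P * L ^ 10 by positivity]
  linarith

end FA.Hoheisel
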